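import Fermat.Agent.S34.Mod.Act
import Fermat.Agent.S34.T.Main
import Fermat.Agent.S18.KLAll
import Fermat.Agent.ES.AlgGal

/-!
# S34 / MOD-CORE : the toric theorem for `X₀(M1 q)`, `r ∣ M1`  (helper4)

`tor_core`: `σ` in the decomposition group acting like `x ↦ x ^ Q` at the crossing points; `u` with divisor divisible by `n`, `q ∤ n`, unit constant reductions on both
components `⟹ σ u = u ^ Q g ^ n`.  Direct application of `T.tor`.
-/

set_option autoImplicit false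
set_option synthInstance.maxHeartbeats 400000
set_option linter.unusedSectionVars false

open HahnSeries ModularCurve AlgebraicCurve Polynomial Fermat.Agent.S24 Fermat.Agent.S29
  Fermat.Agent.S18 Fermat.Agent.ES Fermat.Agent.ES.Alg Fermat.Agent.S34.T

noncomputable section

namespace Fermat.Agent.S34.Mod

/-- an element which is a unit constant modulo `𝔪` at `∞` -/
theorem core_unit {N : ℕ} [NeZero N] {A : ValuationSubring Kb} (a : Aˣ) {u : FN N}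
    (h : Cong A N (algebraMap Kb (FN N) ((a : A) : Kb) * u)) :
    ∃ (hu : u ∈ Vinf A N), u⁻¹ ∈ Vinf A N ∧ resInf A N ⟨u, hu⟩ =
      resInf A N ⟨algebraMap Kb (FN N) (((a⁻¹ : Aˣ) : A) : Kb), algebraMap_mem_Vinf _⟩ := by
  obtain ⟨hm, hres⟩ := cong_iff.1 h
  have ha0 : ((a : A) : Kb) ≠ 0 := by
    intro h0
    exact a.ne_zero (Subtype.ext h0)
  have haa : (((a⁻¹ : Aˣ) : A) : Kb) * ((a : A) : Kb) = 1 := congrArg Subtype.val a.inv_mul
  have e1 : u = algebraMap Kb (FN N) (((a⁻¹ : Aˣ) : A) : Kb) *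
      (algebraMap Kb (FN N) ((a : A) : Kb) * u) := by
    rw [← mul_assoc, ← map_mul, haa, map_one, one_mul]
  have hu : u ∈ Vinf A N := by
    rw [e1]
    exact mul_mem (algebraMap_mem_Vinf _) hm
  have hx : (⟨u, hu⟩ : Vinf A N) =
      ⟨algebraMap Kb (FN N) (((a⁻¹ : Aˣ) : A) : Kb), algebraMap_mem_Vinf _⟩ * ⟨_, hm⟩ :=
    Subtype.ext e1
  have hinv := inv_mem_Vinf (x := (⟨_, hm⟩ : Vinf A N)) (by rw [hres]; exact one_ne_zero)
  refine ⟨hu, ?_, by rw [hx, map_mul, hres, mul_one]⟩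
  have e2 : u⁻¹ = algebraMap Kb (FN N) ((a : A) : Kb) *
      (algebraMap Kb (FN N) ((a : A) : Kb) * u)⁻¹ := by
    have h1 : algebraMap Kb (FN N) ((a : A) : Kb) ≠ 0 :=
      (map_ne_zero_iff _ (algebraMap Kb (FN N)).injective).2 ha0
    rw [mul_inv, mul_inv_cancel_left₀ h1]
  rw [e2]
  exact mul_mem (algebraMap_mem_Vinf _) hinv

variable {M1 q r : ℕ} [NeZero M1] [NeZero q] [NeZero r] {A : ValuationSubring Kb}
variable (S : Setup M1 q r A)

theorem res₁_cst (a : A) : (twoComp S).res₁ (cst A S.τM (FN (M1 * q)) a) =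
    resInf A (M1 * q) ⟨algebraMap Kb (FN (M1 * q)) (a : Kb), algebraMap_mem_Vinf _⟩ := by
  rw [res₁_apply]
  congr 1
  exact Subtype.ext (evE_C_M S a)

theorem res₂_cst (a : A) : (twoComp S).res₂ (cst A S.τM (FN (M1 * q)) a) =
    resInf A (M1 * q) ⟨algebraMap Kb (FN (M1 * q)) (a : Kb), algebraMap_mem_Vinf _⟩ := by
  rw [res₂_apply]
  congr 1
  apply Subtype.ext
  show Wq S.hc (KL.evE A S.τM (FN (M1 * q)) (C a)) = _
  rw [evE_C_M S a]
  exact (Wq S.hc).commutes _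

/-- **the toric theorem for `X₀(M1 q)`** -/
theorem tor_core {n : ℕ} (hn : 0 < n) (hqn : ¬ q ∣ n) {σ : GQ}
    (hσ : σ ∈ A.decompositionSubgroup ℚ) {Q : ℕ} (hQ : 0 < Q)
    (hact : ∀ b, ActsLike (nodalChart S b) (gal (M1 * q) σ) Q)
    (u : FN (M1 * q)) (hu : PDiv Kb (FN (M1 * q)) n u)
    (h1 : ∃ a : Aˣ, Cong A (M1 * q) (algebraMap Kb (FN (M1 * q)) ((a : A) : Kb) * u))
    (h2 : ∃ a : Aˣ, Cong A (M1 * q) (algebraMap Kb (FN (M1 * q)) ((a : A) : Kb) * Wq S.hc u)) :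
    ∃ g : FN (M1 * q), gal (M1 * q) σ u = u ^ Q * g ^ n := by
  obtain ⟨a, ha⟩ := h1
  obtain ⟨a2, ha2⟩ := h2
  obtain ⟨o⟩ := (VV_eq_and_onb S).2
  obtain ⟨m1, m1', e1⟩ := core_unit a ha
  obtain ⟨m2, m2', e2⟩ := core_unit a2 ha2
  have hV : u ∈ KL.VV A S.τM (FN (M1 * q)) := (VV_eq S).ge (mem_V2.2 ⟨m1, m2⟩)
  have hV' : u⁻¹ ∈ KL.VV A S.τM (FN (M1 * q)) :=
    (VV_eq S).ge (mem_V2.2 ⟨m1', by rw [map_inv₀]; exact m2'⟩)
  exact T.tor A (Arch.arch A S.hq S.hA) S.τM (transcendental_τM S) (isGen_τM S) o (twoComp S)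
    (nodalChart S false) (nodalChart S true) n hn (KLAllAux.inv_natCast_mem A S.hq S.hA hqn)
    ⟨u, hV⟩ ⟨u⁻¹, hV'⟩ (Subtype.ext (mul_inv_cancel₀ hu.1)) ((a⁻¹ : Aˣ) : A) ((a2⁻¹ : Aˣ) : A)
    (by rw [res₁_cst, ← e1]; rfl) (by rw [res₂_cst, ← e2]; rfl) hu.2
    (gal (M1 * q) σ) Q hQ (fun a => ⟨_, gal_cst S hσ a⟩) (fun x hx => gal_mem_VV S hσ hx)
    (res₁_gal_eq_zero S hσ) (res₂_gal_eq_zero S hσ) (PDiv.gal hu σ).2 (hact false) (hact true)

end Fermat.Agent.S34.Mod
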