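import Fermat.Agent.ES.AtkinLehner
import Fermat.Agent.ES.AlgES

/-!
# S34 / MOD-W : the Atkin–Lehner involution `W_q` of `F = FN (M1 * q)` and the Galois action

`q` coprime to `M1`.  `al = heckeAlphaBar` (inclusion `FN M1 ⊆ FN (M1 q)`), `be = heckeBetaBar`
(`f(q) ↦ f(q^q)`).

* `Wq h : FN (M1 * q) ≃ₐ[Kb] FN (M1 * q)`, `Wq_alpha`, `Wq_beta`, `Wq_Wq`;
* `induction_alpha_beta` : `FN (M1 q)` is generated, as a field, by `al (FN M1)` and `be (FN M1)`;
* `gal_alpha`, `gal_beta`, `gal_Wq` : the Galois action commutes with `al`, `be`, `W_q`;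
* `PDiv.Wq` : divisibility of divisors is stable under `W_q`;
* `cong_inertia_zero` : inertia acts trivially modulo the maximal ideal *at the cusp `0`*, i.e. after `W_q`.
-/

set_option autoImplicit false

open HahnSeries ModularCurve AlgebraicCurve Fermat.Agent.S24 Fermat.Agent.S29 Fermat.Agent.ES
  Fermat.Agent.ES.Alg

noncomputable section

namespace Fermat.Agent.S34.Mod

variable {M1 q : ℕ} [NeZero M1] [NeZero q]

/-- the Atkin–Lehner involution `W_q` -/
def Wq (h : Nat.Coprime q M1) : FN (M1 * q) ≃ₐ[Kb] FN (M1 * q) :=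
  (exists_atkinLehner M1 q h).choose

theorem Wq_alpha (h : Nat.Coprime q M1) (f : FN M1) :
    Wq h (heckeAlphaBar Kb M1 q f) = heckeBetaBar Kb M1 q f :=
  (exists_atkinLehner M1 q h).choose_spec.1 f

theorem Wq_beta (h : Nat.Coprime q M1) (f : FN M1) :
    Wq h (heckeBetaBar Kb M1 q f) = heckeAlphaBar Kb M1 q f :=
  (exists_atkinLehner M1 q h).choose_spec.2.1 f

theorem Wq_Wq (h : Nat.Coprime q M1) (x : FN (M1 * q)) : Wq h (Wq h x) = x :=
  (exists_atkinLehner M1 q h).choose_spec.2.2.1 x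

/-- `FN (M1 q)` is generated by the two copies of `FN M1` -/
theorem induction_alpha_beta (hq : q.Prime) {P : FN (M1 * q) → Prop}
    (ha : ∀ f : FN M1, P (heckeAlphaBar Kb M1 q f)) (hb : ∀ f : FN M1, P (heckeBetaBar Kb M1 q f))
    (hadd : ∀ x y, P x → P y → P (x + y)) (hmul : ∀ x y, P x → P y → P (x * y))
    (hinv : ∀ x, P x → P x⁻¹) (x : FN (M1 * q)) : P x := by
  have hx : x ∈ IntermediateField.adjoin Kb
      {x : FN (M1 * q) | ∃ (d : ℕ) (_ : NeZero d) (hd : d ∣ M1 * q), x = jF (M1 * q) d hd} := by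
    rw [adjoin_jF]; trivial
  induction hx using IntermediateField.adjoin_induction with
  | mem x hx =>
    obtain ⟨d, hd0, hd, rfl⟩ := hx
    obtain ⟨e, f, he, hf, rfl⟩ := (Nat.dvd_mul).mp hd
    have he0 : NeZero e := ⟨fun h0 => NeZero.ne (e * f) (by rw [h0, zero_mul])⟩
    rcases (Nat.dvd_prime hq).mp hf with rfl | rfl
    · have h1 : e ∣ M1 * q := Dvd.dvd.mul_right he q
      rw [AL.jF_congr (M1 * q) (mul_one e) hd h1, ← AL.Data.alpha_jF e he h1]
      exact ha _
    · rw [← AL.Data.beta_jF e he hd]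
      exact hb _
  | algebraMap a =>
    rw [← (heckeAlphaBar Kb M1 q).commutes a]
    exact ha _
  | add x y _ _ hx hy => exact hadd x y hx hy
  | inv x _ hx => exact hinv x hx
  | mul x y _ _ hx hy => exact hmul x y hx hy

theorem gal_alpha (σ : GQ) (f : FN M1) :
    gal (M1 * q) σ (heckeAlphaBar Kb M1 q f) = heckeAlphaBar Kb M1 q (gal M1 σ f) := by
  apply Subtype.ext
  rw [coe_arithmeticRingAut_apply, coe_heckeAlphaBar, coe_heckeAlphaBar,
    coe_arithmeticRingAut_apply]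

omit [NeZero M1] in
theorem gal_beta (σ : GQ) (f : FN M1) :
    gal (M1 * q) σ (heckeBetaBar Kb M1 q f) = heckeBetaBar Kb M1 q (gal M1 σ f) := by
  apply Subtype.ext
  rw [coe_arithmeticRingAut_apply, coe_heckeBetaBar, coe_heckeBetaBar,
    coe_arithmeticRingAut_apply, coeffMap_qExpand]

/-- the Galois action commutes with `W_q` -/
theorem gal_Wq (hq : q.Prime) (h : Nat.Coprime q M1) (σ : GQ) (x : FN (M1 * q)) :
    gal (M1 * q) σ (Wq h x) = Wq h (gal (M1 * q) σ x) := by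
  refine induction_alpha_beta hq (P := fun x => gal (M1 * q) σ (Wq h x) = Wq h (gal (M1 * q) σ x))
    (fun f => ?_) (fun f => ?_) (fun x y hx hy => ?_) (fun x y hx hy => ?_) (fun x hx => ?_) x
  · rw [Wq_alpha, gal_beta, gal_alpha, Wq_alpha]
  · rw [Wq_beta, gal_beta, gal_alpha, Wq_beta]
  · rw [map_add, map_add, map_add, map_add, hx, hy]
  · rw [map_mul, map_mul, map_mul, map_mul, hx, hy]
  · rw [map_inv₀, map_inv₀, map_inv₀, map_inv₀, hx]

/-- divisibility of divisors is stable under `Kb`-automorphisms -/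
theorem PDiv.algEquiv {K F : Type*} [Field K] [Field F] [Algebra K F] {m : ℕ} {u : F}
    (hu : PDiv K F m u) (w : F ≃ₐ[K] F) : PDiv K F m (w u) := by
  refine ⟨(map_ne_zero_iff _ w.injective).mpr hu.1, fun v => ?_⟩
  have h := Place.ord_smul w (w⁻¹ • v) u
  rw [smul_inv_smul] at h
  rw [h]
  exact hu.2 _

theorem PDiv.Wq (h : Nat.Coprime q M1) {m : ℕ} {u : FN (M1 * q)} (hu : PDiv Kb (FN (M1 * q)) m u) :
    PDiv Kb (FN (M1 * q)) m (Mod.Wq h u) := PDiv.algEquiv hu (Mod.Wq h)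

/-- inertia acts trivially modulo the maximal ideal at the cusp `0` -/
theorem cong_inertia_zero (hq : q.Prime) (h : Nat.Coprime q M1) (A : ValuationSubring Kb) {σ : GQ}
    (hσ : σ ∈ A.inertiaSubgroupIn ℚ) (u : FN (M1 * q)) (hu : u ≠ 0) :
    ∃ c : Kb, c ≠ 0 ∧ Cong A (M1 * q) (algebraMap Kb (FN (M1 * q)) c *
      Wq h (gal (M1 * q) σ u * u⁻¹)) := by
  obtain ⟨c, hc, hcong⟩ := cong_inertia (A := A) hσ (Wq h u)
    ((map_ne_zero_iff _ (Wq h).injective).mpr hu)
  refine ⟨c, hc, ?_⟩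
  rwa [map_mul, map_inv₀, ← gal_Wq hq h]

end Fermat.Agent.S34.Mod
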