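import Fermat.Agent.S34.Mod.Level
import Fermat.Agent.S34.T.NU
import Fermat.Agent.S18.Branch
import Fermat.Agent.S18.Z.Main
import Fermat.Agent.S18.Arch

/-!
# S34 / MOD-G : the level `M1` (good reduction at `q`)  (helper4; keys `S34/MOD-G1`, `S34/MOD-G2`)

Charts: `S.θ1 false = τ1` (`t ≠ ∞`), `S.θ1 true = τ1⁻¹` (`t ≠ 0`); the same at level `M1 q` (`S.θM`).

## G1 (~250 lines)
* `VV1_eq`: `Vinf ≤ VV` is `S18.mem_VV_of_quot`; `VV ≤ Vinf`: `VV` is integral over `OG` (`KL.isIntegralElem_of_mem_VV`), `OG ⊂ Vinf` (quotients `P(t)/S(t)`, `intRed_tauF`,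
  `evk_injective`), `mem_Vinf_of_isIntegral`.
* `SmV1_iff`: `S18.smV_of_quot` / `exists_smul_of_resInf_eq_zero`, `resInf_smul_eq_zero`.
* `C01_le`: `KL.C0_le_VV`, `KL.VV_inv`.
## G2 (~250 lines)
`normal1`: `T.nu_int` for the chart `b`, with exactly the data used in `KL.core` (`Z/Main.lean`): `exists_goodRed`, `GoodRed.inv`, `exists_goodBasis`, `Branch.exists_unit_Br`
(`((r : Kb))⁻¹ ∈ A` because `r ≠ q`), `Br.inv`, `diffHyp`, `squarefree_theta`.  `fgBar1`: `T.GoodBasis.fgBar`.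
-/

set_option autoImplicit false
set_option synthInstance.maxHeartbeats 400000
set_option linter.unusedSectionVars false

open HahnSeries ModularCurve AlgebraicCurve Polynomial Fermat.Agent.S24 Fermat.Agent.S29
  Fermat.Agent.S18 Fermat.Agent.ES Fermat.Agent.ES.Alg Fermat.Agent.S34.T

noncomputable section

namespace Fermat.Agent.S34.Mod

variable {M1 q r : ℕ} [NeZero M1] [NeZero q] [NeZero r] {A : ValuationSubring Kb}
variable (S : Setup M1 q r A)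

/-- the two charts at level `M1` -/
def Setup.θ1 (b : Bool) : S.L1 := if b then S.τ1⁻¹ else S.τ1

/-- the two charts at level `M1 * q` -/
def Setup.θM (b : Bool) : S.LM := if b then S.τM⁻¹ else S.τM

/-! ### G1 -/

theorem g1_transcendental_τ1 : Transcendental Kb S.τ1 := transcendental_tauL S.H1 S.hr1

theorem g1_isGen_τ1 : KL.IsGen Kb S.τ1 := isGen_tauL S.H1 S.hr1

instance g1_finiteDimensional : FiniteDimensional S.L1 (FN M1) := finiteDimensional_LT S.H1 S.hr1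

theorem VV1_eq : KL.VV A S.τ1 (FN M1) = Vinf A M1 := by
  refine le_antisymm (VV1_le_Vinf S) ?_
  rintro x ⟨y1, y2, h1, h2⟩
  exact mem_VV_of_quot S.H1 S.hr1 A S.hq S.hA S.not_dvd x y1 y2 h1 h2

theorem SmV1_iff (x : Vinf A M1) : KL.SmV A S.τ1 (FN M1) (x : FN M1) ↔ resInf A M1 x = 0 := by
  constructor
  · rintro ⟨a, ha, y, hy, e⟩
    refine resInf_smul_eq_zero ha (y := ⟨y, VV1_le_Vinf S hy⟩) ?_
    rw [e]
    congr 1
    exact Fermat.Agent.S18.evE_C S.H1 S.hr1 A a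
  · intro h
    obtain ⟨a, ha, y, hy, e⟩ := exists_smul_of_resInf_eq_zero h
    refine ⟨a, ha, y, (VV1_eq S).ge hy, ?_⟩
    rw [e]
    congr 1
    exact (Fermat.Agent.S18.evE_C S.H1 S.hr1 A a).symm

theorem g1_VV_θ1 (b : Bool) : KL.VV A (S.θ1 b) (FN M1) = Vinf A M1 := by
  cases b
  · exact VV1_eq S
  · exact (KL.VV_inv A (g1_transcendental_τ1 S)).trans (VV1_eq S)

theorem C01_le (b : Bool) : KL.C0 A (S.θ1 b) (FN M1) ≤ Vinf A M1 :=
  (KL.C0_le_VV A (S.θ1 b) (FN M1)).trans (g1_VV_θ1 S b).le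

/-! ### G2 -/

theorem g2_transcendental (b : Bool) : Transcendental Kb (S.θ1 b) := by
  cases b
  · exact g1_transcendental_τ1 S
  · exact KL.transcendental_inv' (g1_transcendental_τ1 S)

theorem g2_isGen (b : Bool) : KL.IsGen Kb (S.θ1 b) := by
  cases b
  · exact g1_isGen_τ1 S
  · exact KL.isGen_inv (g1_transcendental_τ1 S) (g1_isGen_τ1 S)

theorem g2_SmV_iff (b : Bool) (x : FN M1) :
    KL.SmV A (S.θ1 b) (FN M1) x ↔ KL.SmV A S.τ1 (FN M1) x := by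
  cases b
  · exact Iff.rfl
  · exact KL.SmV_inv A (g1_transcendental_τ1 S) x

include S in
theorem g2_inv_natCast_mem {n : ℕ} (hn : ¬ q ∣ n) : ((n : Kb))⁻¹ ∈ A := by
  have h1 : ¬ (q : ℤ) ∣ (n : ℤ) := by exact_mod_cast hn
  obtain ⟨u, hu⟩ := Arch.isUnit_intCast A S.hq S.hA h1
  have h2 : ((u : A) : Kb) = (n : Kb) := by rw [hu]; simp
  have h3 : (((u⁻¹ : Aˣ) : A) : Kb) = ((n : Kb))⁻¹ := by
    rw [← h2]
    apply eq_inv_of_mul_eq_one_left
    exact congrArg Subtype.val u.inv_mul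
  rw [← h3]
  exact ((u⁻¹ : Aˣ) : A).2

/-- the data of `KL.core` in the chart `b` -/
theorem g2_data (b : Bool) : ∃ (n : ℕ) (_ : KL.GoodBasis A (S.θ1 b) (FN M1) n) (θ : (↥A)[X]),
    Squarefree (KL.redP A θ) ∧ KL.DiffHyp A (S.θ1 b) (FN M1) θ := by
  have hτ := g1_transcendental_τ1 S
  have hgen := g1_isGen_τ1 S
  obtain ⟨g⟩ := exists_goodRed S.H1 S.hr1 A S.hq S.hA S.not_dvd
  have hrq : ¬ q ∣ r := fun h => S.not_dvd (h.trans S.hr1)
  obtain ⟨c0, hc0, hbr⟩ := Branch.exists_unit_Br S.hr S.hr1 S.H1 A (g2_inv_natCast_mem S hrq)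
    (tauF S.H1 S.hr1) (corr_tauF S.H1 S.hr1).iota_eq
  have hbr' : KL.Br Kb S.τ1 (FN M1) (c0 : Kb) := hbr
  obtain ⟨c0u, rfl⟩ := hc0
  cases b
  · obtain ⟨gb⟩ := KL.exists_goodBasis hτ hgen g
    exact ⟨_, gb, _, KL.squarefree_theta _ c0u.isUnit, KL.diffHyp hτ hgen _ c0u.ne_zero hbr'⟩
  · obtain ⟨gb⟩ := KL.exists_goodBasis (KL.transcendental_inv' hτ) (KL.isGen_inv hτ hgen) (g.inv hτ)
    have hc0inv : (((c0u⁻¹ : Aˣ) : A) : Kb) = ((c0u : A) : Kb)⁻¹ := by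
      have : ((c0u : A) : Kb) * (((c0u⁻¹ : Aˣ) : A) : Kb) = 1 := by
        have h := congrArg (Subtype.val) (c0u.mul_inv)
        exact h
      exact eq_inv_of_mul_eq_one_right this
    exact ⟨_, gb, _, KL.squarefree_theta _ (c0u⁻¹).isUnit,
      KL.diffHyp (KL.transcendental_inv' hτ) (KL.isGen_inv hτ hgen) _ (c0u⁻¹).ne_zero
        (by rw [hc0inv]; exact hbr'.inv hτ)⟩

/-- normality of the special fibre at level `M1` -/
theorem normal1 (b : Bool) (x : Vinf A M1) (p : (↥A)[X][X]) (hp : p.Monic)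
    (hm : p.eval₂ (KL.evE A (S.θ1 b) (FN M1)) (x : FN M1) ∈ Vinf A M1)
    (h : resInf A M1 ⟨_, hm⟩ = 0) :
    ∃ c : Vinf A M1, (c : FN M1) ∈ KL.C0 A (S.θ1 b) (FN M1) ∧ resInf A M1 c = resInf A M1 x := by
  obtain ⟨n, gb, θ, hθ, hD⟩ := g2_data S b
  have hsm : KL.SmV A (S.θ1 b) (FN M1) (p.eval₂ (KL.evE A (S.θ1 b) (FN M1)) (x : FN M1)) :=
    (g2_SmV_iff S b _).2 ((SmV1_iff S ⟨_, hm⟩).2 h)
  obtain ⟨c, hc, hxc⟩ := nu_int (g2_transcendental S b) (g2_isGen S b) gb θ hθ hD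
    ((g1_VV_θ1 S b).ge x.2) p hp hsm
  refine ⟨⟨c, C01_le S b hc⟩, hc, ?_⟩
  have h1 := (SmV1_iff S (x - ⟨c, C01_le S b hc⟩)).1 ((g2_SmV_iff S b _).1 hxc)
  rw [map_sub, sub_eq_zero] at h1
  exact h1.symm

theorem fgBar1 (b : Bool) : FgBar A (S.θ1 b) (FN M1) := by
  obtain ⟨n, gb, -⟩ := g2_data S b
  exact Fermat.Agent.S34.T.GoodBasis.fgBar gb

end Fermat.Agent.S34.Mod
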