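import Fermat.Agent.S34.Mod.Chart

/-!
# S34 / MOD-ACT : the Galois action on the two charts  (helper4; key `S34/MOD-ACT`)

`σ` in the decomposition group of `A`, `s = gal (M1 q) σ`.
* `gal_cst`: `evE (C a) = algebraMap Kb _ a` (`evE_C_M`), `ES.Alg.gal_algebraMap`.
* `gal_mem_VV`: `VV = V2` (`VV_eq`), `gal_mem_Vinf`, `gal_Wq`.
* `res₁_gal`, `res₂_gal`: `resInf_gal`, `gal_Wq`.
* `gal_mem_C0`, `gal_mem_C01`: apply `s` to a monic equation `p(x) = 0`, `p ∈ A[X][X]`: `s (evE θ P) = evE θ (P^σ)` because `s t = t` (`gal_tauF`) and `σ A = A`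
  (`P^σ = P.map f`, `f : A →+* A` as in `exists_residueMap`).
* `actsLike_inertia`: `d = 0` (`resInf_gal_inertia`).
* `actsLike_frobSq`: `ρ1 x = ρ c'` (`exists_level1₁`), `c'' = gal M1 (σ σ) c'`; `res₁ (s x) = Fr² (ρ c') = ρ c''`; `(ρ c')^(q²) = V (V (Fr² (ρ c'))) = V (V (ρ c''))`
  (`ES.Alg.pow_char_eq_qExpand` twice; `coeffMap` commutes with `qExpand`), so `d = cross₁ b c''`.  The same for the other component.
-/

set_option autoImplicit false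
set_option synthInstance.maxHeartbeats 400000
set_option linter.unusedSectionVars false

open HahnSeries ModularCurve AlgebraicCurve Polynomial Fermat.Agent.S24 Fermat.Agent.S29
  Fermat.Agent.S18 Fermat.Agent.ES Fermat.Agent.ES.Alg Fermat.Agent.S34.T

noncomputable section

namespace Fermat.Agent.S34.Mod

variable {M1 q r : ℕ} [NeZero M1] [NeZero q] [NeZero r] {A : ValuationSubring Kb}
variable (S : Setup M1 q r A)

section Decomp

variable {σ : GQ} (hσ : σ ∈ A.decompositionSubgroup ℚ)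

/-- the restriction of `σ` to `A` -/
def actHom : A →+* A where
  toFun := fun a => ⟨σ a, map_mem_of_decomp hσ a.2⟩
  map_one' := Subtype.ext (map_one σ)
  map_mul' := fun _ _ => Subtype.ext (map_mul σ _ _)
  map_zero' := Subtype.ext (map_zero σ)
  map_add' := fun _ _ => Subtype.ext (map_add σ _ _)

include hσ

theorem gal_cst (a : A) :
    gal (M1 * q) σ (cst A S.τM (FN (M1 * q)) a : FN (M1 * q)) =
      (cst A S.τM (FN (M1 * q)) ⟨σ a, map_mem_of_decomp hσ a.2⟩ : FN (M1 * q)) := by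
  show gal (M1 * q) σ (KL.evE A S.τM (FN (M1 * q)) (C a)) =
    KL.evE A S.τM (FN (M1 * q)) (C ⟨σ a, map_mem_of_decomp hσ a.2⟩)
  rw [evE_C_M, evE_C_M, gal_algebraMap]

theorem gal_mem_VV {x : FN (M1 * q)} (hx : x ∈ KL.VV A S.τM (FN (M1 * q))) :
    gal (M1 * q) σ x ∈ KL.VV A S.τM (FN (M1 * q)) := by
  rw [VV_eq S] at hx ⊢
  obtain ⟨h1, h2⟩ := mem_V2.1 hx
  exact mem_V2.2 ⟨gal_mem_Vinf hσ h1, by rw [← gal_Wq S.hq]; exact gal_mem_Vinf hσ h2⟩

theorem res₁_gal (φ : kA A →+* kA A)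
    (hφ : ∀ a : A, IsLocalRing.residue A ⟨σ a, map_mem_of_decomp hσ a.2⟩ = φ (IsLocalRing.residue A a))
    (x : KL.VV A S.τM (FN (M1 * q))) :
    (twoComp S).res₁ ⟨gal (M1 * q) σ x, gal_mem_VV S hσ x.2⟩ = coeffMap φ ((twoComp S).res₁ x) := by
  rw [res₁_apply, res₁_apply]
  exact resInf_gal hσ φ hφ (⟨x, mem_Vinf_of_mem_VV S x.2⟩ : Vinf A (M1 * q))

theorem res₂_gal (φ : kA A →+* kA A)
    (hφ : ∀ a : A, IsLocalRing.residue A ⟨σ a, map_mem_of_decomp hσ a.2⟩ = φ (IsLocalRing.residue A a))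
    (x : KL.VV A S.τM (FN (M1 * q))) :
    (twoComp S).res₂ ⟨gal (M1 * q) σ x, gal_mem_VV S hσ x.2⟩ = coeffMap φ ((twoComp S).res₂ x) := by
  rw [res₂_apply, res₂_apply]
  have h := resInf_gal hσ φ hφ (⟨Wq S.hc x, Wq_mem_Vinf_of_mem_VV S x.2⟩ : Vinf A (M1 * q))
  rw [← h]
  have e : ∀ (y z : FN (M1 * q)) (hy : y ∈ Vinf A (M1 * q)) (hz : z ∈ Vinf A (M1 * q)), y = z →
      resInf A (M1 * q) ⟨y, hy⟩ = resInf A (M1 * q) ⟨z, hz⟩ := by
    intro y z hy hz hyz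
    subst hyz
    rfl
  exact e _ _ _ _ (gal_Wq S.hq S.hc σ x).symm

theorem res₁_gal_eq_zero (x : KL.VV A S.τM (FN (M1 * q))) (h : (twoComp S).res₁ x = 0) :
    (twoComp S).res₁ ⟨gal (M1 * q) σ x, gal_mem_VV S hσ x.2⟩ = 0 := by
  obtain ⟨φ, hφ⟩ := exists_residueMap hσ
  rw [res₁_gal S hσ φ hφ, h, map_zero]

theorem res₂_gal_eq_zero (x : KL.VV A S.τM (FN (M1 * q))) (h : (twoComp S).res₂ x = 0) :
    (twoComp S).res₂ ⟨gal (M1 * q) σ x, gal_mem_VV S hσ x.2⟩ = 0 := by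
  obtain ⟨φ, hφ⟩ := exists_residueMap hσ
  rw [res₂_gal S hσ φ hφ, h, map_zero]

/-- `s (P(θ)) = P^σ(θ)`, level `M1 q` -/
theorem act_gal_evE (b : Bool) (P : (↥A)[X]) :
    gal (M1 * q) σ (KL.evE A (S.θM b) (FN (M1 * q)) P) =
      KL.evE A (S.θM b) (FN (M1 * q)) (P.map (actHom hσ)) := by
  have h : ((gal (M1 * q) σ : FN (M1 * q) ≃+* FN (M1 * q)) : FN (M1 * q) →+* FN (M1 * q)).comp
      (KL.evE A (S.θM b) (FN (M1 * q))) =
      (KL.evE A (S.θM b) (FN (M1 * q))).comp (Polynomial.mapRingHom (actHom hσ)) := by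
    apply Polynomial.ringHom_ext
    · intro a
      simp only [RingHom.comp_apply, coe_mapRingHom, Polynomial.map_C]
      rw [KL.SatB.evE_C, KL.SatB.evE_C]
      exact gal_algebraMap σ (a : Kb)
    · simp only [RingHom.comp_apply, coe_mapRingHom, Polynomial.map_X]
      cases b
      · have e : KL.evE A (S.θM false) (FN (M1 * q)) X = S.tM := evE_X_eq_tM S
        rw [e]
        exact gal_tauF (M1 * q) S.hr S.hrM σ
      · have e : KL.evE A (S.θM true) (FN (M1 * q)) X = S.tM⁻¹ := by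
          show KL.evE A S.τM⁻¹ (FN (M1 * q)) X = S.tM⁻¹
          simp only [KL.evE, KL.evL, RingHom.comp_apply, coe_eval₂RingHom, eval₂_X]
          rw [map_inv₀]
          rfl
        rw [e]
        show gal (M1 * q) σ S.tM⁻¹ = S.tM⁻¹
        rw [map_inv₀]
        congr 1
        exact gal_tauF (M1 * q) S.hr S.hrM σ
  exact DFunLike.congr_fun h P

/-- `s (P(θ)) = P^σ(θ)`, level `M1` -/
theorem act_gal_evE1 (b : Bool) (P : (↥A)[X]) :
    gal M1 σ (KL.evE A (S.θ1 b) (FN M1) P) =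
      KL.evE A (S.θ1 b) (FN M1) (P.map (actHom hσ)) := by
  have h : ((gal M1 σ : FN M1 ≃+* FN M1) : FN M1 →+* FN M1).comp
      (KL.evE A (S.θ1 b) (FN M1)) =
      (KL.evE A (S.θ1 b) (FN M1)).comp (Polynomial.mapRingHom (actHom hσ)) := by
    apply Polynomial.ringHom_ext
    · intro a
      simp only [RingHom.comp_apply, coe_mapRingHom, Polynomial.map_C]
      rw [KL.SatB.evE_C, KL.SatB.evE_C]
      exact gal_algebraMap σ (a : Kb)
    · simp only [RingHom.comp_apply, coe_mapRingHom, Polynomial.map_X]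
      cases b
      · have e : KL.evE A (S.θ1 false) (FN M1) X = S.t1 := evE_X_eq_t1 S
        rw [e]
        exact gal_tauF M1 S.hr S.hr1 σ
      · have e : KL.evE A (S.θ1 true) (FN M1) X = S.t1⁻¹ := by
          show KL.evE A S.τ1⁻¹ (FN M1) X = S.t1⁻¹
          simp only [KL.evE, KL.evL, RingHom.comp_apply, coe_eval₂RingHom, eval₂_X]
          rw [map_inv₀]
          rfl
        rw [e]
        show gal M1 σ S.t1⁻¹ = S.t1⁻¹
        rw [map_inv₀]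
        congr 1
        exact gal_tauF M1 S.hr S.hr1 σ
  exact DFunLike.congr_fun h P

theorem gal_mem_C0 (b : Bool) {x : FN (M1 * q)} (hx : x ∈ KL.C0 A (S.θM b) (FN (M1 * q))) :
    gal (M1 * q) σ x ∈ KL.C0 A (S.θM b) (FN (M1 * q)) :=
  KL.IsIntegralElem_of_comp (Polynomial.mapRingHom (actHom hσ)) (KL.evE A (S.θM b) (FN (M1 * q)))
    (((gal (M1 * q) σ : FN (M1 * q) ≃+* FN (M1 * q)) : FN (M1 * q) →+* FN (M1 * q)).comp
      (KL.evE A (S.θM b) (FN (M1 * q)))) (act_gal_evE S hσ b)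
    (ch1_map_isIntegralElem (KL.evE A (S.θM b) (FN (M1 * q)))
      ((gal (M1 * q) σ : FN (M1 * q) ≃+* FN (M1 * q)) : FN (M1 * q) →+* FN (M1 * q)) _
      (fun _ => rfl) hx)

theorem gal_mem_C01 (b : Bool) {x : FN M1} (hx : x ∈ KL.C0 A (S.θ1 b) (FN M1)) :
    gal M1 σ x ∈ KL.C0 A (S.θ1 b) (FN M1) :=
  KL.IsIntegralElem_of_comp (Polynomial.mapRingHom (actHom hσ)) (KL.evE A (S.θ1 b) (FN M1))
    (((gal M1 σ : FN M1 ≃+* FN M1) : FN M1 →+* FN M1).comp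
      (KL.evE A (S.θ1 b) (FN M1))) (act_gal_evE1 S hσ b)
    (ch1_map_isIntegralElem (KL.evE A (S.θ1 b) (FN M1))
      ((gal M1 σ : FN M1 ≃+* FN M1) : FN M1 →+* FN M1) _
      (fun _ => rfl) hx)

theorem ρ_gal (φ : kA A →+* kA A)
    (hφ : ∀ a : A, IsLocalRing.residue A ⟨σ a, map_mem_of_decomp hσ a.2⟩ = φ (IsLocalRing.residue A a))
    (b : Bool) (c : KL.C0 A (S.θ1 b) (FN M1)) :
    ρ S b ⟨gal M1 σ c, gal_mem_C01 S hσ b c.2⟩ = coeffMap φ (ρ S b c) :=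
  resInf_gal hσ φ hφ (⟨c, C01_le S b c.2⟩ : Vinf A M1)

/-- the action on the first reduction of the chart `b` -/
theorem act_ρ1_gal (φ : kA A →+* kA A)
    (hφ : ∀ a : A, IsLocalRing.residue A ⟨σ a, map_mem_of_decomp hσ a.2⟩ = φ (IsLocalRing.residue A a))
    (b : Bool) (x : KL.C0 A (S.θM b) (FN (M1 * q)))
    (hx : gal (M1 * q) σ x ∈ KL.C0 A (S.θM b) (FN (M1 * q))) :
    ρ1 S b ⟨gal (M1 * q) σ x, hx⟩ = coeffMap φ (ρ1 S b x) :=
  res₁_gal S hσ φ hφ (Subring.inclusion (C0M_le S b) x)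

/-- the action on the second reduction of the chart `b` -/
theorem act_ρ2_gal (φ : kA A →+* kA A)
    (hφ : ∀ a : A, IsLocalRing.residue A ⟨σ a, map_mem_of_decomp hσ a.2⟩ = φ (IsLocalRing.residue A a))
    (b : Bool) (x : KL.C0 A (S.θM b) (FN (M1 * q)))
    (hx : gal (M1 * q) σ x ∈ KL.C0 A (S.θM b) (FN (M1 * q))) :
    ρ2 S b ⟨gal (M1 * q) σ x, hx⟩ = coeffMap φ (ρ2 S b x) :=
  res₂_gal S hσ φ hφ (Subring.inclusion (C0M_le S b) x)

end Decomp

theorem actsLike_inertia {σ : GQ} (hσ : σ ∈ A.inertiaSubgroupIn ℚ) (b : Bool) :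
    ActsLike (nodalChart S b) (gal (M1 * q) σ) 1 := by
  have hd := mem_decomp_of_mem_inertia hσ
  have hφ : ∀ a : A, IsLocalRing.residue A ⟨σ a, map_mem_of_decomp hd a.2⟩ =
      (RingHom.id (kA A)) (IsLocalRing.residue A a) := fun a => by
    rw [RingHom.id_apply]
    exact residue_eq_of_sub_mem (AbstractAux.inertia_sub_mem A hσ a.2)
  refine ⟨fun x hx => gal_mem_C0 S hd b hx, fun x hx => ⟨0, map_zero _, ?_⟩,
    fun x hx => ⟨0, map_zero _, ?_⟩⟩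
  · have h1 := act_ρ1_gal S hd _ hφ b x hx
    rw [coeffMap_id] at h1
    show ρ1 S b 0 = ρ1 S b ⟨gal (M1 * q) σ x, hx⟩ - ρ1 S b x ^ 1
    rw [h1, pow_one, sub_self, map_zero]
  · have h1 := act_ρ2_gal S hd _ hφ b x hx
    rw [coeffMap_id] at h1
    show ρ2 S b 0 = ρ2 S b ⟨gal (M1 * q) σ x, hx⟩ - ρ2 S b x ^ 1
    rw [h1, pow_one, sub_self, map_zero]

/-- `y^(q²) = V (V (Fr² y))` -/
theorem act_pow_sq (k : Type) [Field k] [CharP k q] [Fact q.Prime] (y : LaurentSeries k) :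
    y ^ (q ^ 2) = qExpand k q (qExpand k q
      (coeffMap ((frobenius k q).comp (frobenius k q)) y)) := by
  rw [pow_two, pow_mul, pow_char_eq_qExpand q, pow_char_eq_qExpand q, coeffMap_qExpand,
    coeffMap_coeffMap]

theorem actsLike_frobSq {σ : GQ} (hσ : A.IsFrobeniusAt σ q) (b : Bool) :
    ActsLike (nodalChart S b) (gal (M1 * q) (σ * σ)) (q ^ 2) := by
  have : Fact q.Prime := ⟨S.hq⟩
  have : CharP (kA A) q := charP_kA S.hq S.hA
  have hd1 := hσ.mem_decompositionSubgroup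
  have hd : σ * σ ∈ A.decompositionSubgroup ℚ := mul_mem hd1 hd1
  have hφ1 : ∀ a : A, IsLocalRing.residue A ⟨σ a, map_mem_of_decomp hd1 a.2⟩ =
      frobenius (kA A) q (IsLocalRing.residue A a) := fun a => by
    rw [frobenius_def, ← map_pow]
    exact residue_eq_of_sub_mem (AbstractAux.frob_sub_mem A hσ a.2)
  have hφ : ∀ a : A, IsLocalRing.residue A ⟨(σ * σ) a, map_mem_of_decomp hd a.2⟩ =
      ((frobenius (kA A) q).comp (frobenius (kA A) q)) (IsLocalRing.residue A a) := fun a => by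
    rw [RingHom.comp_apply, ← hφ1 a, ← hφ1 ⟨σ a, map_mem_of_decomp hd1 a.2⟩]
    rfl
  refine ⟨fun x hx => gal_mem_C0 S hd b hx, fun x hx => ?_, fun x hx => ?_⟩
  · obtain ⟨c', hc'⟩ := exists_level1₁ S b x
    obtain ⟨d, hd2, hd1'⟩ := cross₁ S b ⟨gal M1 (σ * σ) c', gal_mem_C01 S hd b c'.2⟩
    refine ⟨d, hd2, ?_⟩
    show ρ1 S b d = ρ1 S b ⟨gal (M1 * q) (σ * σ) x, hx⟩ - ρ1 S b x ^ (q ^ 2)
    rw [hd1', ρ_gal S hd _ hφ b c', act_ρ1_gal S hd _ hφ b x hx, hc', act_pow_sq (kA A)]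
  · obtain ⟨c', hc'⟩ := exists_level1₂ S b x
    obtain ⟨d, hd1', hd2⟩ := cross₂ S b ⟨gal M1 (σ * σ) c', gal_mem_C01 S hd b c'.2⟩
    refine ⟨d, hd1', ?_⟩
    show ρ2 S b d = ρ2 S b ⟨gal (M1 * q) (σ * σ) x, hx⟩ - ρ2 S b x ^ (q ^ 2)
    rw [hd2, ρ_gal S hd _ hφ b c', act_ρ2_gal S hd _ hφ b x hx, hc', act_pow_sq (kA A)]

end Fermat.Agent.S34.Mod
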