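import Fermat.Agent.S34.Mod.Good
import Fermat.Agent.S34.T.FgTwo
import Fermat.Agent.Lib.Frobenius

/-!
# S34 / MOD-CH4 : auxiliary lemmas at level `M1`  (helper14)

* `ch4_gal_mem_C0` : the decomposition group preserves the charts `C0 A (θ1 b) (FN M1)`;
* `ch4_twist` : `V (resInf x) = (resInf (gal φ⁻¹ x)) ^ q` for a Frobenius lift `φ`.
-/

set_option autoImplicit false
set_option synthInstance.maxHeartbeats 400000
set_option linter.unusedSectionVars false

open HahnSeries ModularCurve AlgebraicCurve Polynomial Fermat.Agent.S24 Fermat.Agent.S29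
  Fermat.Agent.S18 Fermat.Agent.ES Fermat.Agent.ES.Alg Fermat.Agent.S34.T

noncomputable section

namespace Fermat.Agent.S34.Mod

/-- integrality only depends on the range of the ring hom -/
theorem ch6_isIntegralElem_of_range {R R' Ω : Type*} [CommRing R] [CommRing R'] [CommRing Ω]
    (f : R →+* Ω) (g : R' →+* Ω) (h : ∀ x, ∃ x', g x' = f x) {z : Ω} (hz : f.IsIntegralElem z) :
    g.IsIntegralElem z := by
  obtain ⟨P, hP, h0⟩ := hz
  have hl : P.map f ∈ Polynomial.lifts g := by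
    rw [Polynomial.lifts_iff_coeff_lifts]
    intro n
    rw [Polynomial.coeff_map]
    exact h _
  obtain ⟨Q, hQ, -, hQm⟩ := Polynomial.lifts_and_natDegree_eq_and_monic hl (hP.map f)
  refine ⟨Q, hQm, ?_⟩
  rw [Polynomial.eval₂_eq_eval_map, hQ, ← Polynomial.eval₂_eq_eval_map, h0]

/-- transitivity of integrality -/
theorem ch6_isIntegralElem_trans {R S' T : Type*} [CommRing R] [CommRing S'] [CommRing T]
    (f : R →+* S') (g : S' →+* T) (hf : ∀ s, f.IsIntegralElem s) {t : T}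
    (ht : g.IsIntegralElem t) : (g.comp f).IsIntegralElem t := by
  letI := f.toAlgebra
  letI := g.toAlgebra
  letI := (g.comp f).toAlgebra
  haveI : IsScalarTower R S' T := IsScalarTower.of_algebraMap_eq fun _ => rfl
  haveI : Algebra.IsIntegral R S' := ⟨hf⟩
  exact isIntegral_trans t ht

/-- every element of `C0` is integral over `A[X]` (inside `C0`) -/
theorem ch6_isIntegralElem_toC0 {K : Type*} [Field K] {A : ValuationSubring K} {L : Type*}
    [Field L] [Algebra K L] {θ : L} {F : Type*} [Field F] [Algebra L F] (s : KL.C0 A θ F) :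
    (KL.toC0 A θ F).IsIntegralElem s := by
  obtain ⟨p, hp, h0⟩ := s.2
  refine ⟨p, hp, Subtype.ext ?_⟩
  have h := Polynomial.hom_eval₂ p (KL.toC0 A θ F) (KL.C0 A θ F).subtype s
  rw [Subring.subtype_apply] at h
  rw [h]
  exact h0

variable {M1 q r : ℕ} [NeZero M1] [NeZero q] [NeZero r] {A : ValuationSubring Kb}

/-- the endomorphism of `A` induced by an element of the decomposition group -/
def ch4_mapA {σ : GQ} (hσ : σ ∈ A.decompositionSubgroup ℚ) : A →+* A where
  toFun := fun a => ⟨σ a, map_mem_of_decomp hσ a.2⟩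
  map_one' := Subtype.ext (map_one σ)
  map_mul' := fun _ _ => Subtype.ext (map_mul σ _ _)
  map_zero' := Subtype.ext (map_zero σ)
  map_add' := fun _ _ => Subtype.ext (map_add σ _ _)

variable (S : Setup M1 q r A)

theorem ch4_algebraMap_θ1 (b : Bool) :
    algebraMap S.L1 (FN M1) (S.θ1 b) = if b then S.t1⁻¹ else S.t1 := by
  cases b
  · rfl
  · show algebraMap S.L1 (FN M1) (S.τ1⁻¹) = S.t1⁻¹
    rw [map_inv₀]; rfl

theorem ch4_gal_θ1 (b : Bool) (σ : GQ) :
    gal M1 σ (algebraMap S.L1 (FN M1) (S.θ1 b)) = algebraMap S.L1 (FN M1) (S.θ1 b) := by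
  have h : gal M1 σ S.t1 = S.t1 := gal_tauF M1 S.hr S.hr1 σ
  rw [ch4_algebraMap_θ1]
  cases b
  · exact h
  · show gal M1 σ (S.t1⁻¹) = S.t1⁻¹
    rw [map_inv₀, h]

theorem ch4_gal_evE (b : Bool) {σ : GQ} (hσ : σ ∈ A.decompositionSubgroup ℚ) (P : (↥A)[X]) :
    gal M1 σ (KL.evE A (S.θ1 b) (FN M1) P) =
      KL.evE A (S.θ1 b) (FN M1) (P.map (ch4_mapA hσ)) := by
  have h : ((gal M1 σ : FN M1 ≃+* FN M1) : FN M1 →+* FN M1).comp (KL.evE A (S.θ1 b) (FN M1)) =
      (KL.evE A (S.θ1 b) (FN M1)).comp (Polynomial.mapRingHom (ch4_mapA hσ)) := by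
    apply Polynomial.ringHom_ext
    · intro a
      simp only [RingHom.comp_apply, coe_mapRingHom, Polynomial.map_C, KL.SatB.evE_C]
      rw [← IsScalarTower.algebraMap_apply, ← IsScalarTower.algebraMap_apply]
      exact gal_algebraMap σ (a : Kb)
    · simp only [RingHom.comp_apply, coe_mapRingHom, map_X]
      simp only [KL.evE, KL.evL, RingHom.comp_apply, coe_eval₂RingHom, eval₂_X]
      exact ch4_gal_θ1 S b σ
  exact DFunLike.congr_fun h P

/-- the decomposition group preserves the charts at level `M1` -/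
theorem ch4_gal_mem_C0 (b : Bool) {σ : GQ} (hσ : σ ∈ A.decompositionSubgroup ℚ) {c : FN M1}
    (hc : c ∈ KL.C0 A (S.θ1 b) (FN M1)) : gal M1 σ c ∈ KL.C0 A (S.θ1 b) (FN M1) := by
  obtain ⟨p, hp, h0⟩ := hc
  refine ⟨p.map (Polynomial.mapRingHom (ch4_mapA hσ)), hp.map _, ?_⟩
  rw [Polynomial.eval₂_map]
  have h : (KL.evE A (S.θ1 b) (FN M1)).comp (Polynomial.mapRingHom (ch4_mapA hσ)) =
      ((gal M1 σ : FN M1 ≃+* FN M1) : FN M1 →+* FN M1).comp (KL.evE A (S.θ1 b) (FN M1)) := by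
    refine RingHom.ext fun P => ?_
    exact (ch4_gal_evE S b hσ P).symm
  rw [h]
  have h2 := Polynomial.hom_eval₂ p (KL.evE A (S.θ1 b) (FN M1))
    ((gal M1 σ : FN M1 ≃+* FN M1) : FN M1 →+* FN M1) c
  rw [h0, map_zero] at h2
  exact h2.symm

include S in
/-- `V x̄ = (Fr⁻¹ x̄) ^ q` -/
theorem ch4_twist {φ : GQ} (hφ : A.IsFrobeniusAt φ q) (x : Vinf A M1) :
    qExpand (kA A) q (resInf A M1 x) =
      resInf A M1 ⟨gal M1 φ⁻¹ x, gal_mem_Vinf (inv_mem hφ.mem_decompositionSubgroup) x.2⟩ ^ q := by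
  have : Fact q.Prime := ⟨S.hq⟩
  have : CharP (kA A) q := charP_kA S.hq S.hA
  rw [pow_char_eq_qExpand q]
  congr 1
  have h1 := resInf_gal hφ.mem_decompositionSubgroup (frobenius (kA A) q) (fun a => by
    rw [frobenius_def, ← map_pow]
    exact residue_eq_of_sub_mem (AbstractAux.frob_sub_mem A hφ a.2))
    (⟨gal M1 φ⁻¹ x, gal_mem_Vinf (inv_mem hφ.mem_decompositionSubgroup) x.2⟩ : Vinf A M1)
  rw [← h1]
  congr 1
  apply Subtype.ext
  apply Subtype.ext
  show (x : LaurentSeries Kb) =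
    coeffMap (φ : Kb →+* Kb) (coeffMap ((φ⁻¹ : GQ) : Kb →+* Kb) (x : LaurentSeries Kb))
  rw [coeffMap_coeffMap]
  ext n
  rw [coeffMap_coeff]
  exact (AlgEquiv.apply_symm_apply φ _).symm

end Fermat.Agent.S34.Mod
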