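import Fermat.Agent.S34.T.Iface

/-!
# S34 / MOD-GR : from independence modulo `𝔪` to an orthonormal basis  (helper4; key `S34/MOD-GR`, Mathlib + S18/Z only, ~350 lines)

`V'` a subring of `F` (in the application the intersection of the two Gauss valuation rings), `r₁, r₂ : V' → Ωᵢ`.
If `card ι = [F : L]` elements `b i ∈ V'` are independent modulo `𝔪` (polynomial coefficients suffice), then they form an
orthonormal basis and `V' = VV`.

Proof.
1. `b` is `L`-independent: a relation `∑ c_i b_i = 0`; by `IsGen` write `c_i = P_i(τ)/S(τ)`, `P_i ∈ K[X]`; scale by a constant so that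
   all `P_i ∈ A[X]` and one of them is primitive (finitely many coefficients, `A` a valuation ring; cf. `KL.exists_content_family`);
   `hind` gives `redP P_i = 0` for all `i`.  Contradiction.  So `b` is a basis (`hcard`).
2. `x ∈ V'`, `x = ∑ c_i b_i`.  `OG` is a valuation ring of `L` (`KL.OGval`): choose `i0` with `c_i / c_i0 ∈ OG` for all `i`.  If `c_i0 ∉ OG` then
   `c_i0⁻¹ = a y`, `a ∈ 𝔪`, `y ∈ OG` (Gauss norm attained on `K(τ)`), so `r_j (c_i0⁻¹ x) = 0` (`hm`); clear the (primitive) denominators of the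
   `c_i / c_i0`: `∑ P_i(τ) b_i` with `P_i0 = S` primitive is killed by `r₁, r₂`: contradiction with `hind`.
3. So `V' = ⊕ OG b_i` is a finite `OG`-module: its elements are integral over `OG`, `V' ≤ VV` (`mem_VV_of_isIntegralElem`).  `VV ≤ V'` by
   `isIntegralElem_of_mem_VV`, `hOG`, `hcl`.
-/

set_option autoImplicit false

noncomputable section

namespace Fermat.Agent.S34.Mod

open Polynomial Fermat.Agent.S18.KL Fermat.Agent.S34.T

theorem exists_onb {K : Type} [Field K] {A : ValuationSubring K} {L : Type} [Field L] [Algebra K L]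
    {τ : L} {F : Type} [Field F] [Algebra L F] [FiniteDimensional L F]
    (hτ : Transcendental K τ) (hgen : IsGen K τ) (V' : Subring F)
    (hOG : ∀ c ∈ OG A τ, algebraMap L F c ∈ V')
    (hcl : ∀ x : F, V'.subtype.IsIntegralElem x → x ∈ V')
    {Ω₁ Ω₂ : Type} [Field Ω₁] [Field Ω₂] (r₁ : V' →+* Ω₁) (r₂ : V' →+* Ω₂)
    (hm : ∀ a ∈ IsLocalRing.maximalIdeal A, ∀ h : evE A τ F (C a) ∈ V',
      r₁ ⟨_, h⟩ = 0 ∧ r₂ ⟨_, h⟩ = 0)
    {ι : Type} [Fintype ι] (b : ι → F) (hb : ∀ i, b i ∈ V')
    (hcard : Fintype.card ι = Module.finrank L F)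
    (hind : ∀ (P : ι → (↥A)[X]) (h : ∑ i, evE A τ F (P i) * b i ∈ V'),
      r₁ ⟨_, h⟩ = 0 → r₂ ⟨_, h⟩ = 0 → ∀ i, redP A (P i) = 0) :
    VV A τ F = V' ∧ ∃ o : ONB A τ F ι, ∀ i, o.β i = b i := by
  classical
  have hev : ∀ P : (↥A)[X], evE A τ F P ∈ V' := fun P => hOG _ (evL_mem_OG A P)
  -- Step 1: linear independence
  have hli : LinearIndependent L b := by
    rw [Fintype.linearIndependent_iff]
    intro c hc
    by_contra hne
    push Not at hne
    obtain ⟨a, ha, S, P, hS, ⟨i0, hi0⟩, hSP⟩ := exists_scale_L_family A hτ hgen c hne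
    have h0 : ∑ i, evE A τ F (P i) * b i = 0 := by
      have ha' : algebraMap L F (algebraMap K L a) ≠ 0 := by simpa using ha
      apply (mul_right_injective₀ ha')
      simp only [mul_zero]
      rw [Finset.mul_sum]
      have : ∀ i, algebraMap L F (algebraMap K L a) * (evE A τ F (P i) * b i) =
          evE A τ F S * (c i • b i) := by
        intro i
        rw [evE_apply, evE_apply, ← mul_assoc, ← map_mul, ← hSP i, map_mul, Algebra.smul_def,
          mul_assoc]
      simp only [this]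
      rw [← Finset.mul_sum, hc, mul_zero]
    have hmem : ∑ i, evE A τ F (P i) * b i ∈ V' := by rw [h0]; exact V'.zero_mem
    have hz : (⟨_, hmem⟩ : V') = 0 := Subtype.ext h0
    exact hi0 (hind P hmem (by rw [hz, map_zero]) (by rw [hz, map_zero]) i0)
  have hne : Nonempty ι := Fintype.card_pos_iff.mp (hcard ▸ Module.finrank_pos)
  let β : Module.Basis ι L F := basisOfLinearIndependentOfCardEqFinrank hli hcard
  have hβ : ∀ i, β i = b i := fun i => by
    simp only [β, coe_basisOfLinearIndependentOfCardEqFinrank]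
  -- Step 2: coordinates of elements of `V'` lie in `OG`
  have hrepr : ∀ x ∈ V', ∀ i, β.repr x i ∈ OG A τ := by
    intro x hx
    by_cases hne : ∃ i, β.repr x i ≠ 0
    swap
    · push Not at hne
      intro i
      rw [hne i]
      exact (OG A τ).zero_mem
    obtain ⟨a, ha, S, P, hS, ⟨i0, hi0⟩, hSP⟩ :=
      exists_scale_L_family A hτ hgen (fun i => β.repr x i) hne
    by_cases haA : a ∈ A
    · exact fun i => mem_OG_of_scale A haA hS (hSP i)
    exfalso
    have haA' : a⁻¹ ∈ A := (A.mem_or_inv_mem a).resolve_left haA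
    have hmax : (⟨a⁻¹, haA'⟩ : A) ∈ IsLocalRing.maximalIdeal A := by
      rw [IsLocalRing.mem_maximalIdeal, mem_nonunits_iff]
      intro hu
      apply haA
      obtain ⟨u, hu⟩ := hu
      have h3 : ((u⁻¹ : (↥A)ˣ) : ↥A) * (⟨a⁻¹, haA'⟩ : ↥A) = 1 := by rw [← hu]; exact u.inv_mul
      have h4 : (((u⁻¹ : (↥A)ˣ) : ↥A) : K) * a⁻¹ = 1 := by
        have := congrArg (fun z : ↥A => (z : K)) h3
        simpa using this
      have h5 : (((u⁻¹ : (↥A)ˣ) : ↥A) : K) = a := by
        field_simp at h4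
        exact h4
      rw [← h5]
      exact Subtype.mem _
    have h0 : ∑ i, evE A τ F (P i) * b i =
        evE A τ F (C ⟨a⁻¹, haA'⟩) * (evE A τ F S * x) := by
      conv_rhs => rw [← β.sum_repr x, Finset.mul_sum, Finset.mul_sum]
      refine Finset.sum_congr rfl fun i _ => ?_
      have h1 : evL A τ (P i) = algebraMap K L a⁻¹ * (evL A τ S * β.repr x i) := by
        rw [hSP i, ← mul_assoc, ← map_mul, inv_mul_cancel₀ ha, map_one, one_mul]
      rw [evE_apply, h1, evE_apply, evE_apply, evL_C, hβ, Algebra.smul_def, map_mul, map_mul]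
      ring
    have hmem2 : evE A τ F S * x ∈ V' := V'.mul_mem (hev S) hx
    have hmem : ∑ i, evE A τ F (P i) * b i ∈ V' := by
      rw [h0]; exact V'.mul_mem (hev _) hmem2
    have hz : (⟨_, hmem⟩ : V') = ⟨_, hev (C ⟨a⁻¹, haA'⟩)⟩ * ⟨_, hmem2⟩ := Subtype.ext h0
    obtain ⟨e1, e2⟩ := hm _ hmax (hev _)
    exact hi0 (hind P hmem (by rw [hz, map_mul, e1, zero_mul]) (by rw [hz, map_mul, e2, zero_mul]) i0)
  -- Step 3: `V'` is integral over `OG`
  let f : OG A τ →+* V' :=
    ((algebraMap L F).comp (OG A τ).subtype).codRestrict V' (fun c => hOG c c.2)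
  have hle1 : V' ≤ VV A τ F := by
    intro x hx
    let _ : Algebra (OG A τ) V' := f.toAlgebra
    have hfin : Module.Finite (OG A τ) V' := by
      refine ⟨⟨Finset.univ.image (fun i => (⟨b i, hb i⟩ : V')), ?_⟩⟩
      rw [eq_top_iff]
      rintro ⟨y, hy⟩ -
      have : (⟨y, hy⟩ : V') = ∑ i, (⟨β.repr y i, hrepr y hy i⟩ : OG A τ) • (⟨b i, hb i⟩ : V') := by
        apply Subtype.ext
        rw [AddSubmonoidClass.coe_finsetSum]
        refine (β.sum_repr y).symm.trans ?_
        refine Finset.sum_congr rfl fun i _ => ?_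
        rw [hβ, Algebra.smul_def, Algebra.smul_def]
        rfl
      rw [this]
      refine Submodule.sum_mem _ fun i _ => Submodule.smul_mem _ _ (Submodule.subset_span ?_)
      simp
    have hint : IsIntegral (OG A τ) (⟨x, hx⟩ : V') := IsIntegral.of_finite _ _
    obtain ⟨p, hp, hp0⟩ := hint
    apply mem_VV_of_isIntegralElem A hτ
    refine ⟨p, hp, ?_⟩
    have := congrArg V'.subtype hp0
    rw [Polynomial.hom_eval₂, map_zero] at this
    exact this
  have hle2 : VV A τ F ≤ V' := by
    intro x hx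
    obtain ⟨p, hp, hp0⟩ := isIntegralElem_of_mem_VV A hτ hx
    apply hcl
    refine ⟨p.map f, hp.map f, ?_⟩
    rw [Polynomial.eval₂_map]
    exact hp0
  have heq : VV A τ F = V' := le_antisymm hle2 hle1
  refine ⟨heq, ⟨β, fun i => ?_, fun x hx i => ?_⟩, hβ⟩
  · rw [hβ, heq]; exact hb i
  · exact hrepr x (heq ▸ hx) i

end Fermat.Agent.S34.Mod
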