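import Mathlib
import Fermat.Prelude.Def_ModularCurve_X0
import Fermat.Prelude.Def_AlgebraicCurve_Correspondence

/-!
# S34 / MOD-ON-b : the pure `q`-expansion argument (helper29)

`k` a field, `V = qExpand k q`, `t` a Laurent series of order `-1` with `V t = t ^ q`.
If `∑_{j ≤ q} a_j (V t)^j = 0` and `∑_{j ≤ q} V(a_j) t^j = 0` then all `a_j = 0`.
-/

set_option autoImplicit false

open HahnSeries ModularCurve

noncomputable section

namespace Fermat.Agent.S34.Mod.Ser

variable {k : Type*} [Field k] (q : ℕ) [NeZero q]

theorem qExpand_ne_zero' {y : LaurentSeries k} (hy : y ≠ 0) : qExpand k q y ≠ 0 := by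
  intro h
  apply hy
  ext n
  have := congrArg (fun s => s.coeff ((q : ℤ) * n)) h
  simpa only [qExpand_coeff_mul, HahnSeries.coeff_zero] using this

theorem order_qExpand {y : LaurentSeries k} (hy : y ≠ 0) :
    (qExpand k q y).order = (q : ℤ) * y.order := by
  have hq : (0 : ℤ) < q := by exact_mod_cast Nat.pos_of_ne_zero (NeZero.ne q)
  apply le_antisymm
  · apply HahnSeries.order_le_of_coeff_ne_zero
    rw [qExpand_coeff_mul]
    exact HahnSeries.coeff_order_eq_zero.not.2 hy
  · rw [HahnSeries.le_order_iff_forall (qExpand_ne_zero' q hy)]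
    intro n hn
    by_cases hd : (q : ℤ) ∣ n
    · obtain ⟨m, rfl⟩ := hd
      rw [qExpand_coeff_mul]
      exact HahnSeries.coeff_eq_zero_of_lt_order (lt_of_mul_lt_mul_left hn hq.le)
    · exact qExpand_coeff_of_not_dvd q y hd

theorem eq_zero_of_sum {t : LaurentSeries k} (ht : t ≠ 0) (hord : t.order = -1)
    (y : Fin q → LaurentSeries k) (h : ∑ j, qExpand k q (y j) * t ^ (j : ℕ) = 0) :
    ∀ j, y j = 0 := by
  classical
  by_contra hne
  push Not at hne
  let f : Fin q → LaurentSeries k := fun j => qExpand k q (y j) * t ^ (j : ℕ)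
  have hf0 : ∀ j, y j ≠ 0 → f j ≠ 0 := fun j hj =>
    mul_ne_zero (qExpand_ne_zero' q hj) (pow_ne_zero _ ht)
  have hford : ∀ j, y j ≠ 0 → (f j).order = (q : ℤ) * (y j).order - (j : ℕ) := by
    intro j hj
    rw [HahnSeries.order_mul (qExpand_ne_zero' q hj) (pow_ne_zero _ ht), order_qExpand q hj,
      HahnSeries.order_pow, hord]
    simp
    ring
  let J : Finset (Fin q) := Finset.univ.filter fun j => y j ≠ 0
  have hJ : J.Nonempty := by
    obtain ⟨j, hj⟩ := hne
    exact ⟨j, by simp [J, hj]⟩
  obtain ⟨j0, hj0, hmin⟩ := Finset.exists_min_image J (fun j => (f j).order) hJ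
  have hj0' : y j0 ≠ 0 := by simpa [J] using hj0
  have hc := congrArg (fun s => s.coeff (f j0).order) h
  simp only [HahnSeries.coeff_zero] at hc
  rw [HahnSeries.coeff_sum, Finset.sum_eq_single j0] at hc
  · exact (HahnSeries.coeff_order_eq_zero.not.2 (hf0 j0 hj0')) hc
  · intro j _ hjne
    by_cases hj : y j = 0
    · rw [hj, map_zero, zero_mul, HahnSeries.coeff_zero]
    · apply HahnSeries.coeff_eq_zero_of_lt_order
      have h1 := hmin j (by simp [J, hj])
      refine lt_of_le_of_ne h1 ?_
      intro heq
      apply hjne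
      rw [hford j0 hj0', hford j hj] at heq
      have hj1 := j.2
      have hj2 := j0.2
      have h3 : (q : ℤ) * ((y j0).order - (y j).order) = ((j0 : ℕ) : ℤ) - ((j : ℕ) : ℤ) := by
        linear_combination heq
      have h4 : ((y j0).order - (y j).order) = 0 := by
        by_contra h5
        have h6 : (q : ℤ) ≤ |(q : ℤ) * ((y j0).order - (y j).order)| := by
          rw [abs_mul, abs_of_nonneg (Int.natCast_nonneg q)]
          exact le_mul_of_one_le_right (Int.natCast_nonneg q) (Int.one_le_abs h5)
        rw [h3] at h6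
        have h7 : |((j0 : ℕ) : ℤ) - ((j : ℕ) : ℤ)| < q := by
          rw [abs_lt]; constructor <;> omega
        omega
      rw [h4, mul_zero] at h3
      apply Fin.ext
      omega
  · intro hn
    exact absurd (Finset.mem_univ _) hn

theorem indep_series (hq : 2 ≤ q) {t : LaurentSeries k} (ht : t ≠ 0) (hord : t.order = -1)
    (hV : qExpand k q t = t ^ q) (a : Fin (q + 1) → LaurentSeries k)
    (h1 : ∑ j, a j * qExpand k q t ^ (j : ℕ) = 0)
    (h2 : ∑ j, qExpand k q (a j) * t ^ (j : ℕ) = 0) : ∀ j, a j = 0 := by
  classical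
  have hq0 : 0 < q := by omega
  let z : Fin q := ⟨0, hq0⟩
  let y : Fin q → LaurentSeries k := fun j =>
    a j.castSucc + if j = z then a (Fin.last q) * t else 0
  have hy : ∑ j, qExpand k q (y j) * t ^ (j : ℕ) = 0 := by
    rw [Fin.sum_univ_castSucc] at h2
    simp only [Fin.val_castSucc, Fin.val_last] at h2
    rw [← h2]
    simp only [y, map_add, add_mul, Finset.sum_add_distrib]
    congr 1
    rw [Finset.sum_eq_single z]
    · simp only [if_true, z, pow_zero, mul_one, map_mul, hV]
    · intro j _ hj
      rw [if_neg hj, map_zero, zero_mul]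
    · intro hn
      exact absurd (Finset.mem_univ _) hn
  have hy0 := eq_zero_of_sum q ht hord y hy
  have ha : ∀ j : Fin q, j ≠ z → a j.castSucc = 0 := by
    intro j hj
    have := hy0 j
    simpa only [y, if_neg hj, add_zero] using this
  have ha0 : a z.castSucc + a (Fin.last q) * t = 0 := by
    have := hy0 z
    simpa only [y, if_true] using this
  rw [Fin.sum_univ_castSucc, Finset.sum_eq_single z] at h1
  rotate_left
  · intro j _ hj
    rw [ha j hj, zero_mul]
  · intro hn
    exact absurd (Finset.mem_univ _) hn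
  simp only [Fin.val_castSucc, Fin.val_last, z, pow_zero, mul_one] at h1
  have h3 : a (Fin.last q) * (qExpand k q t ^ q - t) = 0 := by
    have ha0' : a (Fin.castSucc ⟨0, hq0⟩) + a (Fin.last q) * t = 0 := ha0
    linear_combination h1 - ha0'
  have h4 : qExpand k q t ^ q - t ≠ 0 := by
    intro h5
    have h6 := congrArg HahnSeries.order (sub_eq_zero.1 h5)
    rw [HahnSeries.order_pow, order_qExpand q ht, hord] at h6
    simp only [nsmul_eq_mul] at h6
    have : (2 : ℤ) ≤ q := by exact_mod_cast hq
    nlinarith
  have h5 : a (Fin.last q) = 0 := (mul_eq_zero.1 h3).resolve_right h4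
  have h6 : a z.castSucc = 0 := by rwa [h5, zero_mul, add_zero] at ha0
  intro j
  refine Fin.lastCases h5 (fun i => ?_) j
  by_cases hi : i = z
  · rw [hi]; exact h6
  · exact ha i hi

/-- tower law through an embedding `α : F → F'` : `[F' : K(α t)] = [F : K(t)] [F' : α F]` -/
theorem finrank_adjoin_along {K F F' : Type*} [Field K] [Field F] [Field F'] [Algebra K F]
    [Algebra K F'] (α : F →ₐ[K] F') (t : F) :
    Module.finrank (IntermediateField.adjoin K {α t}) F' =
      Module.finrank (IntermediateField.adjoin K {t}) F * AlgebraicCurve.finrankAlong K α := by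
  let E := IntermediateField.adjoin K {t}
  let E' := IntermediateField.adjoin K {α t}
  have hmap : E.map α = E' := by
    simp only [E, E', IntermediateField.adjoin_map, Set.image_singleton]
  let e : E ≃+* E' :=
    ((IntermediateField.equivMap E α).trans (IntermediateField.equivOfEq hmap)).toRingEquiv
  let _ : Algebra F F' := AlgebraicCurve.algebraAlong α
  let _ : Algebra E F' := ((algebraMap F F').comp (algebraMap E F)).toAlgebra
  have : IsScalarTower E F F' := .of_algebraMap_eq' rfl
  have h1 : Module.finrank E F * Module.finrank F F' = Module.finrank E F' :=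
    Module.finrank_mul_finrank E F F'
  have h2 : Module.finrank E F' = Module.finrank E' F' := by
    refine Algebra.finrank_eq_of_equiv_equiv e (RingEquiv.refl F') ?_
    ext x
    rfl
  change Module.finrank E' F' = Module.finrank E F * Module.finrank F F'
  rw [h1, h2]

end Fermat.Agent.S34.Mod.Ser
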