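import Fermat.Agent.S34.Mod.Res
import Fermat.Agent.S34.Mod.GR
import Fermat.Agent.S34.Mod.IndepSer
import Fermat.Agent.S18.ModGood
import Fermat.Agent.S18.Haupt

/-!
# S34 / MOD : the set-up at level `M1 * q`  (helper4; keys `S34/MOD-T`, `S34/MOD-ON`)

`q` prime, `q ∤ M1`, `r ∈ {2,3}`, `r ∣ M1`, `A ∣ q`.  `F = FN (M1 * q)`, base field `Kb(t)`, `t = tauF` the Hauptmodul of `Γ₀(r)`
(helper7 `haupt`, helper13 `tauF`, `LT`, `tauL`), at BOTH levels `M1` and `M1 * q`.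
`al = heckeAlphaBar`, `be = heckeBetaBar`, `tq' = be t = t(q^q)`, `W = Wq`.

* `V2 = Vinf ⊓ W⁻¹ Vinf`, `r1 = resInf`, `r2 = resInf ∘ W`.

## MOD-T (~300 lines)
`coe_tauF`: `corr_tauF` gives `qExpand Kb M (tauF) = coeffMap zk (eps M tA)`; helper7's `rel_tFun`/`coeff_eps_tA`-lemmas identify `eps M (tA M r ..)` with
`qExpand M (tq Zb r)`; `coeffMap_tq`; `qExpand` is injective.  Everything else follows from `coe_tauF` by `Subtype.ext` and coefficientwise computations.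
`evk_injective`: `tq k r` is `Mon (-1)`, so `P(t̄)` has order `- natDegree P`.

## MOD-ON (~500 lines): see the statements; the mathematical content is `indep`:
`x = ∑_{i,j} P_ij(t) al(β_i) tq'^j = ∑_j al(a_j) tq'^j`, `a_j = ∑_i P_ij(t) β_i ∈ VV(M1) = Vinf A M1`, `ā_j = resInf a_j`, `V = qExpand q`, `t̄ = tq k r`.
`r2 x = ∑_j V(ā_j) t̄^j` (`W al = be`, `W tq' = t`), `j = 0..q`.  `t̄^q = V(t̄)` (`pow_char_eq_qExpand`, `coeffMap_tq`).  The series `V(y) t̄^j`, `0 ≤ j < q`, have orders `≡ -j mod q`,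
so `∑_{j<q} V(y_j) t̄^j = 0 ⟹ y_j = 0`.  Hence `ā_j = 0` for `0 < j < q` and `ā_0 + ā_q t̄ = 0`.
`r1 x = ∑_j ā_j V(t̄)^j = ā_0 + ā_q V(t̄)^q`.  So `ā_q (t̄ - V(t̄)^q) = 0`, orders `-1 ≠ -q²`: `ā_q = 0 = ā_0`.
`ā_j = 0 ⟹ SmV a_j` (`S18.smV_of_quot` + `exists_smul_of_resInf_eq_zero`) `⟹ SmG (P_ij(t))` (`GoodRed.repr_SmG`) `⟹ redP P_ij = 0`.
`card`: `finrank_LT` at both levels and `ES.Alg.finrank_alpha` (`[F : al (FN M1)] = q + 1`), tower law through `al`.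
-/

set_option autoImplicit false
set_option synthInstance.maxHeartbeats 400000
set_option linter.unusedSectionVars false

open HahnSeries ModularCurve AlgebraicCurve Polynomial Fermat.Agent.S24 Fermat.Agent.S29
  Fermat.Agent.S18 Fermat.Agent.ES Fermat.Agent.ES.Alg Fermat.Agent.S34.T

noncomputable section

namespace Fermat.Agent.S34.Mod

/-- the standing hypotheses -/
structure Setup (M1 q r : ℕ) (A : ValuationSubring Kb) : Prop where
  hr : r = 2 ∨ r = 3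
  hr1 : r ∣ M1
  hq : q.Prime
  hc : Nat.Coprime q M1
  hA : A.LiesOverPrime q

variable {M1 q r : ℕ} [NeZero M1] [NeZero q] [NeZero r] {A : ValuationSubring Kb}

namespace Setup

variable (S : Setup M1 q r A)
include S

theorem hrM : r ∣ M1 * q := Dvd.dvd.mul_right S.hr1 q

theorem not_dvd : ¬ q ∣ M1 := (Nat.Prime.coprime_iff_not_dvd S.hq).mp S.hc

/-- Hauptmodul data at level `M1` -/
def H1 : Haupt M1 r := haupt M1 r S.hr S.hr1

/-- Hauptmodul data at level `M1 * q` -/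
def HM : Haupt (M1 * q) r := haupt (M1 * q) r S.hr S.hrM

/-- the Hauptmodul in `FN M1` -/
def t1 : FN M1 := tauF S.H1 S.hr1

/-- the Hauptmodul in `FN (M1 * q)` -/
def tM : FN (M1 * q) := tauF S.HM S.hrM

/-- `t(q^q)` -/
def tQ : FN (M1 * q) := heckeBetaBar Kb M1 q S.t1

/-- base field at level `M1` -/
abbrev L1 : IntermediateField Kb (FN M1) := LT S.H1 S.hr1

/-- base field at level `M1 * q` -/
abbrev LM : IntermediateField Kb (FN (M1 * q)) := LT S.HM S.hrM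

/-- the generator of the base field, level `M1` -/
def τ1 : S.L1 := tauL S.H1 S.hr1

/-- the generator of the base field, level `M1 * q` -/
def τM : S.LM := tauL S.HM S.hrM

end Setup

/-! ### MOD-T : the Hauptmodul -/

section T

variable (M : ℕ) [NeZero M] (hr : r = 2 ∨ r = 3) (hrM : r ∣ M)

/-- the `q`-expansion of the Hauptmodul -/
theorem coe_tauF : ((tauF (haupt M r hr hrM) hrM : FN M) : LaurentSeries Kb) = tq Kb r := by
  ext n
  rw [coeff_tauF]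
  have h : (haupt M r hr hrM).tA = tA M r hr hrM := rfl
  rw [h, eps_tA, qExpand_coeff_mul, ← coeffMap_tq r zk, coeffMap_coeff]

theorem intRed_tauF (A : ValuationSubring Kb) :
    IntRed A M (tauF (haupt M r hr hrM) hrM) (tq (kA A) r) :=
  ⟨tq A r, by rw [coeffMap_tq, coe_tauF], coeffMap_tq r _⟩

theorem gal_tauF (σ : GQ) :
    gal M σ (tauF (haupt M r hr hrM) hrM) = tauF (haupt M r hr hrM) hrM := by
  apply Subtype.ext
  rw [coe_arithmeticRingAut_apply, coe_tauF, coeffMap_tq]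

/-- polynomials in the Hauptmodul are integral, with the expected reduction -/
theorem intRed_evE (A : ValuationSubring Kb) (P : (↥A)[X]) :
    IntRed A M (KL.evE A (tauL (haupt M r hr hrM) hrM) (FN M) P)
      (Polynomial.eval₂ (HahnSeries.C : kA A →+* LaurentSeries (kA A)) (tq (kA A) r)
        (KL.redP A P)) := by
  refine ⟨evS A (tq A r) P, coeffMap_subtype_evS _ hrM A (by rw [coeffMap_tq, coe_tauF]) P, ?_⟩
  show coeffMap (IsLocalRing.residue A) (evS A (tq A r) P) = _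
  rw [coeffMap_residue_evS, coeffMap_tq, aeval_def]
  congr 1
  ext c : 1
  rw [algebraMap_laurent_eq_single]
  rfl

end T

/-- evaluation of polynomials at `t̄` -/
def evk (k : Type) [Field k] (r : ℕ) [NeZero r] : k[X] →+* LaurentSeries k :=
  Polynomial.eval₂RingHom (HahnSeries.C : k →+* LaurentSeries k) (tq k r)

theorem order_tq_neg (k : Type) [Field k] (r : ℕ) [NeZero r] : (tq k r).order < 0 := by
  have h : (tq k r).order ≤ -1 := by
    apply HahnSeries.order_le_of_coeff_ne_zero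
    rw [coeff_tq_neg_one]; exact one_ne_zero
  omega

theorem evk_injective (k : Type) [Field k] (r : ℕ) [NeZero r] : Function.Injective (evk k r) := by
  have h := transcendental_iff_injective.mp (transcendental_of_order_neg (order_tq_neg k r))
  intro P Q hPQ
  apply h
  have e : ∀ P : k[X], aeval (tq k r) P = evk k r P := by
    intro P
    rw [aeval_def, evk, coe_eval₂RingHom]
    congr 1
    ext c : 1
    rw [algebraMap_laurent_eq_single]
    rfl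
  rw [e, e, hPQ]

/-- in characteristic `q` : `t̄(q^q) = t̄^q` -/
theorem qExpand_tq (k : Type) [Field k] [CharP k q] (hq : q.Prime) :
    qExpand k q (tq k r) = tq k r ^ q := by
  have : Fact q.Prime := ⟨hq⟩
  rw [pow_char_eq_qExpand q, coeffMap_tq]

variable (S : Setup M1 q r A)

theorem alpha_t1 : heckeAlphaBar Kb M1 q S.t1 = S.tM := by
  apply Subtype.ext
  rw [coe_heckeAlphaBar]
  exact (coe_tauF M1 S.hr S.hr1).trans (coe_tauF (M1 * q) S.hr S.hrM).symm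

theorem Wq_tM : Wq S.hc S.tM = S.tQ := by
  rw [← alpha_t1, Wq_alpha]; rfl

theorem Wq_tQ : Wq S.hc S.tQ = S.tM := by
  rw [← alpha_t1]; exact Wq_beta S.hc S.t1

/-- `al` is compatible with the evaluation of polynomials at `t` -/
theorem alpha_evE (P : (↥A)[X]) :
    heckeAlphaBar Kb M1 q (KL.evE A S.τ1 (FN M1) P) = KL.evE A S.τM (FN (M1 * q)) P := by
  have h : ((heckeAlphaBar Kb M1 q : FN M1 →ₐ[Kb] FN (M1 * q)) : FN M1 →+* FN (M1 * q)).comp
      (KL.evE A S.τ1 (FN M1)) = KL.evE A S.τM (FN (M1 * q)) := by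
    apply Polynomial.ringHom_ext
    · intro a
      simp only [RingHom.comp_apply, KL.evE, KL.evL, coe_eval₂RingHom, eval₂_C]
      exact (heckeAlphaBar Kb M1 q).commutes (a : Kb)
    · simp only [RingHom.comp_apply, KL.evE, KL.evL, coe_eval₂RingHom, eval₂_X]
      exact alpha_t1 S
  exact DFunLike.congr_fun h P

theorem alpha_evE_inv (P : (↥A)[X]) :
    heckeAlphaBar Kb M1 q (KL.evE A S.τ1⁻¹ (FN M1) P) = KL.evE A S.τM⁻¹ (FN (M1 * q)) P := by
  have h : ((heckeAlphaBar Kb M1 q : FN M1 →ₐ[Kb] FN (M1 * q)) : FN M1 →+* FN (M1 * q)).comp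
      (KL.evE A S.τ1⁻¹ (FN M1)) = KL.evE A S.τM⁻¹ (FN (M1 * q)) := by
    apply Polynomial.ringHom_ext
    · intro a
      simp only [RingHom.comp_apply, KL.evE, KL.evL, coe_eval₂RingHom, eval₂_C]
      exact (heckeAlphaBar Kb M1 q).commutes (a : Kb)
    · simp only [RingHom.comp_apply, KL.evE, KL.evL, coe_eval₂RingHom, eval₂_X]
      rw [map_inv₀, map_inv₀]
      show heckeAlphaBar Kb M1 q (S.t1)⁻¹ = (S.tM)⁻¹
      rw [map_inv₀, alpha_t1]
  exact DFunLike.congr_fun h P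

theorem evE_mem_Vinf (P : (↥A)[X]) : KL.evE A S.τM (FN (M1 * q)) P ∈ Vinf A (M1 * q) :=
  mem_Vinf_of_intRed (intRed_evE (M1 * q) S.hr S.hrM A P)

theorem resInf_evE (P : (↥A)[X]) :
    resInf A (M1 * q) ⟨_, evE_mem_Vinf S P⟩ = evk (kA A) r (KL.redP A P) :=
  resInf_of_intRed (intRed_evE (M1 * q) S.hr S.hrM A P)

theorem Wq_evE (P : (↥A)[X]) : Wq S.hc (KL.evE A S.τM (FN (M1 * q)) P) =
    heckeBetaBar Kb M1 q (KL.evE A S.τ1 (FN M1) P) := by
  rw [← alpha_evE, Wq_alpha]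

theorem evE1_mem_Vinf (P : (↥A)[X]) : KL.evE A S.τ1 (FN M1) P ∈ Vinf A M1 :=
  mem_Vinf_of_intRed (intRed_evE M1 S.hr S.hr1 A P)

theorem resInf_evE1 (P : (↥A)[X]) :
    resInf A M1 ⟨_, evE1_mem_Vinf S P⟩ = evk (kA A) r (KL.redP A P) :=
  resInf_of_intRed (intRed_evE M1 S.hr S.hr1 A P)

theorem Wq_evE_mem_Vinf (P : (↥A)[X]) :
    Wq S.hc (KL.evE A S.τM (FN (M1 * q)) P) ∈ Vinf A (M1 * q) := by
  rw [Wq_evE]
  exact beta_mem_Vinf (evE1_mem_Vinf S P)

theorem resInf_Wq_evE (P : (↥A)[X]) :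
    resInf A (M1 * q) ⟨_, Wq_evE_mem_Vinf S P⟩ =
      qExpand (kA A) q (evk (kA A) r (KL.redP A P)) := by
  rw [← resInf_evE1 S P, ← resInf_beta]
  congr 1
  exact Subtype.ext (Wq_evE S P)

/-! ### the two components -/

variable (A) in
/-- the intersection of the two Gauss valuation rings -/
def V2 (hc : Nat.Coprime q M1) : Subring (FN (M1 * q)) :=
  Vinf A (M1 * q) ⊓ (Vinf A (M1 * q)).comap (Wq hc : FN (M1 * q) →+* FN (M1 * q))

variable (A) in
/-- reduction on the component `∞` -/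
def r1 (hc : Nat.Coprime q M1) : V2 A hc →+* LaurentSeries (kA A) :=
  (resInf A (M1 * q)).comp (Subring.inclusion inf_le_left)

variable (A) in
/-- reduction on the component `0` -/
def r2 (hc : Nat.Coprime q M1) : V2 A hc →+* LaurentSeries (kA A) :=
  (resInf A (M1 * q)).comp
    ((Wq hc : FN (M1 * q) →+* FN (M1 * q)).restrict (V2 A hc) (Vinf A (M1 * q)) fun _ hx => hx.2)

/-! ### MOD-ON : the orthonormal basis -/

/-! #### MOD-ON-a : auxiliary lemmas (helper19) -/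

theorem evE_C_M (a : A) :
    KL.evE A S.τM (FN (M1 * q)) (C a) = algebraMap Kb (FN (M1 * q)) (a : Kb) :=
  Fermat.Agent.S18.evE_C S.HM S.hrM A a

theorem evk_ne_zero {P : (↥A)[X]} (hP : KL.redP A P ≠ 0) : evk (kA A) r (KL.redP A P) ≠ 0 :=
  (map_ne_zero_iff _ (evk_injective _ r)).2 hP

/-- primitive polynomials in `t` are units of `Vinf` -/
theorem inv_evE_mem_Vinf {P : (↥A)[X]} (hP : KL.redP A P ≠ 0) :
    (KL.evE A S.τM (FN (M1 * q)) P)⁻¹ ∈ Vinf A (M1 * q) := by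
  refine inv_mem_Vinf (x := ⟨_, evE_mem_Vinf S P⟩) ?_
  rw [resInf_evE]
  exact evk_ne_zero hP

theorem inv_Wq_evE_mem_Vinf {P : (↥A)[X]} (hP : KL.redP A P ≠ 0) :
    (Wq S.hc (KL.evE A S.τM (FN (M1 * q)) P))⁻¹ ∈ Vinf A (M1 * q) := by
  refine inv_mem_Vinf (x := ⟨_, Wq_evE_mem_Vinf S P⟩) ?_
  rw [resInf_Wq_evE]
  exact qExpand_ne_zero (evk_ne_zero hP)

theorem evE_ne_zero_of_red {P : (↥A)[X]} (hP : KL.redP A P ≠ 0) :
    KL.evE A S.τM (FN (M1 * q)) P ≠ 0 := by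
  intro h
  have h1 := resInf_evE S P
  have h2 : (⟨_, evE_mem_Vinf S P⟩ : Vinf A (M1 * q)) = 0 := Subtype.ext h
  rw [h2, map_zero] at h1
  exact evk_ne_zero hP h1.symm

theorem mem_V2 {hc : Nat.Coprime q M1} {x : FN (M1 * q)} :
    x ∈ V2 A hc ↔ x ∈ Vinf A (M1 * q) ∧ Wq hc x ∈ Vinf A (M1 * q) := Iff.rfl

theorem V2_le (hc : Nat.Coprime q M1) : V2 A hc ≤ Vinf A (M1 * q) := inf_le_left

theorem r1_mk {hc : Nat.Coprime q M1} {x : FN (M1 * q)} (hx : x ∈ V2 A hc) :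
    r1 A hc ⟨x, hx⟩ = resInf A (M1 * q) ⟨x, hx.1⟩ := rfl

theorem r2_mk {hc : Nat.Coprime q M1} {x : FN (M1 * q)} (hx : x ∈ V2 A hc) :
    r2 A hc ⟨x, hx⟩ = resInf A (M1 * q) ⟨Wq hc x, hx.2⟩ := rfl

theorem inv_mem_V2 {hc : Nat.Coprime q M1} {x : V2 A hc} (h1 : r1 A hc x ≠ 0)
    (h2 : r2 A hc x ≠ 0) : (x : FN (M1 * q))⁻¹ ∈ V2 A hc := by
  obtain ⟨x, hx⟩ := x
  rw [r1_mk] at h1
  rw [r2_mk] at h2
  rw [mem_V2, map_inv₀]
  exact ⟨inv_mem_Vinf (x := ⟨x, hx.1⟩) h1, inv_mem_Vinf (x := ⟨Wq hc x, hx.2⟩) h2⟩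

theorem mem_Vinf_of_alpha {x : FN M1} (h : heckeAlphaBar Kb M1 q x ∈ Vinf A (M1 * q)) :
    x ∈ Vinf A M1 := by
  obtain ⟨y1, y2, h1, h2⟩ := h
  rw [coe_heckeAlphaBar] at h1
  exact ⟨y1, y2, h1, h2⟩

/-- at level `M1` : `VV ≤ Vinf` -/
theorem VV1_le_Vinf : KL.VV A S.τ1 (FN M1) ≤ Vinf A M1 := by
  rintro x ⟨Q, hQ, p, hp, hpx⟩
  have hz : KL.evE A S.τ1 (FN M1) Q * x ∈ Vinf A M1 := by
    refine mem_Vinf_of_isIntegral ⟨p.map ((KL.evE A S.τ1 (FN M1)).codRestrict (Vinf A M1)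
      (evE1_mem_Vinf S)), hp.map _, ?_⟩
    rw [eval₂_map]
    exact hpx
  have hr0 : resInf A M1 ⟨_, evE1_mem_Vinf S Q⟩ ≠ 0 := by
    rw [resInf_evE1]
    exact evk_ne_zero hQ
  have hi : (KL.evE A S.τ1 (FN M1) Q)⁻¹ ∈ Vinf A M1 :=
    inv_mem_Vinf (x := ⟨_, evE1_mem_Vinf S Q⟩) hr0
  have h0 : KL.evE A S.τ1 (FN M1) Q ≠ 0 := by
    intro h
    have h2 : (⟨_, evE1_mem_Vinf S Q⟩ : Vinf A M1) = 0 := Subtype.ext h
    rw [h2, map_zero] at hr0
    exact hr0 rfl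
  have hx : x = (KL.evE A S.τ1 (FN M1) Q)⁻¹ * (KL.evE A S.τ1 (FN M1) Q * x) := by
    rw [← mul_assoc, inv_mul_cancel₀ h0, one_mul]
  rw [hx]
  exact mul_mem hi hz

theorem t1_mem_Vinf : S.t1 ∈ Vinf A M1 := mem_Vinf_of_intRed (intRed_tauF M1 S.hr S.hr1 A)

theorem resInf_t1 : resInf A M1 ⟨S.t1, t1_mem_Vinf S⟩ = tq (kA A) r :=
  resInf_of_intRed (intRed_tauF M1 S.hr S.hr1 A)

theorem alpha_mem_V2 {x : FN M1} (hx : x ∈ Vinf A M1) : heckeAlphaBar Kb M1 q x ∈ V2 A S.hc :=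
  mem_V2.2 ⟨alpha_mem_Vinf hx, by rw [Wq_alpha]; exact beta_mem_Vinf hx⟩

theorem beta_mem_V2 {x : FN M1} (hx : x ∈ Vinf A M1) : heckeBetaBar Kb M1 q x ∈ V2 A S.hc :=
  mem_V2.2 ⟨beta_mem_Vinf hx, by rw [Wq_beta]; exact alpha_mem_Vinf hx⟩

theorem r1_alpha (x : Vinf A M1) : r1 A S.hc ⟨_, alpha_mem_V2 S x.2⟩ = resInf A M1 x :=
  resInf_alpha x

theorem r1_beta (x : Vinf A M1) :
    r1 A S.hc ⟨_, beta_mem_V2 S x.2⟩ = qExpand (kA A) q (resInf A M1 x) :=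
  resInf_beta x

theorem r2_alpha (x : Vinf A M1) :
    r2 A S.hc ⟨_, alpha_mem_V2 S x.2⟩ = qExpand (kA A) q (resInf A M1 x) := by
  rw [← resInf_beta x, r2_mk]
  congr 1
  exact Subtype.ext (Wq_alpha S.hc _)

theorem r2_beta (x : Vinf A M1) : r2 A S.hc ⟨_, beta_mem_V2 S x.2⟩ = resInf A M1 x := by
  rw [← resInf_alpha (q := q) x, r2_mk]
  congr 1
  exact Subtype.ext (Wq_beta S.hc _)

theorem OG_le_V2 (c : S.LM) (hc : c ∈ KL.OG A S.τM) :
    algebraMap S.LM (FN (M1 * q)) c ∈ V2 A S.hc := by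
  obtain ⟨P, Q, hQ, h⟩ := hc
  have h0 := evE_ne_zero_of_red S hQ
  have h1 : algebraMap S.LM (FN (M1 * q)) c =
      KL.evE A S.τM (FN (M1 * q)) P * (KL.evE A S.τM (FN (M1 * q)) Q)⁻¹ := by
    rw [eq_mul_inv_iff_mul_eq₀ h0, KL.evE_apply, KL.evE_apply, ← h, map_mul]
    exact mul_comm _ _
  rw [h1]
  refine mem_V2.2 ⟨mul_mem (evE_mem_Vinf S P) (inv_evE_mem_Vinf S hQ), ?_⟩
  rw [map_mul, map_inv₀]
  exact mul_mem (Wq_evE_mem_Vinf S P) (inv_Wq_evE_mem_Vinf S hQ)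

theorem V2_closed (x : FN (M1 * q)) (hx : (V2 A S.hc).subtype.IsIntegralElem x) :
    x ∈ V2 A S.hc := by
  obtain ⟨p, hp, hpx⟩ := hx
  refine mem_V2.2 ⟨mem_Vinf_of_isIntegral ⟨p.map (Subring.inclusion (V2_le S.hc)), hp.map _, ?_⟩,
    mem_Vinf_of_isIntegral ⟨p.map ((Wq S.hc : FN (M1 * q) →+* FN (M1 * q)).restrict (V2 A S.hc)
      (Vinf A (M1 * q)) fun _ hx => hx.2), hp.map _, ?_⟩⟩
  · rw [eval₂_map]
    exact hpx
  · rw [eval₂_map]
    have h1 := congrArg (Wq S.hc : FN (M1 * q) →+* FN (M1 * q)) hpx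
    rw [map_zero, Polynomial.hom_eval₂] at h1
    exact h1

theorem V2_ker (x : V2 A S.hc) (h1 : r1 A S.hc x = 0) (h2 : r2 A S.hc x = 0) :
    ∃ a ∈ IsLocalRing.maximalIdeal A, ∃ y ∈ V2 A S.hc,
      (x : FN (M1 * q)) = KL.evE A S.τM (FN (M1 * q)) (C a) * y := by
  obtain ⟨a1, ha1, y1, hy1, e1⟩ := exists_smul_of_resInf_eq_zero h1
  obtain ⟨a2, ha2, y2, hy2, e2⟩ := exists_smul_of_resInf_eq_zero h2
  have e1' : (x : FN (M1 * q)) = algebraMap Kb (FN (M1 * q)) (a1 : Kb) * y1 := e1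
  have e2' : Wq S.hc (x : FN (M1 * q)) = algebraMap Kb (FN (M1 * q)) (a2 : Kb) * y2 := e2
  rcases ValuationRing.dvd_total a1 a2 with ⟨b, hb⟩ | ⟨b, hb⟩
  · by_cases h0 : a1 = 0
    · refine ⟨0, zero_mem _, 0, zero_mem _, ?_⟩
      rw [e1', h0]
      simp
    have h3 : algebraMap Kb (FN (M1 * q)) (a1 : Kb) ≠ 0 := by
      rw [Ne, map_eq_zero]
      exact fun h => h0 (Subtype.ext h)
    have hb' : (a2 : Kb) = (a1 : Kb) * (b : Kb) := congrArg Subtype.val hb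
    refine ⟨a1, ha1, y1, mem_V2.2 ⟨hy1, ?_⟩, by rw [evE_C_M]; exact e1'⟩
    have h4 : Wq S.hc y1 = algebraMap Kb (FN (M1 * q)) (b : Kb) * y2 := by
      apply mul_left_cancel₀ h3
      rw [← mul_assoc, ← map_mul, ← hb', ← e2', e1', map_mul, AlgEquiv.commutes]
    rw [h4]
    exact mul_mem (algebraMap_mem_Vinf b) hy2
  · by_cases h0 : a2 = 0
    · refine ⟨0, zero_mem _, 0, zero_mem _, ?_⟩
      have h5 : Wq S.hc (x : FN (M1 * q)) = 0 := by
        rw [e2', h0]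
        simp
      rw [(map_eq_zero_iff _ (Wq S.hc).injective).1 h5]
      simp
    have h3 : algebraMap Kb (FN (M1 * q)) (a2 : Kb) ≠ 0 := by
      rw [Ne, map_eq_zero]
      exact fun h => h0 (Subtype.ext h)
    have hb' : (a1 : Kb) = (a2 : Kb) * (b : Kb) := congrArg Subtype.val hb
    refine ⟨a2, ha2, algebraMap Kb (FN (M1 * q)) (b : Kb) * y1,
      mem_V2.2 ⟨mul_mem (algebraMap_mem_Vinf b) hy1, ?_⟩, ?_⟩
    · have h4 : Wq S.hc (algebraMap Kb (FN (M1 * q)) (b : Kb) * y1) = y2 := by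
        apply mul_left_cancel₀ h3
        rw [← e2', e1', hb', map_mul, map_mul, map_mul, map_mul, AlgEquiv.commutes,
          AlgEquiv.commutes, mul_assoc]
      rw [h4]
      exact hy2
    · rw [evE_C_M, e1', hb', map_mul, mul_assoc]

theorem V2_max (a : A) (ha : a ∈ IsLocalRing.maximalIdeal A)
    (h : KL.evE A S.τM (FN (M1 * q)) (C a) ∈ V2 A S.hc) :
    r1 A S.hc ⟨_, h⟩ = 0 ∧ r2 A S.hc ⟨_, h⟩ = 0 := by
  have hred : KL.redP A (C a) = 0 := by
    rw [KL.redP, coe_mapRingHom, Polynomial.map_C, (IsLocalRing.residue_eq_zero_iff _).2 ha, map_zero]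
  constructor
  · have h1 := resInf_evE S (C a)
    rw [hred, map_zero] at h1
    exact h1
  · have h1 := resInf_Wq_evE S (C a)
    rw [hred, map_zero, map_zero] at h1
    exact h1

/-- the index set of the basis at level `M1` -/
abbrev I1 (M1 r : ℕ) [NeZero M1] : Type := Fin (Nat.card (X0 M1 r))

/-- the family `al (β_i) * tQ ^ j` -/
def bas (g : KL.GoodRed A S.τ1 (FN M1) (I1 M1 r)) (ij : I1 M1 r × Fin (q + 1)) : FN (M1 * q) :=
  heckeAlphaBar Kb M1 q (g.β ij.1) * S.tQ ^ (ij.2 : ℕ)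

theorem bas_mem (g : KL.GoodRed A S.τ1 (FN M1) (I1 M1 r)) (ij : I1 M1 r × Fin (q + 1)) :
    bas S g ij ∈ V2 A S.hc :=
  mul_mem (alpha_mem_V2 S (VV1_le_Vinf S (g.mem ij.1))) (pow_mem (beta_mem_V2 S (t1_mem_Vinf S)) _)

theorem card_eq : Fintype.card (I1 M1 r × Fin (q + 1)) = Module.finrank S.LM (FN (M1 * q)) := by
  have h1 := Ser.finrank_adjoin_along (heckeAlphaBar Kb M1 q) S.t1
  rw [alpha_t1 S, finrank_alpha M1 q S.hq S.not_dvd] at h1
  have h2 : Module.finrank S.L1 (FN M1) = Nat.card (X0 M1 r) := finrank_LT S.H1 S.hr1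
  rw [Fintype.card_prod, Fintype.card_fin, Fintype.card_fin, ← h2]
  exact h1.symm

/-! #### auxiliary lemmas for `indep` (helper29) -/

theorem evE_X_eq_tM : KL.evE A S.τM (FN (M1 * q)) X = S.tM := by
  rw [KL.evE_apply, KL.evL_X]; rfl

theorem evE_X_eq_t1 : KL.evE A S.τ1 (FN M1) X = S.t1 := by
  rw [KL.evE_apply, KL.evL_X]; rfl

theorem evk_redP_X : evk (kA A) r (KL.redP A X) = tq (kA A) r := by
  rw [KL.redP_apply, Polynomial.map_X, evk, Polynomial.coe_eval₂RingHom, Polynomial.eval₂_X]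

theorem tM_mem_Vinf : S.tM ∈ Vinf A (M1 * q) := by
  rw [← evE_X_eq_tM S]; exact evE_mem_Vinf S X

theorem resInf_tM : resInf A (M1 * q) ⟨S.tM, tM_mem_Vinf S⟩ = tq (kA A) r := by
  rw [← evk_redP_X (A := A), ← resInf_evE S X]
  congr 1
  exact Subtype.ext (evE_X_eq_tM S).symm

theorem tQ_mem_Vinf : S.tQ ∈ Vinf A (M1 * q) := beta_mem_Vinf (t1_mem_Vinf S)

theorem resInf_tQ :
    resInf A (M1 * q) ⟨S.tQ, tQ_mem_Vinf S⟩ = qExpand (kA A) q (tq (kA A) r) := by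
  rw [← resInf_t1 S]
  exact resInf_beta (⟨S.t1, t1_mem_Vinf S⟩ : Vinf A M1)

/-- independence modulo `𝔪` -/
theorem indep (g : KL.GoodRed A S.τ1 (FN M1) (I1 M1 r)) (P : I1 M1 r × Fin (q + 1) → (↥A)[X])
    (h : ∑ ij, KL.evE A S.τM (FN (M1 * q)) (P ij) * bas S g ij ∈ V2 A S.hc)
    (h1 : r1 A S.hc ⟨_, h⟩ = 0) (h2 : r2 A S.hc ⟨_, h⟩ = 0) (ij : I1 M1 r × Fin (q + 1)) :
    KL.redP A (P ij) = 0 := by
  classical
  have hfin : FiniteDimensional S.L1 (FN M1) := finiteDimensional_LT S.H1 S.hr1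
  have hchar : CharP (kA A) q := charP_kA S.hq S.hA
  -- the coefficients `a_j`
  let a : Fin (q + 1) → FN M1 := fun j => ∑ i, KL.evE A S.τ1 (FN M1) (P (i, j)) * g.β i
  have haV : ∀ j, a j ∈ Vinf A M1 := fun j =>
    sum_mem fun i _ => mul_mem (evE1_mem_Vinf S _) (VV1_le_Vinf S (g.mem i))
  let ab : Fin (q + 1) → LaurentSeries (kA A) := fun j => resInf A M1 ⟨a j, haV j⟩
  have hx : ∑ ij, KL.evE A S.τM (FN (M1 * q)) (P ij) * bas S g ij =
      ∑ j, heckeAlphaBar Kb M1 q (a j) * S.tQ ^ (j : ℕ) := by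
    rw [Fintype.sum_prod_type_right]
    refine Finset.sum_congr rfl fun j _ => ?_
    rw [map_sum, Finset.sum_mul]
    refine Finset.sum_congr rfl fun i _ => ?_
    rw [map_mul, alpha_evE S, bas, mul_assoc]
  have hr1 : r1 A S.hc ⟨_, h⟩ = ∑ j, ab j * qExpand (kA A) q (tq (kA A) r) ^ (j : ℕ) := by
    have e : (⟨_, h.1⟩ : Vinf A (M1 * q)) =
        ∑ j, (⟨heckeAlphaBar Kb M1 q (a j), alpha_mem_Vinf (haV j)⟩ : Vinf A (M1 * q)) *
          (⟨S.tQ, tQ_mem_Vinf S⟩ : Vinf A (M1 * q)) ^ (j : ℕ) := by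
      apply Subtype.ext
      rw [AddSubmonoidClass.coe_finsetSum]
      exact hx
    refine (congrArg (resInf A (M1 * q)) e).trans ?_
    rw [map_sum]
    refine Finset.sum_congr rfl fun j _ => ?_
    have e1 : resInf A (M1 * q) ⟨heckeAlphaBar Kb M1 q (a j), alpha_mem_Vinf (haV j)⟩ = ab j :=
      resInf_alpha (⟨a j, haV j⟩ : Vinf A M1)
    rw [map_mul, map_pow, resInf_tQ S, e1]
  have hr2 : r2 A S.hc ⟨_, h⟩ = ∑ j, qExpand (kA A) q (ab j) * tq (kA A) r ^ (j : ℕ) := by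
    have e : (⟨_, h.2⟩ : Vinf A (M1 * q)) =
        ∑ j, (⟨heckeBetaBar Kb M1 q (a j), beta_mem_Vinf (haV j)⟩ : Vinf A (M1 * q)) *
          (⟨S.tM, tM_mem_Vinf S⟩ : Vinf A (M1 * q)) ^ (j : ℕ) := by
      apply Subtype.ext
      rw [AddSubmonoidClass.coe_finsetSum]
      change Wq S.hc (∑ ij, KL.evE A S.τM (FN (M1 * q)) (P ij) * bas S g ij) = _
      rw [hx, map_sum]
      refine Finset.sum_congr rfl fun j _ => ?_
      rw [map_mul, map_pow, Wq_alpha, Wq_tQ]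
      rfl
    refine (congrArg (resInf A (M1 * q)) e).trans ?_
    rw [map_sum]
    refine Finset.sum_congr rfl fun j _ => ?_
    have e1 : resInf A (M1 * q) ⟨heckeBetaBar Kb M1 q (a j), beta_mem_Vinf (haV j)⟩ =
        qExpand (kA A) q (ab j) := resInf_beta (⟨a j, haV j⟩ : Vinf A M1)
    rw [map_mul, map_pow, resInf_tM S, e1]
  have ht0 : tq (kA A) r ≠ 0 := by
    intro h0
    have := coeff_tq_neg_one (kA A) r
    rw [h0] at this
    simp at this
  have hord : (tq (kA A) r).order = -1 := by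
    apply le_antisymm
    · apply HahnSeries.order_le_of_coeff_ne_zero
      rw [coeff_tq_neg_one]; exact one_ne_zero
    · rw [HahnSeries.le_order_iff_forall ht0]
      intro n hn
      exact coeff_tq_of_lt (kA A) r hn
  have hab := Ser.indep_series q S.hq.two_le ht0 hord (qExpand_tq (kA A) S.hq) ab
    (by rw [← hr1, h1]) (by rw [← hr2, h2])
  -- back to level `M1`
  have hsm : KL.SmV A S.τ1 (FN M1) (a ij.2) := by
    obtain ⟨y1, y2, hy⟩ := haV ij.2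
    have h0 := hab ij.2
    simp only [ab] at h0
    rw [resInf_eq (x := ⟨a ij.2, haV ij.2⟩) hy, div_eq_zero_iff] at h0
    exact smV_of_quot S.H1 S.hr1 A S.hq S.hA S.not_dvd (a ij.2) y1 y2 hy.1
      (h0.resolve_right hy.2) hy.2
  have hG := g.repr_SmG (transcendental_tauL S.H1 S.hr1) (isGen_tauL S.H1 S.hr1) hsm ij.1
  have hrep : g.β.repr (a ij.2) ij.1 = KL.evL A S.τ1 (P (ij.1, ij.2)) := by
    have : a ij.2 = ∑ i, KL.evL A S.τ1 (P (i, ij.2)) • g.β i := by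
      refine Finset.sum_congr rfl fun i _ => ?_
      rw [KL.evE_apply, Algebra.smul_def]
    rw [this, g.β.repr_sum_self]
  rw [hrep] at hG
  exact (KL.SmG_evL_iff A (transcendental_tauL S.H1 S.hr1) _).1 hG

theorem transcendental_τM : Transcendental Kb S.τM := transcendental_tauL S.HM S.hrM

theorem isGen_τM : KL.IsGen Kb S.τM := isGen_tauL S.HM S.hrM

instance : FiniteDimensional S.LM (FN (M1 * q)) := finiteDimensional_LT S.HM S.hrM

/-- `VV = V2` and the orthonormal basis -/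
theorem VV_eq_and_onb :
    KL.VV A S.τM (FN (M1 * q)) = V2 A S.hc ∧
      Nonempty (ONB A S.τM (FN (M1 * q)) (I1 M1 r × Fin (q + 1))) := by
  obtain ⟨g⟩ := exists_goodRed S.H1 S.hr1 A S.hq S.hA S.not_dvd
  obtain ⟨h1, o, -⟩ := exists_onb (transcendental_τM S) (isGen_τM S) (V2 A S.hc) (OG_le_V2 S)
    (V2_closed S) (r1 A S.hc) (r2 A S.hc) (V2_max S) (bas S g) (bas_mem S g) (card_eq S)
    (indep S g)
  exact ⟨h1, ⟨o⟩⟩

theorem VV_eq : KL.VV A S.τM (FN (M1 * q)) = V2 A S.hc := (VV_eq_and_onb S).1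

/-- an element with reduction `(1, 0)` : `e = y / (y + W y)`, `y = t - tQ ^ q` -/
theorem exists_e : ∃ e : V2 A S.hc, r1 A S.hc e = 1 ∧ r2 A S.hc e = 0 := by
  have : CharP (kA A) q := charP_kA S.hq S.hA
  set t : LaurentSeries (kA A) := tq (kA A) r with ht
  let a : V2 A S.hc := ⟨_, alpha_mem_V2 S (t1_mem_Vinf S)⟩
  let b : V2 A S.hc := ⟨_, beta_mem_V2 S (t1_mem_Vinf S)⟩
  have h1a : r1 A S.hc a = t := (r1_alpha S ⟨_, t1_mem_Vinf S⟩).trans (resInf_t1 S)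
  have h2b : r2 A S.hc b = t := (r2_beta S ⟨_, t1_mem_Vinf S⟩).trans (resInf_t1 S)
  have h1b : r1 A S.hc b = t ^ q := by
    rw [← qExpand_tq (r := r) (kA A) S.hq, ← resInf_t1 S]
    exact r1_beta S ⟨_, t1_mem_Vinf S⟩
  have h2a : r2 A S.hc a = t ^ q := by
    rw [← qExpand_tq (r := r) (kA A) S.hq, ← resInf_t1 S]
    exact r2_alpha S ⟨_, t1_mem_Vinf S⟩
  have hd : t - (t ^ q) ^ q ≠ 0 := by
    have h1 : t - (t ^ q) ^ q = evk (kA A) r (X - (X ^ q) ^ q) := by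
      rw [map_sub, map_pow, map_pow, evk, coe_eval₂RingHom, eval₂_X]
    rw [h1]
    refine (map_ne_zero_iff _ (evk_injective _ r)).2 fun h => ?_
    have h2 := congrArg (fun p => p.coeff 1) h
    have hq2 : q * q ≠ 1 := by
      have := S.hq.two_le
      nlinarith
    simp only [← pow_mul, Polynomial.coeff_sub, coeff_X_one, coeff_X_pow,
      Polynomial.coeff_zero] at h2
    rw [if_neg (Ne.symm hq2), sub_zero] at h2
    exact one_ne_zero h2
  set y : V2 A S.hc := a - b ^ q with hy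
  set y' : V2 A S.hc := b - a ^ q with hy'
  have r1y : r1 A S.hc y = t - (t ^ q) ^ q := by rw [hy, map_sub, map_pow, h1a, h1b]
  have r2y : r2 A S.hc y = 0 := by rw [hy, map_sub, map_pow, h2a, h2b, sub_self]
  have r1y' : r1 A S.hc y' = 0 := by rw [hy', map_sub, map_pow, h1a, h1b, sub_self]
  have r2y' : r2 A S.hc y' = t - (t ^ q) ^ q := by rw [hy', map_sub, map_pow, h2a, h2b]
  have r1s : r1 A S.hc (y + y') = t - (t ^ q) ^ q := by rw [map_add, r1y, r1y', add_zero]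
  have r2s : r2 A S.hc (y + y') = t - (t ^ q) ^ q := by rw [map_add, r2y, r2y', zero_add]
  have hinv := inv_mem_V2 (x := y + y') (by rw [r1s]; exact hd) (by rw [r2s]; exact hd)
  have hs0 : ((y + y' : V2 A S.hc) : FN (M1 * q)) ≠ 0 := by
    intro h
    have h2 : (y + y' : V2 A S.hc) = 0 := Subtype.ext h
    rw [h2, map_zero] at r1s
    exact hd r1s.symm
  have hmul : (y + y') * (⟨_, hinv⟩ : V2 A S.hc) = 1 := Subtype.ext (mul_inv_cancel₀ hs0)
  refine ⟨y * ⟨_, hinv⟩, ?_, by rw [map_mul, r2y, zero_mul]⟩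
  have h3 := congrArg (r1 A S.hc) hmul
  rw [map_mul, map_one, r1s] at h3
  rw [map_mul, r1y, h3]

theorem twoComp_ker (x : KL.VV A S.τM (FN (M1 * q))) :
    ((r1 A S.hc).comp (Subring.inclusion (VV_eq S).le) x = 0 ∧
      (r2 A S.hc).comp (Subring.inclusion (VV_eq S).le) x = 0) ↔
      KL.SmV A S.τM (FN (M1 * q)) (x : FN (M1 * q)) := by
  constructor
  · rintro ⟨h1, h2⟩
    obtain ⟨a, ha, y, hy, e⟩ := V2_ker S (Subring.inclusion (VV_eq S).le x) h1 h2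
    exact ⟨a, ha, y, (VV_eq S).ge hy, e⟩
  · rintro ⟨a, ha, y, hy, e⟩
    have hy' : y ∈ V2 A S.hc := (VV_eq S).le hy
    have ha' : KL.evE A S.τM (FN (M1 * q)) (C a) ∈ V2 A S.hc :=
      (VV_eq S).le (KL.C0_le_VV _ _ _ (KL.evE_mem_C0 _ _ _ _))
    have hx : Subring.inclusion (VV_eq S).le x = ⟨_, ha'⟩ * ⟨y, hy'⟩ := Subtype.ext e
    obtain ⟨m1, m2⟩ := V2_max S a ha ha'
    constructor
    · rw [RingHom.comp_apply, hx, map_mul, m1, zero_mul]
    · rw [RingHom.comp_apply, hx, map_mul, m2, zero_mul]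

/-- the two components of the special fibre of `X₀(M1 q)` -/
def twoComp : TwoComp A S.τM (FN (M1 * q)) (LaurentSeries (kA A)) (LaurentSeries (kA A)) where
  res₁ := (r1 A S.hc).comp (Subring.inclusion (VV_eq S).le)
  res₂ := (r2 A S.hc).comp (Subring.inclusion (VV_eq S).le)
  ker := twoComp_ker S
  e := Subring.inclusion (VV_eq S).ge (exists_e S).choose
  res₁_e := (exists_e S).choose_spec.1
  res₂_e := (exists_e S).choose_spec.2

end Fermat.Agent.S34.Mod
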