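import Fermat.Agent.S34.Mod.Wq

/-!
# S34 / MOD-V : the Gauss valuation ring at `∞` of `FN N` and its residue map  (helper4; keys `S34/MOD-V1`, `S34/MOD-V2`)

`A` any valuation subring of `Kb`, `N` ANY level (no coprimality).  `kA A` = residue field.

* `Vinf A N : Subring (FN N)` : `x` with `x * y2 = y1`, `y1 y2 ∈ A((q))`, `red y2 ≠ 0`;
* `resInf A N : Vinf A N →+* LaurentSeries (kA A)`, `x ↦ red y1 / red y2`.

## V1 (ring structure, ~350 lines)
Well defined: `x y2 = y1`, `x y2' = y1'` ⟹ `y1 y2' = y1' y2` in `A((q))` (`coeffMap_subtype_injective`), reduce.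
`mem_or_inv_mem`, `exists_smul_of_resInf_eq_zero`: from `ES.Alg.exists_scale` (`x z2 = c z1`, `red z1, red z2 ≠ 0`):
`c ∈ A` ⟹ `x ∈ Vinf`, `resInf x = c̄ z̄1 / z̄2`; `c ∉ A` ⟹ `c⁻¹ ∈ 𝔪`, `x⁻¹ ∈ Vinf`.  If `x ∈ Vinf` and `c ∉ A`: `z1 y2 = c⁻¹ y1 z2`, reduce: contradiction.
If `resInf x = 0` then `c ∈ 𝔪` and `x = c * (z1/z2)`.
## V2 (functoriality, ~300 lines)
Everything is a coefficientwise computation: `coe_heckeAlphaBar`, `coe_heckeBetaBar`, `coeffMap_qExpand`, `coe_arithmeticRingAut_apply`;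
see `ES/AlgES.lean` (`IntRed.conj`, `IntRed.frob`, `IntRed.inertia`) for the Galois part.
-/

set_option autoImplicit false

open HahnSeries ModularCurve AlgebraicCurve Fermat.Agent.S24 Fermat.Agent.S29 Fermat.Agent.S18
  Fermat.Agent.ES Fermat.Agent.ES.Alg

noncomputable section

namespace Fermat.Agent.S34.Mod

variable (A : ValuationSubring Kb) (N : ℕ) [NeZero N]

/-- `x = y1 / y2` with `A`-integral `y1, y2`, `y2 ≢ 0` -/
def IsQuo (x : FN N) (y1 y2 : LaurentSeries A) : Prop :=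
  (x : LaurentSeries Kb) * coeffMap A.subtype y2 = coeffMap A.subtype y1 ∧ red A y2 ≠ 0

/-! ### V1 -/

section IsQuoLemmas

variable {A N}

omit [NeZero N] in
theorem IsQuo.mul {x x' : FN N} {y1 y2 y1' y2' : LaurentSeries A} (h : IsQuo A N x y1 y2)
    (h' : IsQuo A N x' y1' y2') : IsQuo A N (x * x') (y1 * y1') (y2 * y2') := by
  refine ⟨?_, by rw [map_mul]; exact mul_ne_zero h.2 h'.2⟩
  rw [map_mul, map_mul, ← h.1, ← h'.1]
  push_cast
  ring

omit [NeZero N] in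
theorem IsQuo.add {x x' : FN N} {y1 y2 y1' y2' : LaurentSeries A} (h : IsQuo A N x y1 y2)
    (h' : IsQuo A N x' y1' y2') : IsQuo A N (x + x') (y1 * y2' + y1' * y2) (y2 * y2') := by
  refine ⟨?_, by rw [map_mul]; exact mul_ne_zero h.2 h'.2⟩
  rw [map_mul, map_add, map_mul, map_mul, ← h.1, ← h'.1]
  push_cast
  ring

omit [NeZero N] in
theorem IsQuo.neg {x : FN N} {y1 y2 : LaurentSeries A} (h : IsQuo A N x y1 y2) :
    IsQuo A N (-x) (-y1) y2 := by
  refine ⟨?_, h.2⟩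
  rw [map_neg, ← h.1]
  push_cast
  ring

omit [NeZero N] in
theorem IsQuo.one : IsQuo A N 1 1 1 :=
  ⟨by simp, by rw [map_one]; exact one_ne_zero⟩

omit [NeZero N] in
theorem IsQuo.zero : IsQuo A N 0 0 1 :=
  ⟨by simp, by rw [map_one]; exact one_ne_zero⟩

omit [NeZero N] in
theorem IsQuo.unique {x : FN N} {y1 y2 y1' y2' : LaurentSeries A} (h : IsQuo A N x y1 y2)
    (h' : IsQuo A N x y1' y2') : red A y1 / red A y2 = red A y1' / red A y2' := by
  rw [div_eq_div_iff h.2 h'.2, ← map_mul, ← map_mul]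
  congr 1
  apply Alg.coeffMap_subtype_injective
  rw [map_mul, map_mul, ← h.1, ← h'.1]
  ring

omit [NeZero N] in
theorem IsQuo.inv {x : FN N} {y1 y2 : LaurentSeries A} (h : IsQuo A N x y1 y2)
    (h1 : red A y1 ≠ 0) : IsQuo A N x⁻¹ y2 y1 := by
  refine ⟨?_, h1⟩
  have hx : (x : LaurentSeries Kb) ≠ 0 := by
    intro h0
    apply ne_zero_of_red_ne_zero h1
    rw [← h.1, h0, zero_mul]
  rw [← h.1]
  push_cast
  rw [← mul_assoc, inv_mul_cancel₀ hx, one_mul]

omit [NeZero N] in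
theorem IsQuo.const (a : A) : IsQuo A N (algebraMap Kb (FN N) a) (HahnSeries.single 0 a) 1 := by
  refine ⟨?_, by rw [map_one]; exact one_ne_zero⟩
  rw [map_one, mul_one, coeffMap_subtype_single]
  rfl

end IsQuoLemmas

/-- the Gauss valuation ring at `∞` -/
def Vinf : Subring (FN N) where
  carrier := {x | ∃ y1 y2 : LaurentSeries A, IsQuo A N x y1 y2}
  mul_mem' := by
    rintro x x' ⟨y1, y2, h⟩ ⟨y1', y2', h'⟩
    exact ⟨_, _, h.mul h'⟩
  one_mem' := ⟨_, _, IsQuo.one⟩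
  add_mem' := by
    rintro x x' ⟨y1, y2, h⟩ ⟨y1', y2', h'⟩
    exact ⟨_, _, h.add h'⟩
  zero_mem' := ⟨_, _, IsQuo.zero⟩
  neg_mem' := by
    rintro x ⟨y1, y2, h⟩
    exact ⟨_, _, h.neg⟩

omit [NeZero N] in
theorem mem_Vinf {x : FN N} : x ∈ Vinf A N ↔ ∃ y1 y2 : LaurentSeries A, IsQuo A N x y1 y2 := Iff.rfl

/-- the residue map (as a function) -/
def resFun (x : Vinf A N) : LaurentSeries (kA A) :=
  red A x.2.choose / red A x.2.choose_spec.choose

variable {A N}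

omit [NeZero N] in
theorem resFun_eq {x : Vinf A N} {y1 y2 : LaurentSeries A} (h : IsQuo A N x y1 y2) :
    resFun A N x = red A y1 / red A y2 :=
  IsQuo.unique x.2.choose_spec.choose_spec h

omit [NeZero N] in
theorem resFun_mul (x x' : Vinf A N) : resFun A N (x * x') = resFun A N x * resFun A N x' := by
  obtain ⟨y1, y2, h⟩ := x.2
  obtain ⟨y1', y2', h'⟩ := x'.2
  have hq : IsQuo A N ((x * x' : Vinf A N) : FN N) (y1 * y1') (y2 * y2') := by
    rw [Subring.coe_mul]; exact h.mul h'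
  rw [resFun_eq h, resFun_eq h', resFun_eq hq, map_mul, map_mul, mul_div_mul_comm]

omit [NeZero N] in
theorem resFun_add (x x' : Vinf A N) : resFun A N (x + x') = resFun A N x + resFun A N x' := by
  obtain ⟨y1, y2, h⟩ := x.2
  obtain ⟨y1', y2', h'⟩ := x'.2
  have hq : IsQuo A N ((x + x' : Vinf A N) : FN N) (y1 * y2' + y1' * y2) (y2 * y2') := by
    rw [Subring.coe_add]; exact h.add h'
  rw [resFun_eq h, resFun_eq h', resFun_eq hq, map_mul, map_add, map_mul, map_mul,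
    div_add_div _ _ h.2 h'.2]
  congr 1
  ring

omit [NeZero N] in
theorem resFun_one : resFun A N 1 = 1 := by
  have hq : IsQuo A N ((1 : Vinf A N) : FN N) 1 1 := by
    rw [Subring.coe_one]; exact IsQuo.one
  rw [resFun_eq hq, map_one, div_one]

omit [NeZero N] in
theorem resFun_zero : resFun A N 0 = 0 := by
  have hq : IsQuo A N ((0 : Vinf A N) : FN N) 0 1 := by
    rw [Subring.coe_zero]; exact IsQuo.zero
  rw [resFun_eq hq, map_zero, zero_div]

variable (A N)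

/-- the residue map of the Gauss valuation at `∞` -/
def resInf : Vinf A N →+* LaurentSeries (kA A) where
  toFun := resFun A N
  map_one' := resFun_one
  map_mul' := resFun_mul
  map_zero' := resFun_zero
  map_add' := resFun_add

variable {A N}

omit [NeZero N] in
theorem resInf_eq {x : Vinf A N} {y1 y2 : LaurentSeries A} (h : IsQuo A N x y1 y2) :
    resInf A N x = red A y1 / red A y2 := resFun_eq h

theorem isQuo_of_intRed {x : FN N} {r : LaurentSeries (kA A)} (h : IntRed A N x r) :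
    ∃ y, IsQuo A N x y 1 ∧ red A y = r := by
  obtain ⟨y, hy, hr⟩ := h
  exact ⟨y, ⟨by rw [map_one, mul_one, hy], by rw [map_one]; exact one_ne_zero⟩, hr⟩

theorem mem_Vinf_of_intRed {x : FN N} {r : LaurentSeries (kA A)} (h : IntRed A N x r) :
    x ∈ Vinf A N := by
  obtain ⟨y, hy, -⟩ := isQuo_of_intRed h
  exact ⟨_, _, hy⟩

theorem resInf_of_intRed {x : FN N} {r : LaurentSeries (kA A)} (h : IntRed A N x r) :
    resInf A N ⟨x, mem_Vinf_of_intRed h⟩ = r := by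
  obtain ⟨y, hy, hr⟩ := isQuo_of_intRed h
  rw [resInf_eq (x := ⟨x, mem_Vinf_of_intRed h⟩) hy, map_one, div_one, hr]

omit [NeZero N] in
theorem algebraMap_mem_Vinf (a : A) : algebraMap Kb (FN N) a ∈ Vinf A N :=
  ⟨_, _, IsQuo.const a⟩

omit [NeZero N] in
theorem resInf_algebraMap (a : A) :
    resInf A N ⟨algebraMap Kb (FN N) a, algebraMap_mem_Vinf a⟩ =
      HahnSeries.C (IsLocalRing.residue A a) := by
  rw [resInf_eq (x := ⟨algebraMap Kb (FN N) a, algebraMap_mem_Vinf a⟩) (IsQuo.const a), map_one,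
    div_one, coeffMap_single]
  rfl

/-- normal form of a nonzero function: `x = c * w`, `w` a unit of `Vinf` -/
theorem exists_unit_scale (x : FN N) (hx : x ≠ 0) :
    ∃ (c : Kb) (w : FN N) (z1 z2 : LaurentSeries A), c ≠ 0 ∧ x = algebraMap Kb (FN N) c * w ∧
      IsQuo A N w z1 z2 ∧ red A z1 ≠ 0 ∧ MemF A N z1 ∧ MemF A N z2 := by
  obtain ⟨c, z1, z2, hc, m1, m2, h1, h2, h⟩ := exists_scale A x hx
  have hc' : algebraMap Kb (FN N) c ≠ 0 := by simpa using hc
  refine ⟨c, (algebraMap Kb (FN N) c)⁻¹ * x, z1, z2, hc, ?_, ⟨?_, h2⟩, h1, m1, m2⟩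
  · rw [← mul_assoc, mul_inv_cancel₀ hc', one_mul]
  · have hc'' : algebraMap Kb (LaurentSeries Kb) c ≠ 0 := by simpa using hc
    have e : (((algebraMap Kb (FN N) c)⁻¹ * x : FN N) : LaurentSeries Kb) =
        (algebraMap Kb (LaurentSeries Kb) c)⁻¹ * (x : LaurentSeries Kb) := rfl
    rw [e, mul_assoc, h, ← mul_assoc, inv_mul_cancel₀ hc'', one_mul]

/-- `Vinf` is a valuation ring -/
theorem mem_or_inv_mem (x : FN N) : x ∈ Vinf A N ∨ x⁻¹ ∈ Vinf A N := by
  by_cases hx : x = 0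
  · left; rw [hx]; exact zero_mem _
  obtain ⟨c, w, z1, z2, hc, rfl, hw, h1, -, -⟩ := exists_unit_scale (A := A) x hx
  rcases A.mem_or_inv_mem c with h | h
  · left
    exact mul_mem (algebraMap_mem_Vinf ⟨c, h⟩) ⟨_, _, hw⟩
  · right
    rw [mul_inv, ← map_inv₀]
    exact mul_mem (algebraMap_mem_Vinf ⟨c⁻¹, h⟩) ⟨_, _, hw.inv h1⟩

omit [NeZero N] in
theorem inv_mem_Vinf {x : Vinf A N} (h : resInf A N x ≠ 0) : (x : FN N)⁻¹ ∈ Vinf A N := by
  obtain ⟨y1, y2, hq⟩ := x.2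
  rw [resInf_eq hq] at h
  exact ⟨_, _, hq.inv (fun h0 => h (by rw [h0, zero_div]))⟩

omit [NeZero N] in
/-- constants of `Vinf` lie in `A` -/
theorem mem_of_algebraMap_mem_Vinf {c : Kb} (h : algebraMap Kb (FN N) c ∈ Vinf A N) : c ∈ A := by
  rcases A.mem_or_inv_mem c with h' | h'
  · exact h'
  by_cases hc : c = 0
  · rw [hc]; exact zero_mem _
  by_contra hcA
  have hm : (⟨c⁻¹, h'⟩ : A) ∈ IsLocalRing.maximalIdeal A := by
    rw [IsLocalRing.mem_maximalIdeal, mem_nonunits_iff]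
    intro hu
    obtain ⟨d, hd⟩ := hu.exists_right_inv
    have h4 : c⁻¹ * (d : Kb) = 1 := congrArg Subtype.val hd
    have h5 : (d : Kb) = c := by
      field_simp at h4
      exact h4
    exact hcA (h5 ▸ d.2)
  have h1 : (⟨algebraMap Kb (FN N) c, h⟩ : Vinf A N) *
      ⟨algebraMap Kb (FN N) ((⟨c⁻¹, h'⟩ : A) : Kb), algebraMap_mem_Vinf _⟩ = 1 := by
    apply Subtype.ext
    show algebraMap Kb (FN N) c * algebraMap Kb (FN N) c⁻¹ = 1
    rw [← map_mul, mul_inv_cancel₀ hc, map_one]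
  have h2 := congrArg (resInf A N) h1
  rw [map_mul, resInf_algebraMap, (IsLocalRing.residue_eq_zero_iff _).mpr hm, map_zero, mul_zero,
    map_one] at h2
  exact zero_ne_one h2

/-- the kernel of the residue map is `𝔪 Vinf` (the Gauss norm is attained) -/
theorem exists_smul_of_resInf_eq_zero {x : Vinf A N} (h : resInf A N x = 0) :
    ∃ a ∈ IsLocalRing.maximalIdeal A, ∃ y ∈ Vinf A N, (x : FN N) = algebraMap Kb (FN N) (a : Kb) * y := by
  by_cases hx : (x : FN N) = 0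
  · exact ⟨0, zero_mem _, 0, zero_mem _, by rw [hx, mul_zero]⟩
  obtain ⟨c, w, z1, z2, hc, hxw, hw, h1, -, -⟩ := exists_unit_scale (A := A) (x : FN N) hx
  have hwV : w ∈ Vinf A N := ⟨_, _, hw⟩
  have hwi : w⁻¹ ∈ Vinf A N := ⟨_, _, hw.inv h1⟩
  have hw0 : w ≠ 0 := by
    rintro rfl
    exact hx (by rw [hxw, mul_zero])
  have hcV : algebraMap Kb (FN N) c ∈ Vinf A N := by
    have : algebraMap Kb (FN N) c = x * w⁻¹ := by
      rw [hxw, mul_assoc, mul_inv_cancel₀ hw0, mul_one]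
    rw [this]
    exact mul_mem x.2 hwi
  have hcA : c ∈ A := mem_of_algebraMap_mem_Vinf hcV
  refine ⟨⟨c, hcA⟩, ?_, w, hwV, hxw⟩
  have h2 : x = ⟨algebraMap Kb (FN N) ((⟨c, hcA⟩ : A) : Kb), algebraMap_mem_Vinf _⟩ * ⟨w, hwV⟩ :=
    Subtype.ext hxw
  rw [h2, map_mul, resInf_algebraMap, resInf_eq (x := ⟨w, hwV⟩) hw] at h
  rcases mul_eq_zero.mp h with h3 | h3
  · rw [← IsLocalRing.residue_eq_zero_iff]
    exact (map_eq_zero_iff _ HahnSeries.C_injective).mp h3
  · exact absurd h3 (div_ne_zero h1 hw.2)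

omit [NeZero N] in
theorem resInf_smul_eq_zero {a : A} (ha : a ∈ IsLocalRing.maximalIdeal A) {y x : Vinf A N}
    (h : (x : FN N) = algebraMap Kb (FN N) (a : Kb) * y) : resInf A N x = 0 := by
  have h2 : x = ⟨algebraMap Kb (FN N) (a : Kb), algebraMap_mem_Vinf _⟩ * y := Subtype.ext h
  rw [h2, map_mul, resInf_algebraMap, (IsLocalRing.residue_eq_zero_iff _).mpr ha, map_zero,
    zero_mul]

/-- `Vinf` is integrally closed in `FN N` -/
theorem mem_Vinf_of_isIntegral {x : FN N} (h : (Vinf A N).subtype.IsIntegralElem x) :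
    x ∈ Vinf A N := by
  let W : ValuationSubring (FN N) := { Vinf A N with mem_or_inv_mem' := mem_or_inv_mem }
  let φ : Vinf A N →+* W := (Vinf A N).subtype.codRestrict W.toSubring (fun a => a.2)
  obtain ⟨p, hp, hpx⟩ := h
  have h1 : IsIntegral W x := ⟨p.map φ, hp.map φ, by rw [Polynomial.eval₂_map]; exact hpx⟩
  obtain ⟨z, hz⟩ := IsIntegrallyClosed.isIntegral_iff.mp h1
  rw [← hz]; exact z.2

/-- bridge to helper17's `Cong` -/
theorem cong_iff {f : FN N} : Cong A N f ↔ ∃ h : f ∈ Vinf A N, resInf A N ⟨f, h⟩ = 1 := by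
  constructor
  · rintro ⟨y1, y2, -, -, h, h12, h2⟩
    have hq : IsQuo A N f y1 y2 := ⟨h, h2⟩
    refine ⟨⟨_, _, hq⟩, ?_⟩
    rw [resInf_eq (x := ⟨f, _, _, hq⟩) hq, h12, div_self h2]
  · rintro ⟨hf, h1⟩
    have hf0 : f ≠ 0 := by
      rintro rfl
      have : (⟨0, hf⟩ : Vinf A N) = 0 := rfl
      rw [this, map_zero] at h1
      exact zero_ne_one h1
    obtain ⟨c, w, z1, z2, hc, hxw, hw, hz1, m1, m2⟩ := exists_unit_scale (A := A) f hf0
    have hwV : w ∈ Vinf A N := ⟨_, _, hw⟩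
    have hwi : w⁻¹ ∈ Vinf A N := ⟨_, _, hw.inv hz1⟩
    have hw0 : w ≠ 0 := by
      rintro rfl
      exact hf0 (by rw [hxw, mul_zero])
    have hcV : algebraMap Kb (FN N) c ∈ Vinf A N := by
      have : algebraMap Kb (FN N) c = f * w⁻¹ := by
        rw [hxw, mul_assoc, mul_inv_cancel₀ hw0, mul_one]
      rw [this]
      exact mul_mem hf hwi
    have hcA : c ∈ A := mem_of_algebraMap_mem_Vinf hcV
    have hq : IsQuo A N f (HahnSeries.single 0 (⟨c, hcA⟩ : A) * z1) (1 * z2) := by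
      rw [hxw]
      exact (IsQuo.const (⟨c, hcA⟩ : A)).mul hw
    rw [one_mul] at hq
    rw [resInf_eq (x := ⟨f, hf⟩) hq, div_eq_one_iff_eq hq.2] at h1
    refine ⟨_, _, ?_, m2, hq.1, h1, hq.2⟩
    show coeffMap A.subtype (HahnSeries.single 0 (⟨c, hcA⟩ : A) * z1) ∈ _
    rw [map_mul, coeffMap_subtype_single]
    exact mul_mem (IntermediateField.algebraMap_mem _ _) m1

/-! ### V2 -/

section Level

variable {M1 q : ℕ} [NeZero M1] [NeZero q]

theorem IsQuo.alpha {x : FN M1} {y1 y2 : LaurentSeries A} (h : IsQuo A M1 x y1 y2) :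
    IsQuo A (M1 * q) (heckeAlphaBar Kb M1 q x) y1 y2 := by
  refine ⟨?_, h.2⟩
  rw [coe_heckeAlphaBar]
  exact h.1

theorem red_qExpand (y : LaurentSeries A) : red A (qExpand A q y) = qExpand (kA A) q (red A y) :=
  coeffMap_qExpand _ q y

theorem qExpand_ne_zero {R : Type*} [CommRing R] {y : LaurentSeries R} (hy : y ≠ 0) :
    qExpand R q y ≠ 0 := by
  intro h
  apply hy
  ext n
  have := congrArg (fun s => s.coeff ((q : ℤ) * n)) h
  simpa only [qExpand_coeff_mul, HahnSeries.coeff_zero] using this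

theorem IsQuo.beta {x : FN M1} {y1 y2 : LaurentSeries A} (h : IsQuo A M1 x y1 y2) :
    IsQuo A (M1 * q) (heckeBetaBar Kb M1 q x) (qExpand A q y1) (qExpand A q y2) := by
  refine ⟨?_, ?_⟩
  · rw [coe_heckeBetaBar, coeffMap_qExpand, coeffMap_qExpand, ← map_mul, h.1]
  · rw [red_qExpand]
    exact qExpand_ne_zero h.2

theorem alpha_mem_Vinf {x : FN M1} (hx : x ∈ Vinf A M1) :
    heckeAlphaBar Kb M1 q x ∈ Vinf A (M1 * q) := by
  obtain ⟨y1, y2, h⟩ := hx
  exact ⟨y1, y2, h.alpha⟩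

theorem resInf_alpha (x : Vinf A M1) :
    resInf A (M1 * q) ⟨heckeAlphaBar Kb M1 q x, alpha_mem_Vinf x.2⟩ = resInf A M1 x := by
  obtain ⟨y1, y2, h⟩ := x.2
  rw [resInf_eq h, resInf_eq (x := ⟨heckeAlphaBar Kb M1 q x, alpha_mem_Vinf x.2⟩) h.alpha]

theorem beta_mem_Vinf {x : FN M1} (hx : x ∈ Vinf A M1) :
    heckeBetaBar Kb M1 q x ∈ Vinf A (M1 * q) := by
  obtain ⟨y1, y2, h⟩ := hx
  exact ⟨_, _, h.beta⟩

theorem resInf_beta (x : Vinf A M1) :
    resInf A (M1 * q) ⟨heckeBetaBar Kb M1 q x, beta_mem_Vinf x.2⟩ =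
      qExpand (kA A) q (resInf A M1 x) := by
  obtain ⟨y1, y2, h⟩ := x.2
  rw [resInf_eq h, resInf_eq (x := ⟨heckeBetaBar Kb M1 q x, beta_mem_Vinf x.2⟩) h.beta,
    red_qExpand, red_qExpand, map_div₀]

end Level

/-- conjugate of an `A`-integral series by an element of the decomposition group -/
theorem exists_conj {σ : GQ} (hσ : σ ∈ A.decompositionSubgroup ℚ) (y : LaurentSeries A) :
    ∃ y' : LaurentSeries A, coeffMap A.subtype y' =
        coeffMap (σ : Kb →+* Kb) (coeffMap A.subtype y) ∧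
      ∀ (φ : kA A →+* kA A), (∀ a : A, IsLocalRing.residue A ⟨σ a, map_mem_of_decomp hσ a.2⟩ =
        φ (IsLocalRing.residue A a)) → red A y' = coeffMap φ (red A y) := by
  obtain ⟨y', hy'⟩ := exists_lift (A := A) (coeffMap (σ : Kb →+* Kb) (coeffMap A.subtype y))
    (fun n => by
      rw [coeffMap_coeff, coeffMap_coeff]
      exact map_mem_of_decomp hσ (y.coeff n).2)
  refine ⟨y', hy', fun φ hφ => ?_⟩
  ext n
  rw [coeffMap_coeff, coeffMap_coeff, coeffMap_coeff, ← hφ]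
  congr 1
  apply Subtype.ext
  have := congrArg (fun s => s.coeff n) hy'
  simp only [coeffMap_coeff] at this
  exact this

/-- the residue field automorphism induced by an element of the decomposition group -/
theorem exists_residueMap {σ : GQ} (hσ : σ ∈ A.decompositionSubgroup ℚ) :
    ∃ φ : kA A →+* kA A, ∀ a : A, IsLocalRing.residue A ⟨σ a, map_mem_of_decomp hσ a.2⟩ =
      φ (IsLocalRing.residue A a) := by
  let f : A →+* A :=
    { toFun := fun a => ⟨σ a, map_mem_of_decomp hσ a.2⟩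
      map_one' := Subtype.ext (map_one σ)
      map_mul' := fun a b => Subtype.ext (map_mul σ _ _)
      map_zero' := Subtype.ext (map_zero σ)
      map_add' := fun a b => Subtype.ext (map_add σ _ _) }
  have hinv : σ⁻¹ ∈ A.decompositionSubgroup ℚ := inv_mem hσ
  have hloc : IsLocalHom f := by
    refine ⟨fun a ha => ?_⟩
    obtain ⟨b, hb⟩ := ha.exists_right_inv
    refine IsUnit.of_mul_eq_one ⟨(σ⁻¹ : GQ) b, map_mem_of_decomp hinv b.2⟩ ?_
    apply Subtype.ext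
    have h1 : σ (a : Kb) * (b : Kb) = 1 := congrArg Subtype.val hb
    show (a : Kb) * (σ⁻¹ : GQ) (b : Kb) = 1
    have h2 := congrArg (σ⁻¹ : GQ) h1
    rw [map_mul, map_one] at h2
    rw [← h2]
    congr 1
    exact (AlgEquiv.symm_apply_apply σ _).symm
  exact ⟨IsLocalRing.ResidueField.map f, fun a => (IsLocalRing.ResidueField.map_residue f a).symm⟩

theorem IsQuo.gal {σ : GQ} (hσ : σ ∈ A.decompositionSubgroup ℚ) {x : FN N}
    {y1 y2 y1' y2' : LaurentSeries A} (h : IsQuo A N x y1 y2)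
    (h1 : coeffMap A.subtype y1' = coeffMap (σ : Kb →+* Kb) (coeffMap A.subtype y1))
    (h2 : coeffMap A.subtype y2' = coeffMap (σ : Kb →+* Kb) (coeffMap A.subtype y2))
    (φ : kA A →+* kA A) (h3 : red A y2' = coeffMap φ (red A y2)) :
    IsQuo A N (gal N σ x) y1' y2' := by
  refine ⟨?_, ?_⟩
  · rw [h1, h2, ← h.1, map_mul]
    rfl
  · rw [h3]
    exact coeffMap_ne_zero φ φ.injective h.2

theorem gal_mem_Vinf {σ : GQ} (hσ : σ ∈ A.decompositionSubgroup ℚ) {x : FN N} (hx : x ∈ Vinf A N) :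
    gal N σ x ∈ Vinf A N := by
  obtain ⟨y1, y2, h⟩ := hx
  obtain ⟨y1', h1, -⟩ := exists_conj hσ y1
  obtain ⟨y2', h2, h3⟩ := exists_conj hσ y2
  obtain ⟨φ, hφ⟩ := exists_residueMap hσ
  exact ⟨y1', y2', h.gal hσ h1 h2 φ (h3 φ hφ)⟩

/-- `σ` in the decomposition group inducing `φ` on the residue field -/
theorem resInf_gal {σ : GQ} (hσ : σ ∈ A.decompositionSubgroup ℚ) (φ : kA A →+* kA A)
    (hφ : ∀ a : A, IsLocalRing.residue A ⟨σ a, map_mem_of_decomp hσ a.2⟩ = φ (IsLocalRing.residue A a))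
    (x : Vinf A N) :
    resInf A N ⟨gal N σ x, gal_mem_Vinf hσ x.2⟩ = coeffMap φ (resInf A N x) := by
  obtain ⟨y1, y2, h⟩ := x.2
  obtain ⟨y1', h1, h1'⟩ := exists_conj hσ y1
  obtain ⟨y2', h2, h3⟩ := exists_conj hσ y2
  rw [resInf_eq h, resInf_eq (x := ⟨gal N σ x, gal_mem_Vinf hσ x.2⟩) (h.gal hσ h1 h2 φ (h3 φ hφ)),
    h1' φ hφ, h3 φ hφ, map_div₀]

theorem mem_decomp_of_mem_inertia {σ : GQ} (hσ : σ ∈ A.inertiaSubgroupIn ℚ) :
    σ ∈ A.decompositionSubgroup ℚ := by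
  obtain ⟨τ, -, rfl⟩ := Subgroup.mem_map.mp hσ
  exact τ.2

theorem resInf_gal_inertia {σ : GQ} (hσ : σ ∈ A.inertiaSubgroupIn ℚ) (x : Vinf A N) :
    resInf A N ⟨gal N σ x, gal_mem_Vinf (mem_decomp_of_mem_inertia hσ) x.2⟩ = resInf A N x := by
  rw [resInf_gal (mem_decomp_of_mem_inertia hσ) (RingHom.id _) (fun a => by
    rw [RingHom.id_apply]
    exact residue_eq_of_sub_mem (AbstractAux.inertia_sub_mem A hσ a.2)) x, coeffMap_id]

end Fermat.Agent.S34.Mod
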