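import Fermat.Agent.S34.Mod.Core
import Fermat.Agent.S35.TorDesc
import Fermat.Agent.S35.Unit
import Fermat.Agent.S29.ESRel

/-!
# S34 / MOD-MAIN-I : `(s - 1)(s' - 1) = 0` on Kummer classes for `s, s'` in the inertia group at `q ‖ N`  (helper4)

`inertia_haupt` : level `M1 q`, `r ∣ M1` : `tor_core` with `Q = 1` applied to `v = s' u / u`.
`inertia_pow` : arbitrary `M1`, exponent `p ^ k` : descent from `lcm(M1, r) q`.
-/

set_option autoImplicit false
set_option synthInstance.maxHeartbeats 400000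
set_option linter.unusedSectionVars false

open HahnSeries ModularCurve AlgebraicCurve Polynomial Fermat.Agent.S24 Fermat.Agent.S29
  Fermat.Agent.S18 Fermat.Agent.ES Fermat.Agent.ES.Alg Fermat.Agent.S34.T

noncomputable section

namespace Fermat.Agent.S34.Mod

/-- `σ u / u` is congruent to a unit constant for `σ` in the inertia group -/
theorem unit_cong_inertia {N : ℕ} [NeZero N] {A : ValuationSubring Kb} {σ : GQ}
    (hσ : σ ∈ A.inertiaSubgroupIn ℚ) (u : FN N) (hu : u ≠ 0) :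
    ∃ a : Aˣ, Cong A N (algebraMap Kb (FN N) ((a : A) : Kb) * (gal N σ u * u⁻¹)) := by
  obtain ⟨c, hc, hcong⟩ := cong_inertia hσ u hu
  have h1 : S35.Rp A ((gal N σ u * u⁻¹ : FN N) : LaurentSeries Kb) 1 :=
    (S35.rp_one_iff _).2 ⟨c, hc, hcong⟩
  obtain ⟨a, ha⟩ := S35.exists_rp A u hu
  have h2 := S35.rn_conj_div (mem_decomp_of_mem_inertia hσ) ha
  refine S35.exists_unit_cong h1 ?_
  have e : ((gal N σ u * u⁻¹ : FN N) : LaurentSeries Kb) =
      coeffMap (σ : Kb →+* Kb) (u : LaurentSeries Kb) * (u : LaurentSeries Kb)⁻¹ := by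
    push_cast
    rw [coe_arithmeticRingAut_apply]
  rw [e]
  exact h2

variable {M1 q r : ℕ} [NeZero M1] [NeZero q] [NeZero r] {A : ValuationSubring Kb}

/-- the level `M1 q` with `r ∣ M1` -/
theorem inertia_haupt (S : Setup M1 q r A) {n : ℕ} (hn : 0 < n) (hqn : ¬ q ∣ n) {s s' : GQ}
    (hs : s ∈ A.inertiaSubgroupIn ℚ) (hs' : s' ∈ A.inertiaSubgroupIn ℚ) (u : FN (M1 * q))
    (hu : PDiv Kb (FN (M1 * q)) n u) :
    ∃ h : FN (M1 * q), gal (M1 * q) s (gal (M1 * q) s' u) * u =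
      gal (M1 * q) s u * gal (M1 * q) s' u * h ^ n := by
  have hu0 := hu.1
  have hW0 : Wq S.hc u ≠ 0 := (map_ne_zero_iff _ (Wq S.hc).injective).mpr hu0
  have hv : PDiv Kb (FN (M1 * q)) n (gal (M1 * q) s' u * u⁻¹) := (PDiv.gal hu s').mul hu.inv
  have h2 : ∃ a : Aˣ, Cong A (M1 * q) (algebraMap Kb (FN (M1 * q)) ((a : A) : Kb) *
      Wq S.hc (gal (M1 * q) s' u * u⁻¹)) := by
    obtain ⟨a, ha⟩ := unit_cong_inertia hs' (Wq S.hc u) hW0
    refine ⟨a, ?_⟩
    rwa [map_mul, map_inv₀, ← gal_Wq S.hq S.hc]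
  obtain ⟨g, hg⟩ := tor_core S hn hqn (mem_decomp_of_mem_inertia hs) one_pos
    (actsLike_inertia S hs) _ hv (unit_cong_inertia hs' u hu0) h2
  refine ⟨g, ?_⟩
  have hsu : gal (M1 * q) s u ≠ 0 := (map_ne_zero_iff _ (gal (M1 * q) s).injective).mpr hu0
  rw [map_mul, map_inv₀, pow_one] at hg
  have h3 : gal (M1 * q) s (gal (M1 * q) s' u) =
      gal (M1 * q) s' u * u⁻¹ * g ^ n * gal (M1 * q) s u := by
    rw [← hg, inv_mul_cancel_right₀ hsu]
  rw [h3]
  field_simp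

/-- arbitrary level `M1 q`, exponent `p ^ k` -/
theorem inertia_pow (hq : q.Prime) (h : Nat.Coprime q M1) {p : ℕ} (hp : p.Prime) (hpq : p ≠ q)
    (k : ℕ) (hA : A.LiesOverPrime q) {s s' : GQ}
    (hs : s ∈ A.inertiaSubgroupIn ℚ) (hs' : s' ∈ A.inertiaSubgroupIn ℚ) (u : FN (M1 * q))
    (hu : PDiv Kb (FN (M1 * q)) (p ^ k) u) :
    ∃ h : FN (M1 * q), gal (M1 * q) s (gal (M1 * q) s' u) * u =
      gal (M1 * q) s u * gal (M1 * q) s' u * h ^ (p ^ k) := by
  obtain ⟨r, hr, hrq, hpr⟩ := KLAllAux.exists_aux hpq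
  have hrp : r.Prime := by rcases hr with rfl | rfl <;> norm_num
  have : NeZero r := ⟨hrp.ne_zero⟩
  have : NeZero (Nat.lcm M1 r) := ⟨Nat.lcm_ne_zero (NeZero.ne M1) hrp.ne_zero⟩
  have h' : Nat.Coprime q (Nat.lcm M1 r) := by
    rw [Nat.Prime.coprime_iff_not_dvd hq]
    intro hd
    rcases (hq.dvd_mul).mp (hd.trans (Nat.lcm_dvd_mul M1 r)) with h1 | h1
    · exact (Nat.Prime.coprime_iff_not_dvd hq).mp h h1
    · exact hrq ((Nat.prime_dvd_prime_iff_eq hq hrp).mp h1).symm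
  have hqm : ¬ q ∣ p ^ k := fun hd =>
    hpq ((Nat.prime_dvd_prime_iff_eq hq hp).mp (hq.dvd_of_dvd_pow hd)).symm
  have hle : modularFunctionFieldBar (M1 * q) ≤ modularFunctionFieldBar (Nat.lcm M1 r * q) :=
    Descent.bar_le (Nat.mul_dvd_mul_right (Nat.dvd_lcm_left M1 r) q)
  have S : Setup (Nat.lcm M1 r) q r A := ⟨hr, Nat.dvd_lcm_right M1 r, hq, h', hA⟩
  obtain ⟨g, hg⟩ := inertia_haupt S (pow_pos hp.pos k) hqm hs hs' (S35.incl hle u)
    (S35.PDiv.incl hle hu)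
  have hu0 : (u : LaurentSeries Kb) ≠ 0 := fun h0 => hu.1 (Subtype.ext h0)
  have hsu : gal (M1 * q) s u ≠ 0 := (map_ne_zero_iff _ (gal (M1 * q) s).injective).mpr hu.1
  have hsu' : gal (M1 * q) s' u ≠ 0 := (map_ne_zero_iff _ (gal (M1 * q) s').injective).mpr hu.1
  have hsu0 : ((gal (M1 * q) s u : FN (M1 * q)) : LaurentSeries Kb) ≠ 0 :=
    fun h0 => hsu (Subtype.ext h0)
  have hsu0' : ((gal (M1 * q) s' u : FN (M1 * q)) : LaurentSeries Kb) ≠ 0 :=
    fun h0 => hsu' (Subtype.ext h0)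
  have hg' : (g : LaurentSeries Kb) ^ (p ^ k) =
      ((gal (M1 * q) s (gal (M1 * q) s' u) * u * (gal (M1 * q) s u * gal (M1 * q) s' u)⁻¹ :
        FN (M1 * q)) : LaurentSeries Kb) := by
    have h1 := congrArg (fun x : FN (Nat.lcm M1 r * q) => (x : LaurentSeries Kb)) hg
    simp only [S35.incl_gal] at h1
    push_cast at h1
    rw [S35.coe_incl, S35.coe_incl, S35.coe_incl, S35.coe_incl] at h1
    push_cast
    rw [h1]
    field_simp
  have hgm : (g : LaurentSeries Kb) ∈ modularFunctionFieldBar (M1 * q) := by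
    have key : ∀ x : LaurentSeries Kb, x ∈ modularFunctionFieldBar (Nat.lcm M1 r * q) →
        x ^ (p ^ k) ∈ modularFunctionFieldBar (M1 * q) → x ∈ modularFunctionFieldBar (M1 * q) := by
      intro x hx hxm
      rw [← S35.lcm_mul_of_ne hq hrp hrq] at hx
      exact S35.mem_of_pow_pow_mem_lcm hrp hp (hpr hp) k x hx hxm
    exact key _ g.2 (by rw [hg']; exact Subtype.property _)
  refine ⟨⟨g, hgm⟩, Subtype.ext ?_⟩
  push_cast
  rw [hg']
  push_cast
  field_simp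

end Fermat.Agent.S34.Mod
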