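import Fermat.Agent.S34.Mod.Good
import Fermat.Agent.Lib.Frobenius

/-!
# S34 / MOD-CH2, MOD-CH3 : the residue fields of both components are the residue field of level `M1`
(helper26; used by `S34/Mod/Chart.lean`)

* `ch2_decomp` : `x ∈ VV` is `∑_j al (a_j) tQ ^ j` with `a_j ∈ Vinf A M1`;
* `ch2_V` : `V (resInf x) = resInf ((gal φ⁻¹ x) ^ q)`;
* `ch2_res_mem₁`, `ch2_res_mem₂`;
* `ch3_level₁`, `ch3_level₂` : `res_i (C0 (θM b)) ⊆ resInf (C0 (θ1 b))` (from `normal1`).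
-/

set_option autoImplicit false
set_option synthInstance.maxHeartbeats 400000
set_option linter.unusedSectionVars false

open HahnSeries ModularCurve AlgebraicCurve Polynomial Fermat.Agent.S24 Fermat.Agent.S29
  Fermat.Agent.S18 Fermat.Agent.ES Fermat.Agent.ES.Alg Fermat.Agent.S34.T

noncomputable section

namespace Fermat.Agent.S34.Mod

variable {M1 q r : ℕ} [NeZero M1] [NeZero q] [NeZero r] {A : ValuationSubring Kb}
variable (S : Setup M1 q r A)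

/-! ### CH2 -/

include S in
/-- `V (resInf x)` is again a reduction -/
theorem ch2_V (x : Vinf A M1) :
    ∃ x' : Vinf A M1, resInf A M1 x' = qExpand (kA A) q (resInf A M1 x) := by
  have : Fact q.Prime := ⟨S.hq⟩
  have : CharP (kA A) q := charP_kA S.hq S.hA
  obtain ⟨φ, hφ⟩ := Fermat.Agent.Frob.exists_isFrobeniusAt A S.hq S.hA
  have hd : φ ∈ A.decompositionSubgroup ℚ := hφ.mem_decompositionSubgroup
  have hd' : φ⁻¹ ∈ A.decompositionSubgroup ℚ := inv_mem hd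
  let z : Vinf A M1 := ⟨gal M1 φ⁻¹ x, gal_mem_Vinf hd' x.2⟩
  have h1 := resInf_gal hd (frobenius (kA A) q) (fun a => by
    rw [frobenius_def, ← map_pow]
    exact residue_eq_of_sub_mem (AbstractAux.frob_sub_mem A hφ a.2)) z
  have h2 : (⟨gal M1 φ z, gal_mem_Vinf hd z.2⟩ : Vinf A M1) = x := by
    apply Subtype.ext
    apply Subtype.ext
    show coeffMap (φ : Kb →+* Kb) (coeffMap ((φ⁻¹ : GQ) : Kb →+* Kb)
      ((x : FN M1) : LaurentSeries Kb)) = _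
    rw [coeffMap_coeffMap]
    ext n
    rw [coeffMap_coeff]
    exact AlgEquiv.apply_symm_apply φ _
  rw [h2] at h1
  exact ⟨z ^ q, by rw [map_pow, pow_char_eq_qExpand, ← h1]⟩

/-- elements of the Gauss ring come from level `M1` -/
theorem ch2_OG (c : S.LM) (hc : c ∈ KL.OG A S.τM) :
    ∃ c' : Vinf A M1, algebraMap S.LM (FN (M1 * q)) c = heckeAlphaBar Kb M1 q c' := by
  obtain ⟨P, Q, hQ, h⟩ := hc
  have h0 := evE_ne_zero_of_red S hQ
  have h1 : algebraMap S.LM (FN (M1 * q)) c =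
      KL.evE A S.τM (FN (M1 * q)) P * (KL.evE A S.τM (FN (M1 * q)) Q)⁻¹ := by
    rw [eq_mul_inv_iff_mul_eq₀ h0, KL.evE_apply, KL.evE_apply, ← h, map_mul]
    exact mul_comm _ _
  have hr0 : resInf A M1 ⟨_, evE1_mem_Vinf S Q⟩ ≠ 0 := by
    rw [resInf_evE1]; exact evk_ne_zero hQ
  have hi : (KL.evE A S.τ1 (FN M1) Q)⁻¹ ∈ Vinf A M1 :=
    inv_mem_Vinf (x := ⟨_, evE1_mem_Vinf S Q⟩) hr0
  refine ⟨⟨_, mul_mem (evE1_mem_Vinf S P) hi⟩, ?_⟩
  rw [h1, map_mul, map_inv₀, alpha_evE, alpha_evE]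

theorem ch2_decomp (x : FN (M1 * q)) (hx : x ∈ KL.VV A S.τM (FN (M1 * q))) :
    ∃ a : Fin (q + 1) → Vinf A M1,
      x = ∑ j, heckeAlphaBar Kb M1 q (a j) * S.tQ ^ (j : ℕ) := by
  classical
  obtain ⟨g⟩ := exists_goodRed S.H1 S.hr1 A S.hq S.hA S.not_dvd
  obtain ⟨-, o, ho⟩ := exists_onb (transcendental_τM S) (isGen_τM S) (V2 A S.hc) (OG_le_V2 S)
    (V2_closed S) (r1 A S.hc) (r2 A S.hc) (V2_max S) (bas S g) (bas_mem S g) (card_eq S)
    (indep S g)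
  choose c' hc' using fun ij => ch2_OG S (o.β.repr x ij) (o.repr_mem x hx ij)
  refine ⟨fun j => ∑ i, c' (i, j) * ⟨g.β i, VV1_le_Vinf S (g.mem i)⟩, ?_⟩
  conv_lhs => rw [← o.β.sum_repr x]
  rw [Fintype.sum_prod_type_right]
  refine Finset.sum_congr rfl fun j _ => ?_
  rw [AddSubmonoidClass.coe_finsetSum, map_sum, Finset.sum_mul]
  refine Finset.sum_congr rfl fun i _ => ?_
  rw [Algebra.smul_def, hc', ho, bas]
  show _ = heckeAlphaBar Kb M1 q ((c' (i, j) : FN M1) * g.β i) * _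
  rw [map_mul, mul_assoc]

theorem ch2_res_mem₁ (x : KL.VV A S.τM (FN (M1 * q))) :
    ∃ x' : Vinf A M1, resInf A M1 x' = (twoComp S).res₁ x := by
  have : CharP (kA A) q := charP_kA S.hq S.hA
  obtain ⟨a, ha⟩ := ch2_decomp S x x.2
  refine ⟨∑ j, a j * ((⟨S.t1, t1_mem_Vinf S⟩ : Vinf A M1) ^ q) ^ (j : ℕ), ?_⟩
  have e : (⟨x, ((VV_eq S).le x.2).1⟩ : Vinf A (M1 * q)) =
      ∑ j, (⟨heckeAlphaBar Kb M1 q (a j), alpha_mem_Vinf (a j).2⟩ : Vinf A (M1 * q)) *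
        (⟨S.tQ, tQ_mem_Vinf S⟩ : Vinf A (M1 * q)) ^ (j : ℕ) := by
    apply Subtype.ext
    rw [AddSubmonoidClass.coe_finsetSum]
    exact ha
  have h1 : (twoComp S).res₁ x = resInf A (M1 * q) ⟨x, ((VV_eq S).le x.2).1⟩ := rfl
  rw [h1, e, map_sum, map_sum]
  refine Finset.sum_congr rfl fun j _ => ?_
  rw [map_mul, map_mul, map_pow, map_pow, map_pow, resInf_tQ, resInf_t1, resInf_alpha,
    qExpand_tq (kA A) S.hq]

theorem ch2_res_mem₂ (x : KL.VV A S.τM (FN (M1 * q))) :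
    ∃ x' : Vinf A M1, resInf A M1 x' = (twoComp S).res₂ x := by
  obtain ⟨a, ha⟩ := ch2_decomp S x x.2
  choose a' ha' using fun j => ch2_V S (a j)
  refine ⟨∑ j, a' j * (⟨S.t1, t1_mem_Vinf S⟩ : Vinf A M1) ^ (j : ℕ), ?_⟩
  have e : (⟨Wq S.hc x, ((VV_eq S).le x.2).2⟩ : Vinf A (M1 * q)) =
      ∑ j, (⟨heckeBetaBar Kb M1 q (a j), beta_mem_Vinf (a j).2⟩ : Vinf A (M1 * q)) *
        (⟨S.tM, tM_mem_Vinf S⟩ : Vinf A (M1 * q)) ^ (j : ℕ) := by
    apply Subtype.ext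
    rw [AddSubmonoidClass.coe_finsetSum]
    show Wq S.hc (x : FN (M1 * q)) = _
    rw [ha, map_sum]
    refine Finset.sum_congr rfl fun j _ => ?_
    rw [map_mul, map_pow, Wq_alpha, Wq_tQ]
    rfl
  have h1 : (twoComp S).res₂ x = resInf A (M1 * q) ⟨Wq S.hc x, ((VV_eq S).le x.2).2⟩ := rfl
  rw [h1, e, map_sum, map_sum]
  refine Finset.sum_congr rfl fun j _ => ?_
  rw [map_mul, map_mul, map_pow, map_pow, resInf_tM, resInf_t1, resInf_beta, ha']

/-! ### CH3 -/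

theorem ch3_C0M_le (b : Bool) :
    KL.C0 A (S.θM b) (FN (M1 * q)) ≤ KL.VV A S.τM (FN (M1 * q)) := by
  cases b
  · exact KL.C0_le_VV _ _ _
  · have h := KL.C0_le_VV A S.τM⁻¹ (FN (M1 * q))
    rw [KL.VV_inv A (transcendental_τM S)] at h
    exact h

theorem ch3_alpha_evE (b : Bool) (P : (↥A)[X]) :
    heckeAlphaBar Kb M1 q (KL.evE A (S.θ1 b) (FN M1) P) = KL.evE A (S.θM b) (FN (M1 * q)) P := by
  cases b
  · exact alpha_evE S P
  · exact alpha_evE_inv S P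

/-- polynomials in the chart function, in `Vinf A M1` -/
def ch3_e (b : Bool) : (↥A)[X] →+* Vinf A M1 :=
  (KL.evE A (S.θ1 b) (FN M1)).codRestrict (Vinf A M1)
    (fun P => C01_le S b (KL.evE_mem_C0 _ _ _ P))

/-- polynomials in the chart function, in `VV` -/
def ch3_E (b : Bool) : (↥A)[X] →+* KL.VV A S.τM (FN (M1 * q)) :=
  (KL.evE A (S.θM b) (FN (M1 * q))).codRestrict (KL.VV A S.τM (FN (M1 * q)))
    (fun P => ch3_C0M_le S b (KL.evE_mem_C0 _ _ _ P))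

/-- reduction of polynomials in the chart function -/
def ch3_f (b : Bool) : (↥A)[X] →+* LaurentSeries (kA A) := (resInf A M1).comp (ch3_e S b)

theorem ch3_res₁ (b : Bool) : (twoComp S).res₁.comp (ch3_E S b) = ch3_f S b := by
  refine RingHom.ext fun P => ?_
  have h := r1_alpha S (ch3_e S b P)
  rw [RingHom.comp_apply]
  show _ = resInf A M1 (ch3_e S b P)
  rw [← h]
  show resInf A (M1 * q) _ = resInf A (M1 * q) _
  congr 1
  exact Subtype.ext (ch3_alpha_evE S b P).symm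

theorem ch3_res₂ (b : Bool) :
    (twoComp S).res₂.comp (ch3_E S b) = (qExpand (kA A) q).comp (ch3_f S b) := by
  refine RingHom.ext fun P => ?_
  have h := r2_alpha S (ch3_e S b P)
  rw [RingHom.comp_apply, RingHom.comp_apply]
  show _ = qExpand (kA A) q (resInf A M1 (ch3_e S b P))
  rw [← h]
  show resInf A (M1 * q) _ = resInf A (M1 * q) _
  congr 1
  exact Subtype.ext (congrArg (Wq S.hc) (ch3_alpha_evE S b P).symm)

theorem ch3_f_C (b : Bool) (a : A) :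
    ch3_f S b (C a) = HahnSeries.C (IsLocalRing.residue A a) := by
  rw [← resInf_algebraMap (N := M1) a]
  show resInf A M1 _ = resInf A M1 _
  congr 1
  apply Subtype.ext
  show KL.evE A (S.θ1 b) (FN M1) (C a) = _
  simp only [KL.evE, KL.evL, RingHom.comp_apply, coe_eval₂RingHom, eval₂_C]
  rfl

theorem ch3_f_X_false : ch3_f S false X = tq (kA A) r := by
  rw [← resInf_t1 S]
  show resInf A M1 _ = resInf A M1 _
  congr 1
  exact Subtype.ext (evE_X_eq_t1 S)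

theorem ch3_f_X_true : ch3_f S true X = (tq (kA A) r)⁻¹ := by
  have ht0 : S.t1 ≠ 0 := by
    intro h0
    have h1 := resInf_t1 S
    have h2 : (⟨S.t1, t1_mem_Vinf S⟩ : Vinf A M1) = 0 := Subtype.ext h0
    rw [h2, map_zero] at h1
    have := coeff_tq_neg_one (kA A) r
    rw [← h1] at this
    simp at this
  have h : ch3_e S true X * ⟨S.t1, t1_mem_Vinf S⟩ = 1 := by
    apply Subtype.ext
    show KL.evE A S.τ1⁻¹ (FN M1) X * S.t1 = 1
    rw [KL.evE_apply, KL.evL_X, map_inv₀]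
    exact inv_mul_cancel₀ ht0
  have h2 := congrArg (resInf A M1) h
  rw [map_mul, map_one, resInf_t1] at h2
  exact eq_inv_of_mul_eq_one_left h2

theorem ch3_V (b : Bool) :
    (qExpand (kA A) q).comp (ch3_f S b) =
      (ch3_f S b).comp ((Polynomial.expand A q : (↥A)[X] →ₐ[A] (↥A)[X]) : (↥A)[X] →+* (↥A)[X]) := by
  have : CharP (kA A) q := charP_kA S.hq S.hA
  apply Polynomial.ringHom_ext
  · intro a
    simp only [RingHom.comp_apply, RingHom.coe_coe, Polynomial.expand_C, ch3_f_C, qExpand_C]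
  · simp only [RingHom.comp_apply, RingHom.coe_coe, Polynomial.expand_X, map_pow]
    cases b
    · rw [ch3_f_X_false, qExpand_tq (kA A) S.hq]
    · rw [ch3_f_X_true, map_inv₀, qExpand_tq (kA A) S.hq, inv_pow]

/-- the common part of `ch3_level₁`, `ch3_level₂` -/
theorem ch3_normal (b : Bool) (x' : Vinf A M1) (p : (↥A)[X][X]) (hp : p.Monic)
    (h : p.eval₂ (ch3_f S b) (resInf A M1 x') = 0) :
    ∃ c' : Vinf A M1, (c' : FN M1) ∈ KL.C0 A (S.θ1 b) (FN M1) ∧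
      resInf A M1 c' = resInf A M1 x' := by
  have e1 : p.eval₂ (KL.evE A (S.θ1 b) (FN M1)) (x' : FN M1) =
      ((p.eval₂ (ch3_e S b) x' : Vinf A M1) : FN M1) :=
    (Polynomial.hom_eval₂ p (ch3_e S b) (Vinf A M1).subtype x').symm
  have hm : p.eval₂ (KL.evE A (S.θ1 b) (FN M1)) (x' : FN M1) ∈ Vinf A M1 := by
    rw [e1]; exact Subtype.property _
  refine normal1 S b x' p hp hm ?_
  have e2 : (⟨_, hm⟩ : Vinf A M1) = p.eval₂ (ch3_e S b) x' := Subtype.ext e1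
  rw [e2, Polynomial.hom_eval₂]
  exact h

theorem ch3_eval_zero (b : Bool) (c : FN (M1 * q)) (hV : c ∈ KL.VV A S.τM (FN (M1 * q)))
    (p : (↥A)[X][X]) (hpc : p.eval₂ (KL.evE A (S.θM b) (FN (M1 * q))) c = 0) :
    p.eval₂ (ch3_E S b) (⟨c, hV⟩ : KL.VV A S.τM (FN (M1 * q))) = 0 := by
  apply Subtype.ext
  have := Polynomial.hom_eval₂ p (ch3_E S b) (KL.VV A S.τM (FN (M1 * q))).subtype ⟨c, hV⟩
  exact this.trans hpc

theorem ch3_level₁ (b : Bool) (c : FN (M1 * q)) (hc : c ∈ KL.C0 A (S.θM b) (FN (M1 * q)))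
    (hV : c ∈ KL.VV A S.τM (FN (M1 * q))) :
    ∃ c' : Vinf A M1, (c' : FN M1) ∈ KL.C0 A (S.θ1 b) (FN M1) ∧
      resInf A M1 c' = (twoComp S).res₁ ⟨c, hV⟩ := by
  obtain ⟨p, hp, hpc⟩ := hc
  obtain ⟨x', hx'⟩ := ch2_res_mem₁ S ⟨c, hV⟩
  rw [← hx']
  apply ch3_normal S b x' p hp
  have h0 := congrArg (twoComp S).res₁ (ch3_eval_zero S b c hV p hpc)
  rw [Polynomial.hom_eval₂, map_zero, ch3_res₁, ← hx'] at h0
  exact h0

theorem ch3_level₂ (b : Bool) (c : FN (M1 * q)) (hc : c ∈ KL.C0 A (S.θM b) (FN (M1 * q)))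
    (hV : c ∈ KL.VV A S.τM (FN (M1 * q))) :
    ∃ c' : Vinf A M1, (c' : FN M1) ∈ KL.C0 A (S.θ1 b) (FN M1) ∧
      resInf A M1 c' = (twoComp S).res₂ ⟨c, hV⟩ := by
  obtain ⟨p, hp, hpc⟩ := hc
  obtain ⟨x', hx'⟩ := ch2_res_mem₂ S ⟨c, hV⟩
  rw [← hx']
  apply ch3_normal S b x'
    (p.map ((Polynomial.expand A q : (↥A)[X] →ₐ[A] (↥A)[X]) : (↥A)[X] →+* (↥A)[X])) (hp.map _)
  have h0 := congrArg (twoComp S).res₂ (ch3_eval_zero S b c hV p hpc)
  rw [Polynomial.hom_eval₂, map_zero, ch3_res₂, ch3_V, ← hx'] at h0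
  rw [Polynomial.eval₂_map]
  exact h0

end Fermat.Agent.S34.Mod
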