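import Fermat.Agent.S18.ModQuot
import Fermat.Agent.S18.ModInvHaupt
import Fermat.Agent.S18.Z.SatC

/-!
# S34 / MOD-K : integrality over `A[t]` and over `A[1/t]`

`H : Haupt M r`, `t = tauF H hrM`, `τ = tauL H hrM`.  Let `b ∈ AL M` be `Γ₀(M)`-invariant, `y ∈ FN M` the
corresponding element of the function field.

* `mem_C0_of_regular` : if all the translates `g • b`, `g ∉ Γ₀(r)`, are regular at `∞`
  (i.e. `b` has no pole at the cusps which are not above `∞ ∈ X₀(r)`), then `y ∈ C0 A τ (FN M)`;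
* `mem_C0_inv_of_regular` : if all the translates `g • b`, `g ∈ Γ₀(r)`, are regular at `∞`, then
  `y ∈ C0 A τ⁻¹ (FN M)`.
-/

set_option autoImplicit false

open UpperHalfPlane ModularForm ModularCurve Polynomial
open scoped MatrixGroups

noncomputable section

namespace Fermat.Agent.S34.Mod

open Fermat.Agent.S24 Fermat.Agent.S28 Fermat.Agent.S18 Fermat.Agent.S18.ModInv

variable {M r : ℕ} [NeZero M]

/-- the elements of `AL M` which are regular at `∞` -/
def lowRing (M : ℕ) [NeZero M] : Subring (AL M) where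
  carrier := {f | Low 0 (eps M f)}
  mul_mem' := fun {f g} hf hg => by
    show Low 0 (eps M (f * g))
    rw [map_mul]
    simpa using Low.mul hf hg
  one_mem' := by
    show Low 0 (eps M 1)
    rw [map_one]; exact low_one
  add_mem' := fun {f g} hf hg => by
    show Low 0 (eps M (f + g))
    rw [map_add]; exact Low.add hf hg
  zero_mem' := fun n _ => by rw [map_zero]; rfl
  neg_mem' := fun {f} hf => by
    show Low 0 (eps M (-f))
    rw [map_neg]; exact Low.neg hf

theorem mem_lowRing {f : AL M} : f ∈ lowRing M ↔ Low 0 (eps M f) := Iff.rfl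

open Classical in
/-- the orbit polynomial of a `Γ₀(M)`-invariant element under `Γ₀(r)` -/
def chiB (r : ℕ) (b : AL M) (hb : ∀ k ∈ CongruenceSubgroup.Gamma0 M, k • b = b) : (AL M)[X] :=
  ∏ c : QN M, if IsX0 M r c then (X - C (Lag.orb _ b hb c)) else 1

variable (b : AL M) (hb : ∀ k ∈ CongruenceSubgroup.Gamma0 M, k • b = b)

theorem chiB_monic : (chiB r b hb).Monic := by
  classical
  refine monic_prod_of_monic _ _ fun q _ => ?_
  split_ifs
  · exact monic_X_sub_C _
  · exact monic_one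

open Classical in
theorem chiB_map (g : SL(2, ℤ)) :
    (chiB r b hb).map (MulSemiringAction.toRingHom SL(2, ℤ) (AL M) g) =
      ∏ c : QN M, if IsX0 M r c then (X - C (g • Lag.orb _ b hb c)) else 1 := by
  classical
  rw [chiB, Polynomial.map_prod]
  refine Finset.prod_congr rfl fun c _ => ?_
  split_ifs
  · rw [Polynomial.map_sub, map_X, map_C]; rfl
  · rw [Polynomial.map_one]

theorem chiB_map_of_dvd (hrM : r ∣ M) {g : SL(2, ℤ)} (hg : (r : ℤ) ∣ g 1 0) :
    (chiB r b hb).map (MulSemiringAction.toRingHom SL(2, ℤ) (AL M) g) = chiB r b hb := by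
  classical
  rw [chiB_map, chiB]
  refine Fintype.prod_equiv (MulAction.toPerm g) _ _ fun q => ?_
  rw [MulAction.toPerm_apply]
  by_cases h : IsX0 M r q
  · rw [if_pos h, if_pos ((isX0_smul hrM hg q).mpr h), Lag.orb_smul]
  · rw [if_neg h, if_neg (fun h' => h ((isX0_smul hrM hg q).mp h'))]

theorem smul_coeff_chiB (hrM : r ∣ M) (n : ℕ) (g : SL(2, ℤ)) (hg : (r : ℤ) ∣ g 1 0) :
    g • (chiB r b hb).coeff n = (chiB r b hb).coeff n := by
  conv_rhs => rw [← chiB_map_of_dvd b hb hrM hg, coeff_map]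
  rfl

theorem eval_chiB (hrM : r ∣ M) : (chiB r b hb).eval b = 0 := by
  classical
  rw [chiB, eval_prod]
  refine Finset.prod_eq_zero (Finset.mem_univ ((1 : SL(2, ℤ)) : QN M)) ?_
  rw [if_pos (isX0_one hrM), Lag.orb_mk, one_smul, eval_sub, eval_X, eval_C, sub_self]

/-- regularity of the coefficients of the translated orbit polynomial -/
theorem smul_coeff_chiB_mem (g : SL(2, ℤ))
    (h : ∀ g' : SL(2, ℤ), (r : ℤ) ∣ g' 1 0 → (g * g') • b ∈ lowRing M) (n : ℕ) :
    g • (chiB r b hb).coeff n ∈ lowRing M := by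
  classical
  have h1 : g • (chiB r b hb).coeff n =
      ((chiB r b hb).map (MulSemiringAction.toRingHom SL(2, ℤ) (AL M) g)).coeff n := by
    rw [coeff_map]; rfl
  rw [h1, chiB_map]
  have h2 : (∏ c : QN M, if IsX0 M r c then (X - C (g • Lag.orb _ b hb c)) else 1) ∈
      lifts (lowRing M).subtype := by
    refine Subsemiring.prod_mem _ fun c _ => ?_
    split_ifs with hc
    · rw [Lag.orb_eq_out, ← mul_smul]
      refine ⟨X - C ⟨_, h _ hc⟩, ?_⟩
      simp
    · exact one_mem _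
  obtain ⟨x, hx⟩ := (lifts_iff_coeff_lifts _).mp h2 n
  rw [← hx]
  exact x.2

/-- assembling an integral equation -/
theorem isIntegralElem_of_corr {R : Type*} [CommRing R] (f : R →+* FN M) {y : FN M} {b : AL M}
    (hyb : Corr M y b) (χ : (AL M)[X]) (hχ : χ.Monic) (hev : χ.eval b = 0)
    (hc : ∀ n, ∃ Q : R, Corr M (f Q) (χ.coeff n)) : f.IsIntegralElem y := by
  choose Q hQ using hc
  refine ⟨X ^ χ.natDegree + ∑ n ∈ Finset.range χ.natDegree, C (Q n) * X ^ n, ?_, ?_⟩
  · apply monic_X_pow_add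
    refine lt_of_le_of_lt (degree_sum_le _ _) ?_
    rw [Finset.sup_lt_iff (WithBot.bot_lt_coe _)]
    intro n hn
    refine lt_of_le_of_lt (degree_C_mul_X_pow_le n _) ?_
    exact_mod_cast Finset.mem_range.mp hn
  · have h1 : Corr M (y ^ χ.natDegree + ∑ n ∈ Finset.range χ.natDegree, f (Q n) * y ^ n)
        (b ^ χ.natDegree + ∑ n ∈ Finset.range χ.natDegree, χ.coeff n * b ^ n) :=
      (hyb.pow _).add (Corr.sum _ _ _ fun n _ => (hQ n).mul (hyb.pow n))
    have h2 : b ^ χ.natDegree + ∑ n ∈ Finset.range χ.natDegree, χ.coeff n * b ^ n = 0 := by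
      rw [← hev, eval_eq_sum_range, Finset.sum_range_succ, hχ.coeff_natDegree, one_mul, add_comm]
    rw [h2] at h1
    have h3 := h1.eq_zero_iff.mpr rfl
    rw [← h3]
    simp [eval₂_add, eval₂_finsetSum, eval₂_mul, eval₂_pow]

theorem evE_map_zkA (H : Haupt M r) (hrM : r ∣ M) (A : ValuationSubring Kb) (P : Zb[X]) :
    KL.evE A (tauL H hrM) (FN M) (P.map (zkA A)) = aeval (tauF H hrM) (P.map zk) := by
  rw [KL.evE_apply, ModQuot.evL_map_zkA]
  exact coe_aeval_tauL H hrM _

include hb in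
/-- no poles outside the cusps above `∞ ∈ X₀(r)` : integral over `A[t]` -/
theorem mem_C0_of_regular (H : Haupt M r) (hrM : r ∣ M) (A : ValuationSubring Kb) {y : FN M}
    (hyb : Corr M y b) (hreg : ∀ g : SL(2, ℤ), ¬ (r : ℤ) ∣ g 1 0 → g • b ∈ lowRing M) :
    y ∈ KL.C0 A (tauL H hrM) (FN M) := by
  refine isIntegralElem_of_corr _ hyb (chiB r b hb) (chiB_monic b hb) (eval_chiB b hb hrM)
    fun n => ?_
  obtain ⟨a, ha⟩ := exists_low (eps M ((chiB r b hb).coeff n))
  have hM : (1 : ℤ) ≤ M := by exact_mod_cast Nat.pos_of_ne_zero (NeZero.ne M)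
  obtain ⟨P, -, hP⟩ := H.exists_poly_of_low ((chiB r b hb).coeff n) (smul_coeff_chiB b hb hrM n) a 0
    (fun k hk => ha k (by nlinarith))
    (fun g hg k hk => smul_coeff_chiB_mem b hb g (fun g' hg' => hreg _ (fun h => hg (by
      rw [← mem_Gamma0_iff] at *
      exact (Subgroup.mul_mem_cancel_right _ hg').mp h))) n k (by simpa using hk))
  rw [pow_zero, mul_one] at hP
  refine ⟨P.map (zkA A), ?_⟩
  rw [evE_map_zkA, hP]
  exact (corr_tauF H hrM).eval₂ P

theorem evE_inv_reflect (H : Haupt M r) (hrM : r ∣ M) (A : ValuationSubring Kb) (P : Zb[X]) (N : ℕ)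
    (hP : P.natDegree ≤ N) :
    KL.evE A (tauL H hrM)⁻¹ (FN M) (reflect N (P.map (zkA A))) =
      aeval (tauF H hrM) (P.map zk) / tauF H hrM ^ N := by
  have hτ0 : tauL H hrM ≠ 0 := KL.ne_zero_of_transcendental (transcendental_tauL H hrM)
  have ht0 : tauF H hrM ≠ 0 := fun h => hτ0 (Subtype.ext h)
  have hd : (reflect N (P.map (zkA A))).natDegree ≤ N := by
    refine (natDegree_reflect_le).trans ?_
    rw [max_le_iff]
    exact ⟨le_rfl, natDegree_map_le.trans hP⟩
  have h1 := KL.SatC.evL_reflect A hτ0 N (reflect N (P.map (zkA A))) hd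
  rw [reflect_reflect] at h1
  rw [eq_div_iff (pow_ne_zero _ ht0), ← evE_map_zkA H hrM A, KL.evE_apply, KL.evE_apply, ← h1,
    map_mul, mul_comm]
  congr 1
  rw [map_pow, KL.evL_X, map_pow]
  rfl

include hb in
/-- no poles at the cusps above `∞ ∈ X₀(r)` : integral over `A[1/t]` -/
theorem mem_C0_inv_of_regular (H : Haupt M r) (hrM : r ∣ M) (A : ValuationSubring Kb) {y : FN M}
    (hyb : Corr M y b) (hreg : ∀ g : SL(2, ℤ), (r : ℤ) ∣ g 1 0 → g • b ∈ lowRing M) :
    y ∈ KL.C0 A (tauL H hrM)⁻¹ (FN M) := by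
  refine isIntegralElem_of_corr _ hyb (chiB r b hb) (chiB_monic b hb) (eval_chiB b hb hrM)
    fun n => ?_
  obtain ⟨N, hN⟩ := exists_low_smul ((chiB r b hb).coeff n)
  have h1 := smul_coeff_chiB_mem (r := r) b hb 1 (fun g' hg' => by rw [one_mul]; exact hreg _ hg') n
  rw [one_smul] at h1
  obtain ⟨P, hPd, hP⟩ := H.exists_poly_of_low ((chiB r b hb).coeff n) (smul_coeff_chiB b hb hrM n) 0 N
    (fun k hk => h1 k (by simpa using hk)) (fun g _ k hk => hN g k hk)
  rw [zero_add] at hPd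
  refine ⟨reflect N (P.map (zkA A)), ?_⟩
  rw [evE_inv_reflect H hrM A P N hPd]
  exact ((corr_tauF H hrM).eval₂ P).div ((corr_tauF H hrM).pow N) (pow_ne_zero _ (tA_ne_zero H)) hP

end Fermat.Agent.S34.Mod
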