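import Fermat.Agent.S34.Mod.KronHerm

/-!
# S34 / MOD-K : `f(q z) ∈ AL M` for a `Γ₀(r)`-invariant `f ∈ AL r`, `r q ∣ M`
-/

set_option autoImplicit false

open UpperHalfPlane ModularForm ModularCurve
open scoped MatrixGroups Manifold Real

noncomputable section

namespace Fermat.Agent.S34.Mod

open Fermat.Agent.S24 Fermat.Agent.S28 Fermat.Agent.S18

variable (q : ℕ) [NeZero q] {r : ℕ} [NeZero r] (M : ℕ) [NeZero M]

/-- `f(q z)` -/
def scH (f : AL r) : Hol := holComp (scaleH q) (mdiff_scaleH q) f.1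

theorem scH_apply (f : AL r) (τ : ℍ) : (scH q f : ℍ → ℂ) τ = (f.1 : ℍ → ℂ) (scaleH q τ) := rfl

variable {q}

/-- the translates of `f(q z)`, with their expansions -/
theorem exists_rel_holAct_scH (hM : r * q ∣ M) (f : AL r) (g : SL(2, ℤ)) :
    ∃ (γ : SL(2, ℤ)) (a d : ℕ) (b : ℤ) (ha : 0 < a) (hd : 0 < d) (s : LaurentSeries Zb),
      a * d = q ∧ γ 1 0 * a = - g 1 0 ∧ ((q : ℤ) ∣ g 1 0 → d = 1) ∧
      (holAct g (scH q f) : ℍ → ℂ) = ((γ⁻¹ • f : AL r).1 : ℍ → ℂ) ∘ aff a d b ha hd ∧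
      Rel M (holAct g (scH q f) : ℍ → ℂ) s ∧
      ((∀ n : ℤ, n ≤ 0 → (eps r (γ⁻¹ • f)).coeff n = 0) → ∀ n : ℤ, n ≤ 0 → s.coeff n = 0) ∧
      ((∀ n : ℤ, n < 0 → (eps r (γ⁻¹ • f)).coeff n = 0) → ∀ n : ℤ, n < 0 → s.coeff n = 0) := by
  obtain ⟨γ, a, d, b, ha, hd, had, h1, h0, h2⟩ := exists_hermite' q g⁻¹
  rw [HauptAux.inv_10] at h1 h0
  have hfun : (holAct g (scH q f) : ℍ → ℂ) =
      ((γ⁻¹ • f : AL r).1 : ℍ → ℂ) ∘ aff a d b ha hd := by
    funext τ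
    rw [holAct_apply, scH_apply, h2, Function.comp_apply, coe_smul_AL, holAct_apply, inv_inv]
  obtain ⟨m, hm⟩ := hM
  obtain ⟨s', hs', hc1, hc2⟩ := (rel_eps r (γ⁻¹ • f)).affine (N := M) a d b ha hd (a * a * m) (by
    rw [hm, ← had]; ring)
  have hm0 : 0 < m := by
    rcases Nat.eq_zero_or_pos m with h | h
    · exact absurd (by rw [hm, h, mul_zero]) (NeZero.ne M)
    · exact h
  have hA : (0 : ℤ) < ((a * a * m : ℕ) : ℤ) := by
    exact_mod_cast Nat.mul_pos (Nat.mul_pos ha ha) hm0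
  refine ⟨γ, a, d, b, ha, hd, s', had, h1, fun h => h0 ((dvd_neg).mpr h), hfun,
    by rw [hfun]; exact hs', fun hlow n hn => ?_, fun hlow n hn => ?_⟩
  · by_cases hdv : ((a * a * m : ℕ) : ℤ) ∣ n
    · obtain ⟨k, rfl⟩ := hdv
      have hk : k ≤ 0 := by
        by_contra hk
        push Not at hk
        have := mul_pos hA hk
        omega
      apply Subtype.ext
      rw [hc1 k, hlow k hk]
      simp
    · exact hc2 n hdv
  · by_cases hdv : ((a * a * m : ℕ) : ℤ) ∣ n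
    · obtain ⟨k, rfl⟩ := hdv
      have hk : k < 0 := by
        by_contra hk
        push Not at hk
        have := mul_nonneg hA.le hk
        omega
      apply Subtype.ext
      rw [hc1 k, hlow k hk]
      simp
    · exact hc2 n hdv

omit [NeZero q] [NeZero r] in
theorem dvd_gamma_iff (hr : r.Prime) (hq : q.Prime) (hqr : q ≠ r) {x y : ℤ} {a d : ℕ}
    (had : a * d = q) (h : x * a = - y) : (r : ℤ) ∣ x ↔ (r : ℤ) ∣ y := by
  have hrp : Prime (r : ℤ) := Nat.prime_iff_prime_int.mp hr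
  have hra : ¬ (r : ℤ) ∣ (a : ℤ) := by
    intro h
    have h3 : r ∣ q := (Int.natCast_dvd_natCast.mp h).trans (Dvd.intro _ had)
    rcases (Nat.dvd_prime hq).mp h3 with h4 | h4
    · exact hr.one_lt.ne' h4
    · exact hqr h4.symm
  constructor
  · intro hx
    exact (dvd_neg).mp (h ▸ Dvd.dvd.mul_right hx _)
  · intro hy
    have h3 : (r : ℤ) ∣ x * a := by rw [h]; exact (dvd_neg).mpr hy
    exact (hrp.dvd_or_dvd h3).resolve_right hra

/-- invariance of `f(q z)` under `Γ₀(r q)` -/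
theorem holAct_scH_of_dvd (hr : r.Prime) (hq : q.Prime) (hqr : q ≠ r) (f : AL r)
    (hf : ∀ g : SL(2, ℤ), (r : ℤ) ∣ g 1 0 → g • f = f) (g : SL(2, ℤ))
    (hg : (r : ℤ) ∣ g 1 0) (hg' : (q : ℤ) ∣ g 1 0) : holAct g (scH q f) = scH q f := by
  obtain ⟨γ, a, d, b, ha, hd, s, had, h1, h0, hfun, -⟩ :=
    exists_rel_holAct_scH (r * q) dvd_rfl f g
  have hγ : (r : ℤ) ∣ γ⁻¹ 1 0 := by
    rw [HauptAux.inv_10, dvd_neg]
    exact (dvd_gamma_iff hr hq hqr had h1).mpr hg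
  have hd1 := h0 hg'
  subst hd1
  rw [mul_one] at had
  subst had
  ext τ
  rw [hfun, hf _ hγ, Function.comp_apply, scH_apply]
  have h3 := hf (ModularGroup.T ^ (-b)) (by rw [ModularGroup.coe_T_zpow]; simp)
  have h4 : ((ModularGroup.T ^ (-b) • f : AL r).1 : ℍ → ℂ) (scaleH a τ) =
      (f.1 : ℍ → ℂ) (aff a 1 b ha hd τ) := by
    rw [coe_smul_AL, holAct_apply]
    refine congrArg (f.1 : ℍ → ℂ) ?_
    apply UpperHalfPlane.ext
    rw [← zpow_neg, neg_neg, ModularGroup.coe_T_zpow_smul_eq, coe_aff, coe_scaleH]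
    simp [add_comm]
  rw [← h4, h3]

theorem scH_mem_AL (hr : r.Prime) (hq : q.Prime) (hqr : q ≠ r) (hM : r * q ∣ M) (f : AL r)
    (hf : ∀ g : SL(2, ℤ), (r : ℤ) ∣ g 1 0 → g • f = f) : scH q f ∈ AL M := by
  refine ⟨fun γ hγ => ?_, fun g => ?_⟩
  · have h1 : (M : ℤ) ∣ γ 1 0 := by
      have := (CongruenceSubgroup.Gamma_mem.mp hγ).2.2.1
      exact (ZMod.intCast_zmod_eq_zero_iff_dvd _ _).mp this
    have h2 : ((r * q : ℕ) : ℤ) ∣ γ 1 0 := (Int.natCast_dvd_natCast.mpr hM).trans h1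
    push_cast at h2
    exact holAct_scH_of_dvd hr hq hqr f hf γ ((Dvd.intro _ rfl).trans h2)
      ((Dvd.intro_left _ rfl).trans h2)
  · obtain ⟨γ, a, d, b, ha, hd, s, -, -, -, -, hs, -⟩ := exists_rel_holAct_scH M hM f g
    exact ⟨s, hs⟩

variable (q)

/-- `f(q z)` as an element of `AL M` -/
def scA (hr : r.Prime) (hq : q.Prime) (hqr : q ≠ r) (hM : r * q ∣ M) (f : AL r)
    (hf : ∀ g : SL(2, ℤ), (r : ℤ) ∣ g 1 0 → g • f = f) : AL M :=
  ⟨scH q f, scH_mem_AL M hr hq hqr hM f hf⟩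

variable (hr : r.Prime) (hq : q.Prime) (hqr : q ≠ r) (hM : r * q ∣ M) (f : AL r)
  (hf : ∀ g : SL(2, ℤ), (r : ℤ) ∣ g 1 0 → g • f = f)

theorem smul_scA (g : SL(2, ℤ)) (hg : (M : ℤ) ∣ g 1 0) :
    g • scA q M hr hq hqr hM f hf = scA q M hr hq hqr hM f hf := by
  have h2 : ((r * q : ℕ) : ℤ) ∣ g 1 0 := (Int.natCast_dvd_natCast.mpr hM).trans hg
  push_cast at h2
  exact Subtype.ext (holAct_scH_of_dvd hr hq hqr f hf g ((Dvd.intro _ rfl).trans h2)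
    ((Dvd.intro_left _ rfl).trans h2))

/-- if `f` vanishes at the cusp `0` of `X₀(r)`, then `f(q z)` vanishes at all the cusps above it -/
theorem coeff_eps_smul_scA_of_not_dvd
    (h0 : ∀ γ : SL(2, ℤ), ¬ (r : ℤ) ∣ γ 1 0 → ∀ n : ℤ, n ≤ 0 → (eps r (γ • f)).coeff n = 0)
    (g : SL(2, ℤ)) (hg : ¬ (r : ℤ) ∣ g 1 0) (n : ℤ) (hn : n ≤ 0) :
    (eps M (g • scA q M hr hq hqr hM f hf)).coeff n = 0 := by
  obtain ⟨γ, a, d, b, ha, hd, s, had, h1, -, -, hs, h3, -⟩ := exists_rel_holAct_scH M hM f g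
  rw [eps_eq M (f := g • scA q M hr hq hqr hM f hf) hs]
  refine h3 (h0 _ ?_) n hn
  rw [HauptAux.inv_10, dvd_neg]
  exact fun h => hg ((dvd_gamma_iff hr hq hqr had h1).mp h)

/-- if `f` vanishes at the cusp `∞` of `X₀(r)`, then `f(q z)` vanishes at all the cusps above it -/
theorem coeff_eps_smul_scA_of_dvd (h0 : ∀ n : ℤ, n ≤ 0 → (eps r f).coeff n = 0)
    (g : SL(2, ℤ)) (hg : (r : ℤ) ∣ g 1 0) (n : ℤ) (hn : n ≤ 0) :
    (eps M (g • scA q M hr hq hqr hM f hf)).coeff n = 0 := by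
  obtain ⟨γ, a, d, b, ha, hd, s, had, h1, -, -, hs, h3, -⟩ := exists_rel_holAct_scH M hM f g
  rw [eps_eq M (f := g • scA q M hr hq hqr hM f hf) hs]
  refine h3 ?_ n hn
  rw [hf]
  · exact h0
  · rw [HauptAux.inv_10, dvd_neg]
    exact (dvd_gamma_iff hr hq hqr had h1).mpr hg

end Fermat.Agent.S34.Mod
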