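import Fermat.Agent.S34.Mod.Wq
import Fermat.Agent.S34.Mod.Scale
import Fermat.Agent.S34.Mod.Integral
import Fermat.Agent.S18.Arch

/-!
# S34 / MOD-K : `t_q = t(q^q)` is integral over `A[t]`, and `1/t_q` over `A[1/t]`

`t = t_r` the Hauptmodul of `Γ₀(r)`, `r ∈ {2, 3}`; `M = M1 * q`, `q` prime, `q ≠ r`, `r ∣ M1`.

* `tF M r hr hrM : FN M` : the Hauptmodul at level `M` (`= tauF (haupt M r hr hrM) hrM`), with `q`-expansion
  `tq Kb r` (`coe_tF`);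
* `alpha_tF` : `al (tF M1) = tF (M1 q)`;
* `tqF` : `t_q = be (tF M1) = t(q^q)`; `Wq_tF`, `Wq_tqF` : `W_q` exchanges `t` and `t_q`;
* `tqF_mem_C0` : `t_q ∈ C0 A τ (FN (M1 q))`, `τ = tauL (haupt (M1 q) r ..) ..`;
* `tqF_inv_mem_C0` : `t_q⁻¹ ∈ C0 A τ⁻¹ (FN (M1 q))` if `r` is a unit of `A`.
-/

set_option autoImplicit false

open ModularCurve AlgebraicCurve Polynomial Fermat.Agent.S24 Fermat.Agent.S28
  Fermat.Agent.S29 Fermat.Agent.S18 Fermat.Agent.ES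
open scoped MatrixGroups

noncomputable section

namespace Fermat.Agent.S34.Mod

/-- the Hauptmodul `t_r` at level `M` -/
def tF (M r : ℕ) [NeZero M] [NeZero r] (hr : r = 2 ∨ r = 3) (hrM : r ∣ M) : FN M :=
  tauF (haupt M r hr hrM) hrM

theorem coe_tF (M r : ℕ) [NeZero M] [NeZero r] (hr : r = 2 ∨ r = 3) (hrM : r ∣ M) :
    (tF M r hr hrM : LaurentSeries Kb) = tq Kb r := by
  ext n
  rw [tF, coeff_tauF]
  show zk ((eps M (tA M r hr hrM)).coeff _) = _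
  rw [eps_tA, qExpand_coeff_mul, ← coeffMap_tq r zk, coeffMap_coeff]

variable (M1 q r : ℕ) [NeZero M1] [NeZero q] [NeZero r] (hr : r = 2 ∨ r = 3) (hrM : r ∣ M1)

theorem alpha_tF : heckeAlphaBar Kb M1 q (tF M1 r hr hrM) = tF (M1 * q) r hr (hrM.mul_right q) := by
  apply Subtype.ext
  rw [coe_heckeAlphaBar, coe_tF, coe_tF]

/-- `t_q = t(q^q)` -/
def tqF : FN (M1 * q) := heckeBetaBar Kb M1 q (tF M1 r hr hrM)

theorem coe_tqF : (tqF M1 q r hr hrM : LaurentSeries Kb) = qExpand Kb q (tq Kb r) := by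
  rw [tqF, coe_heckeBetaBar, coe_tF]

theorem Wq_tF (h : Nat.Coprime q M1) :
    Wq h (tF (M1 * q) r hr (hrM.mul_right q)) = tqF M1 q r hr hrM := by
  rw [← alpha_tF, Wq_alpha]; rfl

theorem Wq_tqF (h : Nat.Coprime q M1) :
    Wq h (tqF M1 q r hr hrM) = tF (M1 * q) r hr (hrM.mul_right q) := by
  rw [← alpha_tF, tqF, Wq_beta]

theorem prime_of_hr {r : ℕ} (hr : r = 2 ∨ r = 3) : r.Prime := by
  rcases hr with rfl | rfl <;> norm_num

variable (hq : q.Prime) (hqr : q ≠ r)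

/-- `t(q z)` in `AL (M1 q)` -/
def tqB : AL (M1 * q) :=
  scA q (M1 * q) (prime_of_hr hr) hq hqr (mul_dvd_mul_right hrM q) (tA r r hr dvd_rfl)
    (smul_tA r r hr dvd_rfl)

/-- `r ^ e / t(q z)` in `AL (M1 q)` -/
def tqB' : AL (M1 * q) :=
  scA q (M1 * q) (prime_of_hr hr) hq hqr (mul_dvd_mul_right hrM q) (tA' r r hr dvd_rfl)
    (smul_tA' r r hr dvd_rfl)

theorem smul_tqB : ∀ k ∈ CongruenceSubgroup.Gamma0 (M1 * q),
    k • tqB M1 q r hr hrM hq hqr = tqB M1 q r hr hrM hq hqr :=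
  fun k hk => smul_scA q _ _ hq hqr _ _ _ k (mem_Gamma0_iff.mp hk)

theorem smul_tqB' : ∀ k ∈ CongruenceSubgroup.Gamma0 (M1 * q),
    k • tqB' M1 q r hr hrM hq hqr = tqB' M1 q r hr hrM hq hqr :=
  fun k hk => smul_scA q _ _ hq hqr _ _ _ k (mem_Gamma0_iff.mp hk)

theorem eps_tqB : eps (M1 * q) (tqB M1 q r hr hrM hq hqr) = qExpand Zb (M1 * q * q) (tq Zb r) :=
  eps_eq _ (HauptAux.rel_scale (M1 * q) (rel_tFun r) q)

theorem corr_tqF : Corr (M1 * q) (tqF M1 q r hr hrM) (tqB M1 q r hr hrM hq hqr) := by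
  obtain ⟨x, hx⟩ := exists_corr _ (smul_tqB M1 q r hr hrM hq hqr)
  have : x = tqF M1 q r hr hrM := by
    apply Subtype.ext
    apply qExpand_injective (R := Kb) (M1 * q)
    rw [hx.qexp_eq, eps_tqB, coeffMap_qExpand, coeffMap_tq, coe_tqF, qExpand_qExpand]
  exact this ▸ hx

theorem tqB'_mul_tqB : tqB' M1 q r hr hrM hq hqr * tqB M1 q r hr hrM hq hqr =
    cA (M1 * q) ((cE r : ℕ) : Zb) := by
  apply Subtype.ext
  ext τ
  have h := congrArg (fun f : AL r => (f.1 : UpperHalfPlane → ℂ) (scaleH q τ))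
    (tA_mul_tA' r r hr dvd_rfl)
  rw [mul_comm (tqB' M1 q r hr hrM hq hqr)]
  exact h

theorem tqF_ne_zero : tqF M1 q r hr hrM ≠ 0 := by
  intro h
  have h1 := coe_tqF M1 q r hr hrM
  rw [h] at h1
  have h2 : tq Kb r = 0 := qExpand_injective (R := Kb) q (by rw [← h1, map_zero]; rfl)
  have h3 := coeff_tq_neg_one Kb r
  rw [h2] at h3
  simp at h3

theorem corr_tqF_inv : Corr (M1 * q)
    (algebraMap Kb (FN (M1 * q)) (zk ((cE r : ℕ) : Zb)) / tqF M1 q r hr hrM)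
    (tqB' M1 q r hr hrM hq hqr) := by
  refine (Corr.const _).div (corr_tqF M1 q r hr hrM hq hqr) ?_ (tqB'_mul_tqB M1 q r hr hrM hq hqr)
  intro h
  exact tqF_ne_zero M1 q r hr hrM ((corr_tqF M1 q r hr hrM hq hqr).eq_zero_iff.mpr h)

/-- the base function at level `M1 q` -/
abbrev tauQ : LT (haupt (M1 * q) r hr (hrM.mul_right q)) (hrM.mul_right q) :=
  tauL (haupt (M1 * q) r hr (hrM.mul_right q)) (hrM.mul_right q)

include hq hqr in
/-- `t_q` is integral over `A[t]` -/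
theorem tqF_mem_C0 (A : ValuationSubring Kb) :
    tqF M1 q r hr hrM ∈ KL.C0 A (tauQ M1 q r hr hrM) (FN (M1 * q)) := by
  refine mem_C0_of_regular _ (smul_tqB M1 q r hr hrM hq hqr) _ _ A
    (corr_tqF M1 q r hr hrM hq hqr) fun g hg n hn => ?_
  refine coeff_eps_smul_scA_of_not_dvd q _ _ hq hqr _ _ _ (fun γ hγ k hk => ?_) g hg n hn.le
  refine coeff_eps_smul_tA r r hr dvd_rfl γ hγ k ?_
  have hr0 : (0 : ℤ) < r := by exact_mod_cast HauptAux.r_pos r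
  nlinarith

include hq hqr in
/-- `1 / t_q` is integral over `A[1 / t]` -/
theorem tqF_inv_mem_C0 (A : ValuationSubring Kb) (hrA : ((r : Kb))⁻¹ ∈ A) :
    (tqF M1 q r hr hrM)⁻¹ ∈ KL.C0 A (tauQ M1 q r hr hrM)⁻¹ (FN (M1 * q)) := by
  have h1 : algebraMap Kb (FN (M1 * q)) (zk ((cE r : ℕ) : Zb)) / tqF M1 q r hr hrM ∈
      KL.C0 A (tauQ M1 q r hr hrM)⁻¹ (FN (M1 * q)) := by
    refine mem_C0_inv_of_regular _ (smul_tqB' M1 q r hr hrM hq hqr) _ _ A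
      (corr_tqF_inv M1 q r hr hrM hq hqr) fun g hg n hn => ?_
    refine coeff_eps_smul_scA_of_dvd q _ _ hq hqr _ _ _ (fun k hk => ?_) g hg n hn.le
    rw [eps_tA', HahnSeries.C_mul_eq_smul, HahnSeries.coeff_smul,
      ((mon_tqInv Zb r).qExpand r).2 k (by
        have hr0 : (0 : ℤ) < r := by exact_mod_cast HauptAux.r_pos r
        nlinarith), smul_zero]
  have hc : ((zk ((cE r : ℕ) : Zb))⁻¹ : Kb) ∈ A := by
    rw [map_natCast, cE, Nat.cast_pow, ← inv_pow]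
    exact pow_mem hrA _
  have hc0 : zk ((cE r : ℕ) : Zb) ≠ 0 := by
    rw [map_natCast, cE, Nat.cast_pow]
    exact pow_ne_zero _ (by exact_mod_cast NeZero.ne r)
  have h2 := (KL.C0 A (tauQ M1 q r hr hrM)⁻¹ (FN (M1 * q))).mul_mem
    (KL.evE_mem_C0 A (tauQ M1 q r hr hrM)⁻¹ (FN (M1 * q)) (C ⟨_, hc⟩)) h1
  rw [KL.SatB.evE_C] at h2
  convert h2 using 1
  have h3 : algebraMap (LT (haupt (M1 * q) r hr (hrM.mul_right q)) (hrM.mul_right q)) (FN (M1 * q))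
      (algebraMap Kb _ ((zk ((cE r : ℕ) : Zb))⁻¹ : Kb)) =
      (algebraMap Kb (FN (M1 * q)) (zk ((cE r : ℕ) : Zb)))⁻¹ := by
    rw [← map_inv₀ (algebraMap Kb (FN (M1 * q)))]; rfl
  rw [h3, div_eq_mul_inv, ← mul_assoc, inv_mul_cancel₀, one_mul]
  rw [Ne, map_eq_zero]
  exact hc0

theorem inv_natCast_mem (A : ValuationSubring Kb) {l : ℕ} (hl : l.Prime) (hA : A.LiesOverPrime l)
    {n : ℕ} (hn : ¬ l ∣ n) : ((n : Kb))⁻¹ ∈ A := by
  have h := Arch.isUnit_intCast A hl hA (m := (n : ℤ)) (by exact_mod_cast hn)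
  obtain ⟨u, hu⟩ := h
  have h1 : ((u⁻¹ : (↥A)ˣ) : Kb) = ((n : Kb))⁻¹ := by
    have h2 : ((u : A) : Kb) = (n : Kb) := by rw [hu]; simp
    rw [← h2]
    have h3 : ((u : A) : Kb) * ((u⁻¹ : (↥A)ˣ) : A) = 1 := by
      have h4 : (u : A) * ((u⁻¹ : (↥A)ˣ) : A) = 1 := u.mul_inv
      exact congrArg (Subtype.val) h4
    exact eq_inv_of_mul_eq_one_right h3
  rw [← h1]
  exact ((u⁻¹ : (↥A)ˣ) : A).2

end Fermat.Agent.S34.Mod
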