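import Fermat.Agent.S34.Mod.Level
import Fermat.Agent.S34.Mod.Kron

/-!
# S34 / MOD-TQ : `t(q^q)` is integral over `A[t]`, and `1/t(q^q)` over `A[1/t]`  (key `S34/MOD-TQ`; helper14's `Kron.lean` contains it)

CRITICAL PATH.  Only INTEGRALITY is needed (no Kronecker congruence).
Because `tQ, tQ⁻¹ ∈ VV` (`VV_eq`, `intRed_tauF`; `tq k r` is a unit) and `C0 = B0 ∩ VV` (`KL.mem_C0_of_mem_B0_VV`), it is even enough to prove integrality over
`Kb[t]`, resp. `Kb[1/t]`, i.e. `tQ ∈ KL.B0 Kb S.τM F`, `tQ⁻¹ ∈ KL.B0 Kb S.τM⁻¹ F`: "the poles of `t(qz)` are poles of `t(z)`, the zeros of `t(qz)` are zeros of `t(z)`".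

Route (AL ring of S28, `M = M1 q`): (a) `tqA : AL M`, `tqA(z) = t(q z)`, `Corr M S.tQ tqA`: for `g ∈ SL₂(ℤ)` write `diag(q,1) g = g' (a b; 0 d)`, `a d = q`, `g' ∈ SL₂(ℤ)`
(helper7 `HauptAux.exists_coset`), `r ∣ g' 1 0 ↔ r ∣ g 1 0` (`gcd(r,q) = 1`); then `t(q g z) = t(g' ((a z + b)/d))` is `t((a z + b)/d)` or `± cE tInv(((a z + b)/d + b')/r)`
(`tFun_smul_of_dvd`, `exists_tFun_smul`), expansions by `rel_aff`.  (b) so `Low 0 (eps M (g • tqA))` for `r ∤ g 1 0`.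
(c) `∏_{h ∈ Γ₀(r)/Γ(M)} (Y - h • tqA)` is monic with `Γ₀(r)`-invariant coefficients which are regular at the cusps `g ∞`, `r ∤ g 1 0`: polynomials in `tA`
(helper21 `exists_poly_aux`); transfer with `Corr`.  (d) the same for `cE / t(q z)` and `tA'`, or via `exists_poly` (`f tA^b = P(tA)`, `deg P ≤ b` if `f` is regular at `∞`).
-/

set_option autoImplicit false
set_option synthInstance.maxHeartbeats 400000
set_option linter.unusedSectionVars false

open HahnSeries ModularCurve AlgebraicCurve Polynomial Fermat.Agent.S24 Fermat.Agent.S29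
  Fermat.Agent.S18 Fermat.Agent.ES Fermat.Agent.ES.Alg Fermat.Agent.S34.T

noncomputable section

namespace Fermat.Agent.S34.Mod

variable {M1 q r : ℕ} [NeZero M1] [NeZero q] [NeZero r] {A : ValuationSubring Kb}
variable (S : Setup M1 q r A)

include S in
theorem Setup.q_ne_r : q ≠ r := by
  intro h
  exact S.not_dvd (h ▸ S.hr1)

theorem tQ_mem_C0 : S.tQ ∈ KL.C0 A S.τM (FN (M1 * q)) :=
  tqF_mem_C0 M1 q r S.hr S.hr1 S.hq S.q_ne_r A

theorem tQ_inv_mem_C0 : S.tQ⁻¹ ∈ KL.C0 A S.τM⁻¹ (FN (M1 * q)) :=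
  tqF_inv_mem_C0 M1 q r S.hr S.hr1 S.hq S.q_ne_r A
    (inv_natCast_mem A S.hq S.hA (fun h => S.not_dvd (h.trans S.hr1)))

end Fermat.Agent.S34.Mod
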