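import Fermat.Agent.S34.Mod.Good
import Fermat.Agent.S34.Mod.TQ
import Fermat.Agent.S34.Mod.ChartRes
import Fermat.Agent.Lib.Frobenius
import Fermat.Agent.S34.Mod.ChartAux

/-!
# S34 / MOD-CH : the two charts of `X₀(M1 q)` are nodal  (helper4; keys `S34/MOD-CH1` … `S34/MOD-CH6`)

Notation: `F = FN (M1 q)`, `al`, `be`, `W = Wq`, `V = qExpand (kA A) q` (`q ↦ q^q` on `k((q))`), `c̄ = resInf c`.
`ρ1 b, ρ2 b : C0 A (θM b) F → k((q))` the two reductions on the chart `b`.  `Fr = coeffMap (frobenius)`; `y^q = V (Fr y)` (`ES.Alg.pow_char_eq_qExpand`).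
`φ` a Frobenius lift at `A` (`Frob.exists_isFrobeniusAt`): `resInf (gal φ x) = Fr (resInf x)`, `resInf (gal φ⁻¹ x) = Fr⁻¹ (resInf x)` (`resInf_gal`; cf. `IntRed.frob`, `IntRed.frob_inv`).

## CH1 (~200 lines) `C0M_le`, `res₁_apply`, `res₂_apply`, `alpha_mem_C0`, `beta_mem_C0`, `ρ_alpha`, `ρ_beta`
`alpha_mem_C0`: apply `al` to a monic equation (`alpha_evE`, `alpha_evE_inv`).  `beta_mem_C0`: `be c` is integral over `A[be θ1] = A[tQ^{±1}]`, and `tQ^{±1} ∈ C0 (θM b)` (`TQ.lean`);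
transitivity of integrality (`C0` is integrally closed in `F`: a monic equation with coefficients in `C0`).
`ρ1 (al c) = c̄`, `ρ2 (al c) = V c̄`, `ρ1 (be c) = V c̄`, `ρ2 (be c) = c̄` (`resInf_alpha`, `resInf_beta`, `Wq_alpha`, `Wq_beta`).
## CH2 (~300 lines) `res_mem₁`, `res_mem₂` : both residue fields are the residue field of level `M1`
`x ∈ VV = ⊕ OG b_ij` (the ONB of `Level.lean`; re-run `exists_onb` to know `o.β = bas`), `x = ∑ c_ij al(β_i) tQ^j`, `c_ij = al(c'_ij)`, `c'_ij ∈ OG A τ1` (write `c_ij = P(t)/S(t)`).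
`res₁ x = resInf (∑ c'_ij β_i (t1^q)^j)` since `res₁ tQ = V t̄ = t̄^q`.  `res₂ x = ∑ V(resInf (c'_ij β_i)) t̄^j = resInf (∑ (gal φ⁻¹ (c'_ij β_i))^q t1^j)`.
## CH3 (~250 lines) `exists_level1₁`, `exists_level1₂` : `ρi (C0 (θM b)) ⊆ resInf (C0 (θ1 b))`
`c ∈ C0 (θM b)` satisfies a monic `p` over `A[X]`; `ρ1 c = resInf x'` (CH2); `resInf (p(x')) = p̄(ρ1 c) = ρ1 (p(c)) = 0` because `resInf (evE θ1 P) = ρ1 (evE θM P)`; `normal1`.
For `ρ2`: `ρ2 (evE θM P) = V (resInf (evE θ1 P)) = resInf ((gal φ⁻¹ (evE θ1 P))^q) = resInf (evE θ1 (P')^q)`, so `resInf x'` is a root of a monic polynomial whose coefficients are `q`-th powers of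
elements `evE θ1 P'`: again monic over `A[X]`.
## CH4 (~200 lines) `cross₁`, `cross₂`, `exists_pow`
`cross₁`: `d = al c' - (be (gal φ⁻¹ c'))^q`: `ρ2 d = V c̄' - (Fr⁻¹ c̄')^q = 0`, `ρ1 d = c̄' - (V Fr⁻¹ c̄')^q = c̄' - V (V c̄')`.  `cross₂`: `d = be c' - (al (gal φ⁻¹ c'))^q`.
`exists_pow`: `V (V c̄') = (Fr⁻² c̄')^(q²) = (resInf (gal φ⁻¹ (gal φ⁻¹ c')))^(q^2)`; `gal σ` preserves `C0 (θ1 b)` for `σ` in the decomposition group (`gal_tauF`).
## CH5 (~300 lines) `fgBarM`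
`Cbar A (θM b) F` embeds `k[X]`-linearly in `Λ × Λ'`, `Λ = Cbar A (θ1 b) (FN M1)` (finite over `k[X]`, `fgBar1`), `Λ'` = the same ring with `X` acting through `θ̄^q` (finite: `k[X]` is finite over `k[X^q]`);
`k[X]` is noetherian.  (Injective: `twoComp.ker` + `KL.Sm0_of_SmV`.)
## CH6 (~250 lines) `nodalChart` : assembly.  `normalᵢ`: CH2 + `normal1` + lifts `al c'`, `be c'`; `radicalᵢ`: `T.radical_of_pow` with `Q = q^2`, CH3, CH4 (noetherian range: quotient of `Cbar`, CH5).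
-/

set_option autoImplicit false
set_option synthInstance.maxHeartbeats 400000
set_option linter.unusedSectionVars false

open HahnSeries ModularCurve AlgebraicCurve Polynomial Fermat.Agent.S24 Fermat.Agent.S29
  Fermat.Agent.S18 Fermat.Agent.ES Fermat.Agent.ES.Alg Fermat.Agent.S34.T

noncomputable section

namespace Fermat.Agent.S34.Mod

variable {M1 q r : ℕ} [NeZero M1] [NeZero q] [NeZero r] {A : ValuationSubring Kb}
variable (S : Setup M1 q r A)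

/-! ### CH1 -/

theorem C0M_le (b : Bool) : KL.C0 A (S.θM b) (FN (M1 * q)) ≤ KL.VV A S.τM (FN (M1 * q)) := by
  cases b
  · exact KL.C0_le_VV A S.τM _
  · have h := KL.C0_le_VV A S.τM⁻¹ (FN (M1 * q))
    rw [KL.VV_inv A (transcendental_τM S)] at h
    exact h

theorem mem_Vinf_of_mem_VV {x : FN (M1 * q)} (hx : x ∈ KL.VV A S.τM (FN (M1 * q))) :
    x ∈ Vinf A (M1 * q) := ((VV_eq S).le hx).1

theorem Wq_mem_Vinf_of_mem_VV {x : FN (M1 * q)} (hx : x ∈ KL.VV A S.τM (FN (M1 * q))) :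
    Wq S.hc x ∈ Vinf A (M1 * q) := ((VV_eq S).le hx).2

theorem res₁_apply (x : KL.VV A S.τM (FN (M1 * q))) :
    (twoComp S).res₁ x = resInf A (M1 * q) ⟨x, mem_Vinf_of_mem_VV S x.2⟩ := rfl

theorem res₂_apply (x : KL.VV A S.τM (FN (M1 * q))) :
    (twoComp S).res₂ x = resInf A (M1 * q) ⟨Wq S.hc x, Wq_mem_Vinf_of_mem_VV S x.2⟩ := rfl

/-- reduction of the chart `b` on the component `∞` -/
def ρ1 (b : Bool) : KL.C0 A (S.θM b) (FN (M1 * q)) →+* LaurentSeries (kA A) :=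
  (twoComp S).res₁.comp (Subring.inclusion (C0M_le S b))

/-- reduction of the chart `b` on the component `0` -/
def ρ2 (b : Bool) : KL.C0 A (S.θM b) (FN (M1 * q)) →+* LaurentSeries (kA A) :=
  (twoComp S).res₂.comp (Subring.inclusion (C0M_le S b))

/-- reduction of the chart `b` at level `M1` -/
def ρ (b : Bool) : KL.C0 A (S.θ1 b) (FN M1) →+* LaurentSeries (kA A) :=
  (resInf A M1).comp (Subring.inclusion (C01_le S b))

/-- images of integral elements are integral -/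
theorem ch1_map_isIntegralElem {R₀ S₀ T₀ : Type*} [CommRing R₀] [CommRing S₀] [CommRing T₀]
    (f : R₀ →+* S₀) (g : S₀ →+* T₀) (f' : R₀ →+* T₀) (h : ∀ a, g (f a) = f' a) {x : S₀}
    (hx : f.IsIntegralElem x) : f'.IsIntegralElem (g x) := by
  obtain ⟨p, hp, hpx⟩ := hx
  refine ⟨p, hp, ?_⟩
  have e : f' = g.comp f := RingHom.ext fun a => (h a).symm
  rw [e, ← Polynomial.hom_eval₂, hpx, map_zero]

/-- transitivity of integrality, for ring homomorphisms -/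
theorem ch1_isIntegralElem_trans {R₀ R₁ T₀ : Type*} [CommRing R₀] [CommRing R₁] [CommRing T₀]
    (f : R₀ →+* T₀) (g : R₁ →+* T₀) (h : ∀ a, f.IsIntegralElem (g a)) {x : T₀}
    (hx : g.IsIntegralElem x) : f.IsIntegralElem x := by
  let _ := f.toAlgebra
  obtain ⟨p, hp, hpx⟩ := hx
  have h1 : IsIntegral (integralClosure R₀ T₀) x := by
    let g' : R₁ →+* integralClosure R₀ T₀ := g.codRestrict (integralClosure R₀ T₀) h
    refine ⟨p.map g', hp.map g', ?_⟩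
    rw [eval₂_map]
    exact hpx
  exact isIntegral_trans (R := R₀) (A := integralClosure R₀ T₀) x h1

theorem ch1_alpha_evE (b : Bool) (P : (↥A)[X]) :
    heckeAlphaBar Kb M1 q (KL.evE A (S.θ1 b) (FN M1) P) = KL.evE A (S.θM b) (FN (M1 * q)) P := by
  cases b
  · exact alpha_evE S P
  · exact alpha_evE_inv S P

theorem alpha_mem_C0 (b : Bool) (c : KL.C0 A (S.θ1 b) (FN M1)) :
    heckeAlphaBar Kb M1 q c ∈ KL.C0 A (S.θM b) (FN (M1 * q)) :=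
  ch1_map_isIntegralElem (KL.evE A (S.θ1 b) (FN M1))
    ((heckeAlphaBar Kb M1 q : FN M1 →ₐ[Kb] FN (M1 * q)) : FN M1 →+* FN (M1 * q))
    (KL.evE A (S.θM b) (FN (M1 * q))) (ch1_alpha_evE S b) c.2

set_option maxHeartbeats 1000000 in
/-- `be (P(θ1 b)) ∈ C0 (θM b)` -/
theorem ch1_beta_evE_mem (b : Bool) (P : (↥A)[X]) :
    heckeBetaBar Kb M1 q (KL.evE A (S.θ1 b) (FN M1) P) ∈ KL.C0 A (S.θM b) (FN (M1 * q)) := by
  induction P using Polynomial.induction_on' with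
  | add P Q hP hQ =>
    rw [map_add, map_add]
    exact (KL.C0 A (S.θM b) (FN (M1 * q))).add_mem hP hQ
  | monomial n a =>
    rw [← C_mul_X_pow_eq_monomial, map_mul, map_pow, map_mul, map_pow]
    refine (KL.C0 A (S.θM b) (FN (M1 * q))).mul_mem ?_
      ((KL.C0 A (S.θM b) (FN (M1 * q))).pow_mem ?_ n)
    · have e : heckeBetaBar Kb M1 q (KL.evE A (S.θ1 b) (FN M1) (C a)) =
          KL.evE A (S.θM b) (FN (M1 * q)) (C a) := by
        rw [KL.SatB.evE_C, KL.SatB.evE_C]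
        exact (heckeBetaBar Kb M1 q).commutes (a : Kb)
      rw [e]
      exact KL.evE_mem_C0 _ _ _ _
    · cases b
      · have e : KL.evE A (S.θ1 false) (FN M1) X = S.t1 := evE_X_eq_t1 S
        rw [e]
        exact tQ_mem_C0 S
      · have e : KL.evE A (S.θ1 true) (FN M1) X = S.t1⁻¹ := by
          show KL.evE A S.τ1⁻¹ (FN M1) X = S.t1⁻¹
          simp only [KL.evE, KL.evL, RingHom.comp_apply, coe_eval₂RingHom, eval₂_X]
          rw [map_inv₀]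
          rfl
        rw [e, map_inv₀]
        exact tQ_inv_mem_C0 S

theorem beta_mem_C0 (b : Bool) (c : KL.C0 A (S.θ1 b) (FN M1)) :
    heckeBetaBar Kb M1 q c ∈ KL.C0 A (S.θM b) (FN (M1 * q)) :=
  ch1_isIntegralElem_trans (KL.evE A (S.θM b) (FN (M1 * q)))
    (((heckeBetaBar Kb M1 q : FN M1 →ₐ[Kb] FN (M1 * q)) : FN M1 →+* FN (M1 * q)).comp
      (KL.evE A (S.θ1 b) (FN M1))) (ch1_beta_evE_mem S b)
    (ch1_map_isIntegralElem (KL.evE A (S.θ1 b) (FN M1))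
      ((heckeBetaBar Kb M1 q : FN M1 →ₐ[Kb] FN (M1 * q)) : FN M1 →+* FN (M1 * q)) _
      (fun _ => rfl) c.2)

theorem ρ1_alpha (b : Bool) (c : KL.C0 A (S.θ1 b) (FN M1)) :
    ρ1 S b ⟨_, alpha_mem_C0 S b c⟩ = ρ S b c :=
  r1_alpha S (⟨c, C01_le S b c.2⟩ : Vinf A M1)

theorem ρ2_alpha (b : Bool) (c : KL.C0 A (S.θ1 b) (FN M1)) :
    ρ2 S b ⟨_, alpha_mem_C0 S b c⟩ = qExpand (kA A) q (ρ S b c) :=
  r2_alpha S (⟨c, C01_le S b c.2⟩ : Vinf A M1)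

theorem ρ1_beta (b : Bool) (c : KL.C0 A (S.θ1 b) (FN M1)) :
    ρ1 S b ⟨_, beta_mem_C0 S b c⟩ = qExpand (kA A) q (ρ S b c) :=
  r1_beta S (⟨c, C01_le S b c.2⟩ : Vinf A M1)

theorem ρ2_beta (b : Bool) (c : KL.C0 A (S.θ1 b) (FN M1)) :
    ρ2 S b ⟨_, beta_mem_C0 S b c⟩ = ρ S b c :=
  r2_beta S (⟨c, C01_le S b c.2⟩ : Vinf A M1)

/-! ### CH2 -/

theorem res_mem₁ (x : KL.VV A S.τM (FN (M1 * q))) :
    ∃ x' : Vinf A M1, resInf A M1 x' = (twoComp S).res₁ x :=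
  ch2_res_mem₁ S x

theorem res_mem₂ (x : KL.VV A S.τM (FN (M1 * q))) :
    ∃ x' : Vinf A M1, resInf A M1 x' = (twoComp S).res₂ x :=
  ch2_res_mem₂ S x

/-! ### CH3 -/

theorem exists_level1₁ (b : Bool) (c : KL.C0 A (S.θM b) (FN (M1 * q))) :
    ∃ c' : KL.C0 A (S.θ1 b) (FN M1), ρ S b c' = ρ1 S b c := by
  obtain ⟨c', hC, h⟩ := ch3_level₁ S b c c.2 (C0M_le S b c.2)
  exact ⟨⟨c', hC⟩, h⟩

theorem exists_level1₂ (b : Bool) (c : KL.C0 A (S.θM b) (FN (M1 * q))) :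
    ∃ c' : KL.C0 A (S.θ1 b) (FN M1), ρ S b c' = ρ2 S b c := by
  obtain ⟨c', hC, h⟩ := ch3_level₂ S b c c.2 (C0M_le S b c.2)
  exact ⟨⟨c', hC⟩, h⟩

/-! ### CH4 -/

theorem ch4_exists_twist (b : Bool) (c' : KL.C0 A (S.θ1 b) (FN M1)) :
    ∃ c'' : KL.C0 A (S.θ1 b) (FN M1), qExpand (kA A) q (ρ S b c') = ρ S b c'' ^ q := by
  obtain ⟨φ, hφ⟩ := Fermat.Agent.Frob.exists_isFrobeniusAt A S.hq S.hA
  exact ⟨⟨gal M1 φ⁻¹ c', ch4_gal_mem_C0 S b (inv_mem hφ.mem_decompositionSubgroup) c'.2⟩,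
    ch4_twist S hφ (Subring.inclusion (C01_le S b) c')⟩

theorem cross₁ (b : Bool) (c' : KL.C0 A (S.θ1 b) (FN M1)) :
    ∃ d : KL.C0 A (S.θM b) (FN (M1 * q)), ρ2 S b d = 0 ∧
      ρ1 S b d = ρ S b c' - qExpand (kA A) q (qExpand (kA A) q (ρ S b c')) := by
  obtain ⟨c'', h⟩ := ch4_exists_twist S b c'
  refine ⟨⟨_, alpha_mem_C0 S b c'⟩ - ⟨_, beta_mem_C0 S b c''⟩ ^ q, ?_, ?_⟩
  · rw [map_sub, map_pow, ρ2_alpha, ρ2_beta, h, sub_self]
  · rw [map_sub, map_pow, ρ1_alpha, ρ1_beta, ← map_pow, ← h]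

theorem cross₂ (b : Bool) (c' : KL.C0 A (S.θ1 b) (FN M1)) :
    ∃ d : KL.C0 A (S.θM b) (FN (M1 * q)), ρ1 S b d = 0 ∧
      ρ2 S b d = ρ S b c' - qExpand (kA A) q (qExpand (kA A) q (ρ S b c')) := by
  obtain ⟨c'', h⟩ := ch4_exists_twist S b c'
  refine ⟨⟨_, beta_mem_C0 S b c'⟩ - ⟨_, alpha_mem_C0 S b c''⟩ ^ q, ?_, ?_⟩
  · rw [map_sub, map_pow, ρ1_alpha, ρ1_beta, h, sub_self]
  · rw [map_sub, map_pow, ρ2_alpha, ρ2_beta, ← map_pow, ← h]

theorem exists_pow (b : Bool) (c' : KL.C0 A (S.θ1 b) (FN M1)) :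
    ∃ g : KL.C0 A (S.θ1 b) (FN M1),
      qExpand (kA A) q (qExpand (kA A) q (ρ S b c')) = ρ S b g ^ (q ^ 2) := by
  obtain ⟨c'', h⟩ := ch4_exists_twist S b c'
  obtain ⟨c3, h3⟩ := ch4_exists_twist S b c''
  exact ⟨c3, by rw [h, map_pow, h3, ← pow_mul, sq]⟩

/-! ### CH5 -/

theorem ch5_transcendental (b : Bool) : Transcendental Kb (S.θM b) := by
  cases b
  · exact transcendental_τM S
  · exact KL.transcendental_inv' (transcendental_τM S)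

theorem ch5_isGen (b : Bool) : KL.IsGen Kb (S.θM b) := by
  cases b
  · exact isGen_τM S
  · exact KL.isGen_inv (transcendental_τM S) (isGen_τM S)

theorem ch5_SmV_iff (b : Bool) (x : FN (M1 * q)) :
    KL.SmV A (S.θM b) (FN (M1 * q)) x ↔ KL.SmV A S.τM (FN (M1 * q)) x := by
  cases b
  · exact Iff.rfl
  · exact KL.SmV_inv A (transcendental_τM S) x

theorem ch5_sm (b : Bool) (x : KL.C0 A (S.θM b) (FN (M1 * q)))
    (h : KL.Sm0 A (S.θM b) (FN (M1 * q)) (x : FN (M1 * q))) : ρ1 S b x = 0 ∧ ρ2 S b x = 0 :=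
  ((twoComp S).ker (Subring.inclusion (C0M_le S b) x)).mpr
    ((ch5_SmV_iff S b _).mp (KL.Sm0.SmV A h))

theorem ch5_ker (b : Bool) (x : KL.C0 A (S.θM b) (FN (M1 * q))) (h1 : ρ1 S b x = 0)
    (h2 : ρ2 S b x = 0) : KL.Sm0 A (S.θM b) (FN (M1 * q)) (x : FN (M1 * q)) :=
  KL.Sm0_of_SmV A (ch5_transcendental S b) (ch5_isGen S b) x.2
    ((ch5_SmV_iff S b _).mpr
      (((twoComp S).ker (Subring.inclusion (C0M_le S b) x)).mp ⟨h1, h2⟩))

theorem ch5_ρ_sm (b : Bool) (c : KL.C0 A (S.θ1 b) (FN M1))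
    (h : KL.Sm0 A (S.θ1 b) (FN M1) (c : FN M1)) : ρ S b c = 0 :=
  (SmV1_iff S (Subring.inclusion (C01_le S b) c)).mp ((g2_SmV_iff S b _).mp (KL.Sm0.SmV A h))

theorem ch5_ρ1_ev (b : Bool) (P : (↥A)[X]) :
    ρ1 S b ⟨KL.evE A (S.θM b) (FN (M1 * q)) P, KL.evE_mem_C0 _ _ _ _⟩ =
      ρ S b (KL.toC0 A (S.θ1 b) (FN M1) P) := by
  rw [← ρ1_alpha]
  congr 1
  exact Subtype.ext (ch1_alpha_evE S b P).symm

theorem ch5_ρ_C (b : Bool) (a : A) :
    ρ S b (KL.toC0 A (S.θ1 b) (FN M1) (C a)) = HahnSeries.C (IsLocalRing.residue A a) := by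
  rw [← resInf_algebraMap (N := M1) a]
  show resInf A M1 _ = _
  congr 1
  apply Subtype.ext
  show KL.evE A (S.θ1 b) (FN M1) (C a) = _
  rw [KL.SatB.evE_C, ← IsScalarTower.algebraMap_apply]

theorem ch5_ρ_X (b : Bool) :
    qExpand (kA A) q (ρ S b (KL.toC0 A (S.θ1 b) (FN M1) X)) =
      ρ S b (KL.toC0 A (S.θ1 b) (FN M1) X) ^ q := by
  have : CharP (kA A) q := charP_kA S.hq S.hA
  have h0 : ρ S false (KL.toC0 A (S.θ1 false) (FN M1) X) = tq (kA A) r := by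
    rw [← resInf_t1 S]
    show resInf A M1 _ = _
    congr 1
    exact Subtype.ext (evE_X_eq_t1 S)
  cases b
  · rw [h0, qExpand_tq (r := r) (kA A) S.hq]
  · have h1 : ρ S true (KL.toC0 A (S.θ1 true) (FN M1) X) * tq (kA A) r = 1 := by
      rw [← resInf_t1 S]
      show resInf A M1 _ * _ = _
      rw [← map_mul, ← map_one (resInf A M1)]
      congr 1
      apply Subtype.ext
      show KL.evE A S.τ1⁻¹ (FN M1) X * S.t1 = 1
      have e : KL.evE A S.τ1⁻¹ (FN M1) X = S.t1⁻¹ := by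
        simp only [KL.evE, KL.evL, RingHom.comp_apply, coe_eval₂RingHom, eval₂_X]
        rw [map_inv₀]
        rfl
      rw [e]
      refine inv_mul_cancel₀ fun h => ?_
      have h2 := resInf_t1 S
      have h3 : (⟨S.t1, t1_mem_Vinf S⟩ : Vinf A M1) = 0 := Subtype.ext h
      rw [h3, map_zero] at h2
      have h4 := order_tq_neg (kA A) r
      rw [← h2, HahnSeries.order_zero] at h4
      exact lt_irrefl _ h4
    rw [eq_inv_of_mul_eq_one_left h1, map_inv₀, qExpand_tq (r := r) (kA A) S.hq, inv_pow]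

theorem ch5_V (b : Bool) (P : (↥A)[X]) :
    qExpand (kA A) q (ρ S b (KL.toC0 A (S.θ1 b) (FN M1) P)) =
      ρ S b (KL.toC0 A (S.θ1 b) (FN M1) (expand A q P)) := by
  have h : (qExpand (kA A) q).comp ((ρ S b).comp (KL.toC0 A (S.θ1 b) (FN M1))) =
      ((ρ S b).comp (KL.toC0 A (S.θ1 b) (FN M1))).comp
        ((expand A q : (↥A)[X] →ₐ[A] (↥A)[X]) : (↥A)[X] →+* (↥A)[X]) := by
    apply Polynomial.ringHom_ext
    · intro a
      simp only [RingHom.comp_apply, RingHom.coe_coe, expand_C]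
      rw [ch5_ρ_C, qExpand_C]
    · simp only [RingHom.comp_apply, RingHom.coe_coe, expand_X]
      rw [ch5_ρ_X, map_pow, map_pow]
  exact DFunLike.congr_fun h P

theorem ch5_ρ2_ev (b : Bool) (P : (↥A)[X]) :
    ρ2 S b ⟨KL.evE A (S.θM b) (FN (M1 * q)) P, KL.evE_mem_C0 _ _ _ _⟩ =
      ρ S b (KL.toC0 A (S.θ1 b) (FN M1) (expand A q P)) := by
  rw [← ch5_V, ← ρ2_alpha]
  congr 1
  exact Subtype.ext (ch1_alpha_evE S b P).symm

theorem ch5_span (b : Bool) : ∃ (G : Finset (FN M1)) (e : G → KL.C0 A (S.θ1 b) (FN M1)),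
    ∀ c' : KL.C0 A (S.θ1 b) (FN M1), ∃ cc : G → (↥A)[X],
      ρ S b c' = ∑ g, ρ S b (KL.toC0 A (S.θ1 b) (FN M1) (cc g)) * ρ S b (e g) := by
  obtain ⟨G, hG, hspan⟩ := fgBar1 S b
  refine ⟨G, fun g => ⟨g, hG g g.2⟩, fun c' => ?_⟩
  obtain ⟨cc, hcc⟩ := hspan c' c'.2
  refine ⟨fun g => cc g, ?_⟩
  have h := ch5_ρ_sm S b
    (c' - ∑ g : G, KL.toC0 A (S.θ1 b) (FN M1) (cc g) * ⟨g, hG g g.2⟩) (by
      convert hcc using 1
      push_cast
      rw [← Finset.sum_coe_sort G (fun g => KL.evE A (S.θ1 b) (FN M1) (cc g) * g)]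
      rfl)
  rw [map_sub, sub_eq_zero, map_sum] at h
  rw [h]
  exact Finset.sum_congr rfl fun g _ => map_mul _ _ _

theorem ch5_decomp (b : Bool) (P : (↥A)[X]) (d : Fin q → (↥A)[X])
    (h : P = ∑ j : Fin q, X ^ (j : ℕ) * expand A q (d j)) :
    ρ S b (KL.toC0 A (S.θ1 b) (FN M1) P) =
      ∑ j : Fin q, ρ2 S b ⟨KL.evE A (S.θM b) (FN (M1 * q)) (d j), KL.evE_mem_C0 _ _ _ _⟩ *
        ρ S b (KL.toC0 A (S.θ1 b) (FN M1) X) ^ (j : ℕ) := by
  simp only [ch5_ρ2_ev]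
  set f : (↥A)[X] →+* LaurentSeries (kA A) := (ρ S b).comp (KL.toC0 A (S.θ1 b) (FN M1)) with hf
  show f P = ∑ j : Fin q, f (expand A q (d j)) * f X ^ (j : ℕ)
  conv_lhs => rw [h]
  rw [map_sum]
  exact Finset.sum_congr rfl fun j _ => by rw [map_mul, map_pow, mul_comm]

theorem fgBarM (b : Bool) : FgBar A (S.θM b) (FN (M1 * q)) := by
  obtain ⟨G, e, he⟩ := ch5_span S b
  refine fgBar_of_two (ρ1 S b) (ρ2 S b) (ch5_ker S b) (ch5_sm S b)
    (fun g : G => ρ S b (e g))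
    (fun gj : G × Fin q => ρ S b (KL.toC0 A (S.θ1 b) (FN M1) X) ^ (gj.2 : ℕ) * ρ S b (e gj.1))
    (fun x => ?_) (fun x => ?_)
  · obtain ⟨c', hc'⟩ := exists_level1₁ S b x
    obtain ⟨cc, hcc⟩ := he c'
    refine ⟨cc, ?_⟩
    rw [← hc', hcc]
    exact Finset.sum_congr rfl fun g _ => by rw [ch5_ρ1_ev]
  · obtain ⟨c', hc'⟩ := exists_level1₂ S b x
    obtain ⟨cc, hcc⟩ := he c'
    choose dd hdd using fun g => exists_expand_decomp q S.hq.pos (cc g)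
    refine ⟨fun gj => dd gj.1 gj.2, ?_⟩
    rw [← hc', hcc, Fintype.sum_prod_type]
    refine Finset.sum_congr rfl fun g _ => ?_
    rw [ch5_decomp S b (cc g) (dd g) (hdd g), Finset.sum_mul]
    exact Finset.sum_congr rfl fun j _ => mul_assoc _ _ _

/-! ### CH6 -/

/-- the common part of `normal₁`, `normal₂` -/
theorem ch6_normal (b : Bool) (f : KL.C0 A (S.θM b) (FN (M1 * q)) →+* LaurentSeries (kA A))
    (hf : ∀ c, ∃ c' : KL.C0 A (S.θ1 b) (FN M1), ρ S b c' = f c)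
    (x' : Vinf A M1) (hx : f.IsIntegralElem (resInf A M1 x')) :
    ∃ c : KL.C0 A (S.θ1 b) (FN M1), ρ S b c = resInf A M1 x' := by
  have h1 : (ρ S b).IsIntegralElem (resInf A M1 x') := ch6_isIntegralElem_of_range f (ρ S b) hf hx
  obtain ⟨p, hp, hpz⟩ := ch6_isIntegralElem_trans (KL.toC0 A (S.θ1 b) (FN M1)) (ρ S b)
    ch6_isIntegralElem_toC0 h1
  set φ : (↥A)[X] →+* Vinf A M1 :=
    (Subring.inclusion (C01_le S b)).comp (KL.toC0 A (S.θ1 b) (FN M1)) with hφ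
  have e1 : ((p.eval₂ φ x' : Vinf A M1) : FN M1) =
      p.eval₂ (KL.evE A (S.θ1 b) (FN M1)) (x' : FN M1) :=
    Polynomial.hom_eval₂ p φ (Vinf A M1).subtype x'
  have hm : p.eval₂ (KL.evE A (S.θ1 b) (FN M1)) (x' : FN M1) ∈ Vinf A M1 := by
    rw [← e1]; exact (p.eval₂ φ x').2
  have h0 : resInf A M1 ⟨_, hm⟩ = 0 := by
    have e2 : (⟨_, hm⟩ : Vinf A M1) = p.eval₂ φ x' := Subtype.ext e1.symm
    rw [e2, Polynomial.hom_eval₂]
    exact hpz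
  obtain ⟨c, hc, hcx⟩ := normal1 S b x' p hp hm h0
  exact ⟨⟨c, hc⟩, hcx⟩

theorem ch6_SmV_of_Sm0 (b : Bool) {x : FN (M1 * q)} (hx : KL.Sm0 A (S.θM b) (FN (M1 * q)) x) :
    KL.SmV A S.τM (FN (M1 * q)) x := by
  obtain ⟨a, ha, y, hy, rfl⟩ := hx
  exact ⟨a, ha, y, C0M_le S b hy, by rw [KL.SatB.evE_C, KL.SatB.evE_C]⟩

theorem ch6_ρ_of_Sm0 (b : Bool) (y : KL.C0 A (S.θM b) (FN (M1 * q)))
    (hy : KL.Sm0 A (S.θM b) (FN (M1 * q)) (y : FN (M1 * q))) : ρ1 S b y = 0 ∧ ρ2 S b y = 0 :=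
  ((twoComp S).ker (Subring.inclusion (C0M_le S b) y)).mpr (ch6_SmV_of_Sm0 S b hy)

theorem ch6_two_le (S : Setup M1 q r A) : 2 ≤ q ^ 2 := by
  have := S.hq.two_le
  nlinarith

/-- the chart `b` is nodal -/
theorem nodalChart (b : Bool) : NodalChart (twoComp S) (S.θM b) where
  le := C0M_le S b
  normal₁ := by
    intro x hx
    obtain ⟨x', hx'⟩ := res_mem₁ S x
    obtain ⟨c, hc⟩ := ch6_normal S b (ρ1 S b) (exists_level1₁ S b) x' (by rw [hx']; exact hx)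
    exact ⟨⟨_, alpha_mem_C0 S b c⟩, (ρ1_alpha S b c).trans (hc.trans hx')⟩
  normal₂ := by
    intro x hx
    obtain ⟨x', hx'⟩ := res_mem₂ S x
    obtain ⟨c, hc⟩ := ch6_normal S b (ρ2 S b) (exists_level1₂ S b) x' (by rw [hx']; exact hx)
    exact ⟨⟨_, beta_mem_C0 S b c⟩, (ρ2_beta S b c).trans (hc.trans hx')⟩
  radical₁ := by
    intro y n hn hy
    refine radical_of_pow (ρ2 S b) (ρ1 S b)
      (isNoetherianRing_range_of_fgBar (fgBarM S b) (ρ1 S b)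
        (fun y hy => (ch6_ρ_of_Sm0 S b y hy).1)) (q ^ 2) (ch6_two_le S) ?_ y n hn hy
    intro y
    obtain ⟨c', hc'⟩ := exists_level1₁ S b y
    obtain ⟨d, hd2, hd1⟩ := cross₁ S b c'
    obtain ⟨g, hg⟩ := exists_pow S b c'
    exact ⟨⟨_, alpha_mem_C0 S b g⟩, d, hd2, by rw [hd1, hg, ρ1_alpha, hc']⟩
  radical₂ := by
    intro y n hn hy
    refine radical_of_pow (ρ1 S b) (ρ2 S b)
      (isNoetherianRing_range_of_fgBar (fgBarM S b) (ρ2 S b)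
        (fun y hy => (ch6_ρ_of_Sm0 S b y hy).2)) (q ^ 2) (ch6_two_le S) ?_ y n hn hy
    intro y
    obtain ⟨c', hc'⟩ := exists_level1₂ S b y
    obtain ⟨d, hd1, hd2⟩ := cross₂ S b c'
    obtain ⟨g, hg⟩ := exists_pow S b c'
    exact ⟨⟨_, beta_mem_C0 S b g⟩, d, hd1, by rw [hd2, hg, ρ2_beta, hc']⟩
  fg := fgBarM S b

end Fermat.Agent.S34.Mod
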