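import Fermat.Agent.S18.Haupt
import Fermat.Agent.S18.ModInvHaupt

/-!
# S34 / MOD-K, part 1 : the translates of `t(q z)`

`r ∈ {2, 3}`, `q` a prime `≠ r`.  `tqH q r = t_r(q z)`, `GH q r b = t_r((z + b)/q)`.
-/

set_option autoImplicit false

open UpperHalfPlane ModularForm ModularCurve
open scoped MatrixGroups Manifold Real

noncomputable section

namespace Fermat.Agent.S34.Mod

open Fermat.Agent.S24 Fermat.Agent.S28 Fermat.Agent.S18

/-- Hermite normal form: `q (h z) = γ ((a z + b) / d)` with `a d = q`, keeping track of `γ 1 0`. -/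
theorem exists_hermite' (q : ℕ) [NeZero q] (h : SL(2, ℤ)) :
    ∃ (γ : SL(2, ℤ)) (a d : ℕ) (b : ℤ) (ha : 0 < a) (hd : 0 < d), a * d = q ∧
      γ 1 0 * a = h 1 0 ∧ ((q : ℤ) ∣ h 1 0 → d = 1) ∧
      ∀ τ : ℍ, scaleH q (h • τ) = γ • aff a d b ha hd τ := by
  have hMpos : (0 : ℤ) < q := by exact_mod_cast Nat.pos_of_ne_zero (NeZero.ne q)
  obtain ⟨u, v, A, B, a, b, d, huv, ha, hd, had, h1, h2, h3, h4⟩ :=
    IntStruct.int_factor q (h 0 0) (h 0 1) (h 1 0) (h 1 1) hMpos (IntStruct.det_eq_SL2 h)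
  lift a to ℕ using ha.le
  lift d to ℕ using hd.le
  have ha' : 0 < a := by exact_mod_cast ha
  have hd' : 0 < d := by exact_mod_cast hd
  set γ : SL(2, ℤ) := ⟨!![u, -B; v, A], by rw [Matrix.det_fin_two_of]; linear_combination huv⟩
    with hγ
  have c1 : (u : ℂ) * a = q * (h 0 0 : ℤ) := by exact_mod_cast h1
  have c2 : (v : ℂ) * a = (h 1 0 : ℤ) := by exact_mod_cast h2
  have c3 : (u : ℂ) * b - B * d = q * (h 0 1 : ℤ) := by exact_mod_cast h3
  have c4 : (v : ℂ) * b + A * d = (h 1 1 : ℤ) := by exact_mod_cast h4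
  have hdC : (d : ℂ) ≠ 0 := by exact_mod_cast hd'.ne'
  have hw : ∀ τ : ℍ, ((aff a d b ha' hd' τ : ℍ) : ℂ) = ((a : ℂ) * τ + b) / d := fun τ => rfl
  have g00 : γ 0 0 = u := rfl
  have g01 : γ 0 1 = -B := rfl
  have g10 : γ 1 0 = v := rfl
  have g11 : γ 1 1 = A := rfl
  have hden : ∀ τ : ℍ, (d : ℂ) * ((v : ℂ) * ((aff a d b ha' hd' τ : ℍ) : ℂ) + A) =
      ((h 1 0 : ℤ) : ℂ) * τ + ((h 1 1 : ℤ) : ℂ) := by
    intro τ
    rw [hw]
    field_simp
    linear_combination (τ : ℂ) * c2 + c4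
  have hnum : ∀ τ : ℍ, (d : ℂ) * ((u : ℂ) * ((aff a d b ha' hd' τ : ℍ) : ℂ) - B) =
      q * (((h 0 0 : ℤ) : ℂ) * τ + ((h 0 1 : ℤ) : ℂ)) := by
    intro τ
    rw [hw]
    field_simp
    linear_combination (τ : ℂ) * c1 + c3
  have key : ∀ τ : ℍ, scaleH q (h • τ) = γ • aff a d b ha' hd' τ := by
    intro τ
    apply UpperHalfPlane.ext
    rw [coe_specialLinearGroup_apply]
    show (q : ℂ) * ((h • τ : ℍ) : ℂ) = _
    rw [coe_specialLinearGroup_apply, g00, g01, g10, g11]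
    simp only [algebraMap_int_eq, Int.coe_castRingHom, Complex.ofReal_intCast, Int.cast_neg,
      Complex.ofReal_neg]
    rw [← sub_eq_add_neg, ← mul_div_mul_left ((u : ℂ) * _ - B) _ hdC, hden, hnum, mul_div_assoc]
  refine ⟨γ, a, d, b, ha', hd', by exact_mod_cast had, by rw [g10]; exact h2, ?_, key⟩
  rintro ⟨e, he⟩
  have hv : v = d * e := by
    apply mul_right_cancel₀ ha.ne'
    rw [h2, he, ← had]; ring
  have hu : u = d * h 0 0 := by
    apply mul_right_cancel₀ ha.ne'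
    rw [h1, ← had]; ring
  have h5 : (d : ℤ) ∣ 1 := ⟨h 0 0 * A + e * B, by linear_combination -huv + A * hu + B * hv⟩
  have h6 := Int.eq_one_of_dvd_one hd.le h5
  exact_mod_cast h6

theorem mdiff_aff (a d : ℕ) (b : ℤ) (ha : 0 < a) (hd : 0 < d) : MDiff (aff a d b ha hd) := by
  have ha' : (0 : ℝ) < a := by exact_mod_cast ha
  have hd' : (0 : ℝ) < d := by exact_mod_cast hd
  have hdet : (!![(a : ℝ), (b : ℝ); 0, (d : ℝ)] : Matrix (Fin 2) (Fin 2) ℝ).det ≠ 0 := by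
    simp [Matrix.det_fin_two, ha'.ne', hd'.ne']
  let g : GL (Fin 2) ℝ :=
    Matrix.GeneralLinearGroup.mkOfDetNeZero !![(a : ℝ), (b : ℝ); 0, (d : ℝ)] hdet
  have hg : 0 < g.det.val := by
    simp [g, Matrix.GeneralLinearGroup.mkOfDetNeZero, Matrix.det_fin_two, ha', hd']
  have : aff a d b ha hd = fun τ : ℍ => g • τ := by
    funext τ
    apply UpperHalfPlane.ext
    rw [UpperHalfPlane.coe_smul_of_det_pos hg]
    simp [g, aff, num, denom, Matrix.GeneralLinearGroup.mkOfDetNeZero]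
  rw [this]
  exact UpperHalfPlane.mdifferentiable_smul hg

variable (q r : ℕ) [NeZero q] [NeZero r]

/-- `t_r(q z)` -/
def tqH : Hol := holComp (scaleH q) (mdiff_scaleH q) (tH r)

theorem q_pos : 0 < q := Nat.pos_of_ne_zero (NeZero.ne q)

/-- `t_r((z + b) / q)` -/
def GH (b : ℤ) : Hol := holComp (aff 1 q b one_pos (q_pos q)) (mdiff_aff 1 q b one_pos (q_pos q)) (tH r)

theorem tqH_apply (τ : ℍ) : (tqH q r : ℍ → ℂ) τ = tFun r (scaleH q τ) := rfl

theorem GH_apply (b : ℤ) (τ : ℍ) : (GH q r b : ℍ → ℂ) τ = tFun r (aff 1 q b one_pos (q_pos q) τ) := rfl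

theorem coe_aff (a d : ℕ) (b : ℤ) (ha : 0 < a) (hd : 0 < d) (τ : ℍ) :
    ((aff a d b ha hd τ : ℍ) : ℂ) = ((a : ℂ) * τ + b) / d := rfl

/-- `t(q z + b) = t(q z)` -/
theorem tFun_aff_q (b : ℤ) (τ : ℍ) :
    tFun r (aff q 1 b (q_pos q) one_pos τ) = tFun r (scaleH q τ) := by
  apply tFun_congr
  apply HauptAux.qq_eq_of_coe b
  rw [coe_aff, coe_scaleH]
  simp

/-- the action of `T ^ j` -/
theorem holAct_T_zpow_GH (b j : ℤ) : holAct (ModularGroup.T ^ j) (GH q r b) = GH q r (b - j) := by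
  ext τ
  rw [holAct_apply, GH_apply, GH_apply]
  congr 1
  apply UpperHalfPlane.ext
  rw [coe_aff, coe_aff, ← zpow_neg, ModularGroup.coe_T_zpow_smul_eq]
  push_cast
  ring

theorem GH_add_mul (b j : ℤ) : GH q r (b + q * j) = GH q r b := by
  ext τ
  rw [GH_apply, GH_apply]
  apply tFun_congr
  apply HauptAux.qq_eq_of_coe j
  rw [coe_aff, coe_aff]
  have hq : (q : ℂ) ≠ 0 := by exact_mod_cast NeZero.ne q
  push_cast
  field_simp
  ring

variable {q r}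

/-- the translates of `t(q z)`, general form -/
theorem exists_holAct_tqH (g : SL(2, ℤ)) :
    ∃ (γ : SL(2, ℤ)) (a d : ℕ) (b : ℤ) (ha : 0 < a) (hd : 0 < d), a * d = q ∧
      γ 1 0 * a = g⁻¹ 1 0 ∧
      (holAct g (tqH q r) : ℍ → ℂ) = (holAct γ⁻¹ (tH r) : ℍ → ℂ) ∘ aff a d b ha hd := by
  obtain ⟨γ, a, d, b, ha, hd, had, h1, -, h2⟩ := exists_hermite' q g⁻¹
  refine ⟨γ, a, d, b, ha, hd, had, h1, ?_⟩
  funext τ
  rw [holAct_apply, tqH_apply, h2, Function.comp_apply, holAct_apply, inv_inv]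
  rfl

/-- the translates of `t(q z)` under `Γ₀(r)` -/
theorem holAct_tqH_of_dvd (hr : r = 2 ∨ r = 3) (hq : q.Prime) (hqr : q ≠ r) (g : SL(2, ℤ))
    (hg : (r : ℤ) ∣ g 1 0) :
    (holAct g (tqH q r) = tqH q r ∧ (q : ℤ) ∣ g 1 0) ∨
      ((∃ b : ℤ, holAct g (tqH q r) = GH q r b) ∧ ¬ (q : ℤ) ∣ g 1 0) := by
  obtain ⟨γ, a, d, b, ha, hd, had, h1, h0, h2⟩ := exists_hermite' q g⁻¹
  rw [HauptAux.inv_10] at h1 h0
  have hrp : Prime (r : ℤ) := by
    rw [← Nat.prime_iff_prime_int]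
    rcases hr with rfl | rfl <;> norm_num
  have hra : ¬ (r : ℤ) ∣ (a : ℤ) := by
    intro h
    have h3 : r ∣ q := (Int.natCast_dvd_natCast.mp h).trans (Dvd.intro _ had)
    rcases (Nat.dvd_prime hq).mp h3 with h4 | h4
    · rcases hr with rfl | rfl <;> omega
    · exact hqr h4.symm
  have hγ : (r : ℤ) ∣ γ 1 0 := by
    have h3 : (r : ℤ) ∣ γ 1 0 * a := by rw [h1]; exact (dvd_neg).mpr hg
    exact (hrp.dvd_or_dvd h3).resolve_right hra
  have hfun : ∀ τ, (holAct g (tqH q r) : ℍ → ℂ) τ = tFun r (aff a d b ha hd τ) := by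
    intro τ
    rw [holAct_apply, tqH_apply, h2, tFun_smul_of_dvd r hr γ hγ]
  rcases (Nat.dvd_prime hq).mp (Dvd.intro _ had) with rfl | rfl
  · right
    rw [one_mul] at had
    subst had
    refine ⟨⟨b, ?_⟩, ?_⟩
    · ext τ
      rw [hfun, GH_apply]
    · intro h
      exact hq.one_lt.ne' (h0 ((dvd_neg).mpr h))
  · left
    have hd1 : d = 1 := by
      have := Nat.eq_of_mul_eq_mul_left ha (had.trans (mul_one a).symm)
      exact this
    subst hd1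
    refine ⟨?_, ?_⟩
    · ext τ
      rw [hfun, tqH_apply, ← tFun_aff_q a r b τ]
    · exact (dvd_neg).mp ⟨γ 1 0, by rw [← h1]; ring⟩

end Fermat.Agent.S34.Mod

namespace Fermat.Agent.S34.Mod

open Fermat.Agent.S24 Fermat.Agent.S28 Fermat.Agent.S18

variable {q r : ℕ} [NeZero q] [NeZero r] (M : ℕ) [NeZero M]

/-- all the translates of `t(q z)` have integral expansions; they vanish at the cusps which are not above
`∞ ∈ X₀(r)` -/
theorem exists_rel_holAct_tqH (hr : r = 2 ∨ r = 3) (hM : r * q ∣ M) (g : SL(2, ℤ)) :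
    ∃ s : LaurentSeries Zb, Rel M (holAct g (tqH q r) : ℍ → ℂ) s ∧
      (¬ (r : ℤ) ∣ g 1 0 → ∀ n : ℤ, n ≤ 0 → s.coeff n = 0) := by
  obtain ⟨γ, a, d, b, ha, hd, had, h1, hfun⟩ := exists_holAct_tqH (q := q) (r := r) g
  obtain ⟨m, hm⟩ := hM
  have hrel := rel_eps r (γ⁻¹ • tA r r hr dvd_rfl)
  obtain ⟨s', hs', hc1, hc2⟩ := hrel.affine (N := M) a d b ha hd (a * a * m) (by
    rw [hm, ← had]; ring)
  refine ⟨s', by rw [hfun]; exact hs', fun hg n hn => ?_⟩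
  have hγ : ¬ (r : ℤ) ∣ γ⁻¹ 1 0 := by
    rw [HauptAux.inv_10, dvd_neg]
    intro h
    apply hg
    have h3 : (r : ℤ) ∣ g⁻¹ 1 0 := by rw [← h1]; exact Dvd.dvd.mul_right h _
    rw [HauptAux.inv_10] at h3
    exact (dvd_neg).mp h3
  have hm0 : 0 < m := by
    rcases Nat.eq_zero_or_pos m with h | h
    · exact absurd (by rw [hm, h, mul_zero]) (NeZero.ne M)
    · exact h
  have hA : (0 : ℤ) < ((a * a * m : ℕ) : ℤ) := by
    exact_mod_cast Nat.mul_pos (Nat.mul_pos ha ha) hm0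
  by_cases hdv : ((a * a * m : ℕ) : ℤ) ∣ n
  · obtain ⟨k, rfl⟩ := hdv
    have hk : k ≤ 0 := by
      by_contra hk
      push Not at hk
      have := mul_pos hA hk
      omega
    apply Subtype.ext
    rw [hc1 k, coeff_eps_smul_tA r r hr dvd_rfl γ⁻¹ hγ k (by
      have hr0 : (0 : ℤ) < r := by exact_mod_cast HauptAux.r_pos r
      nlinarith)]
    simp
  · exact hc2 n hdv

theorem tqH_mem_AL (hr : r = 2 ∨ r = 3) (hq : q.Prime) (hqr : q ≠ r) (hM : r * q ∣ M) :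
    tqH q r ∈ AL M := by
  refine ⟨fun γ hγ => ?_, fun g => ?_⟩
  · have h1 : (M : ℤ) ∣ γ 1 0 := by
      have := (CongruenceSubgroup.Gamma_mem.mp hγ).2.2.1
      exact (ZMod.intCast_zmod_eq_zero_iff_dvd _ _).mp this
    have h2 : ((r * q : ℕ) : ℤ) ∣ γ 1 0 := (Int.natCast_dvd_natCast.mpr hM).trans h1
    push_cast at h2
    rcases holAct_tqH_of_dvd hr hq hqr γ ((Dvd.intro _ rfl).trans h2) with h | h
    · exact h.1
    · exact absurd ((Dvd.intro_left _ rfl).trans h2) h.2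
  · obtain ⟨s, hs, -⟩ := exists_rel_holAct_tqH M hr hM g
    exact ⟨s, hs⟩

variable (q r)

/-- `t_r(q z)` as an element of `AL M` -/
def tqA (hr : r = 2 ∨ r = 3) (hq : q.Prime) (hqr : q ≠ r) (hM : r * q ∣ M) : AL M :=
  ⟨tqH q r, tqH_mem_AL M hr hq hqr hM⟩

variable (hr : r = 2 ∨ r = 3) (hq : q.Prime) (hqr : q ≠ r) (hM : r * q ∣ M)

theorem coeff_eps_smul_tqA (g : SL(2, ℤ)) (hg : ¬ (r : ℤ) ∣ g 1 0) (n : ℤ) (hn : n ≤ 0) :
    (eps M (g • tqA q r M hr hq hqr hM)).coeff n = 0 := by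
  obtain ⟨s, hs, h⟩ := exists_rel_holAct_tqH (q := q) M hr hM g
  rw [eps_eq M (f := g • tqA q r M hr hq hqr hM) hs]
  exact h hg n hn

theorem smul_tqA (g : SL(2, ℤ)) (hg : (r : ℤ) ∣ g 1 0) (hg' : (q : ℤ) ∣ g 1 0) :
    g • tqA q r M hr hq hqr hM = tqA q r M hr hq hqr hM := by
  apply Subtype.ext
  rcases holAct_tqH_of_dvd hr hq hqr g hg with h | h
  · exact h.1
  · exact absurd hg' h.2

end Fermat.Agent.S34.Mod
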