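import Fermat.Agent.S34.Mod.Core
import Fermat.Agent.S35.TorDesc
import Fermat.Agent.S35.Unit
import Fermat.Agent.S29.ESRel

/-!
# S34 / MOD-MAIN-I : `(s - 1)(s' - 1) = 0` on Kummer classes for `s, s'` in the inertia group at `q ‖ N`  (helper14)

* `mainI_cong_inertia` : `ES.Alg.cong_inertia` with a UNIT constant (`S35.exists_unit_conj_div`);
* `mainI_haupt` : level `M1 q`, `r ∣ M1` : `S34.Mod.tor_core` with `Q = 1`, `actsLike_inertia`, applied to `v = s' u / u`;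
* `mainI_level` : any level `M1 q`, exponent `p ^ k` : pass to `lcm(M1, r) q` (`S35/TorDesc.lean`);
* `inertiaSq_main` : the statement used by `S34/ES.lean`.
-/

set_option autoImplicit false
set_option synthInstance.maxHeartbeats 400000
set_option linter.unusedSectionVars false

open HahnSeries ModularCurve AlgebraicCurve Fermat.Agent.S24 Fermat.Agent.S29 Fermat.Agent.S18
  Fermat.Agent.ES Fermat.Agent.ES.Alg

noncomputable section

namespace Fermat.Agent.S34.Mod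

/-- inertia acts trivially modulo the maximal ideal, with a unit constant -/
theorem mainI_cong_inertia {N : ℕ} [NeZero N] {A : ValuationSubring Kb} {σ : GQ}
    (hσ : σ ∈ A.inertiaSubgroupIn ℚ) (u : FN N) (hu : u ≠ 0) :
    ∃ a : Aˣ, Cong A N (algebraMap Kb (FN N) ((a : A) : Kb) * (gal N σ u * u⁻¹)) := by
  obtain ⟨c0, x1, x2, r1, r2, hc0, h1, h2, hr1, hr2, h⟩ := exists_intRed A u hu
  have hs : gal N σ u * gal N σ x2 = algebraMap Kb (FN N) (σ c0) * gal N σ x1 := by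
    rw [← map_mul, h, map_mul, gal_algebraMap]
  have hσc : σ c0 ≠ 0 := (map_ne_zero_iff _ σ.injective).mpr hc0
  have hσc' : algebraMap Kb (FN N) (σ c0) ≠ 0 :=
    (map_ne_zero_iff _ (algebraMap Kb (FN N)).injective).mpr hσc
  obtain ⟨a, ha⟩ := S35.exists_unit_conj_div (mem_decomp_of_mem_inertia hσ) hc0
  refine ⟨a, ?_⟩
  rw [ha, div_eq_mul_inv]
  have hX1 := (h1.inertia hσ).mul h2
  have hX2 := (h2.inertia hσ).mul h1
  rw [mul_comm r2 r1] at hX2
  refine Cong.of_intRed hX1 hX2 (mul_ne_zero hr1 hr2) ?_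
  have e1 : (algebraMap Kb (FN N) (σ c0))⁻¹ * (gal N σ u * gal N σ x2) = gal N σ x1 := by
    rw [hs, inv_mul_cancel_left₀ hσc']
  have e2 : u⁻¹ * (algebraMap Kb (FN N) c0 * x1) = x2 := by
    rw [← h, inv_mul_cancel_left₀ hu]
  rw [map_mul, map_inv₀]
  calc _ = ((algebraMap Kb (FN N) (σ c0))⁻¹ * (gal N σ u * gal N σ x2)) *
        (u⁻¹ * (algebraMap Kb (FN N) c0 * x1)) := by ring
    _ = _ := by rw [e1, e2]

variable {M1 q : ℕ} [NeZero M1] [NeZero q]

/-- the statement at level `M1 * q` -/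
def MainI (M1 q m : ℕ) [NeZero M1] [NeZero q] : Prop :=
  ∀ A : ValuationSubring Kb, A.LiesOverPrime q →
    ∀ s ∈ A.inertiaSubgroupIn ℚ, ∀ s' ∈ A.inertiaSubgroupIn ℚ, ∀ u : FN (M1 * q),
      PDiv Kb (FN (M1 * q)) m u →
      ∃ h : FN (M1 * q), gal (M1 * q) s (gal (M1 * q) s' u) * u =
        gal (M1 * q) s u * gal (M1 * q) s' u * h ^ m

/-- level divisible by `r ∈ {2, 3}` -/
theorem mainI_haupt (r m : ℕ) (hr : r = 2 ∨ r = 3) (hr1 : r ∣ M1) (hq : q.Prime)
    (h : Nat.Coprime q M1) (hm : ¬ q ∣ m) (hm0 : m ≠ 0) : MainI M1 q m := by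
  intro A hA s hs s' hs' u hu
  have : NeZero r := ⟨by rcases hr with rfl | rfl <;> norm_num⟩
  have S : Setup M1 q r A := ⟨hr, hr1, hq, h, hA⟩
  have hu0 : u ≠ 0 := hu.1
  have hsu0 : gal (M1 * q) s u ≠ 0 := (map_ne_zero_iff _ (gal (M1 * q) s).injective).mpr hu0
  have hv : PDiv Kb (FN (M1 * q)) m (gal (M1 * q) s' u * u⁻¹) :=
    PDiv.mul (PDiv.gal hu s') (PDiv.inv hu)
  have c2 : ∃ a : Aˣ, Cong A (M1 * q) (algebraMap Kb (FN (M1 * q)) ((a : A) : Kb) *
      Wq S.hc (gal (M1 * q) s' u * u⁻¹)) := by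
    obtain ⟨a, ha⟩ := mainI_cong_inertia (A := A) hs' (Wq S.hc u)
      ((map_ne_zero_iff _ (Wq S.hc).injective).mpr hu0)
    refine ⟨a, ?_⟩
    rwa [map_mul, map_inv₀, ← gal_Wq hq S.hc]
  obtain ⟨g, hg⟩ := tor_core S (Nat.pos_of_ne_zero hm0) hm (mem_decomp_of_mem_inertia hs)
    one_pos (fun b => actsLike_inertia S hs b) _ hv (mainI_cong_inertia hs' u hu0) c2
  refine ⟨g, ?_⟩
  rw [map_mul, map_inv₀, pow_one] at hg
  field_simp at hg
  rw [hg]

/-- descent -/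
theorem mainI_descent {M1' : ℕ} [NeZero M1'] {m : ℕ}
    (hle : modularFunctionFieldBar (M1 * q) ≤ modularFunctionFieldBar (M1' * q))
    (hdesc : ∀ g : LaurentSeries Kb, g ∈ modularFunctionFieldBar (M1' * q) →
      g ^ m ∈ modularFunctionFieldBar (M1 * q) → g ∈ modularFunctionFieldBar (M1 * q))
    (hT : MainI M1' q m) : MainI M1 q m := by
  intro A hA s hs s' hs' u hu
  obtain ⟨g, hg⟩ := hT A hA s hs s' hs' (S35.incl hle u) (S35.PDiv.incl hle hu)
  have hu0 : u ≠ 0 := hu.1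
  have hsu0 : gal (M1 * q) s u ≠ 0 := (map_ne_zero_iff _ (gal (M1 * q) s).injective).mpr hu0
  have hs'u0 : gal (M1 * q) s' u ≠ 0 := (map_ne_zero_iff _ (gal (M1 * q) s').injective).mpr hu0
  set w : FN (M1 * q) := gal (M1 * q) s (gal (M1 * q) s' u) * u *
    (gal (M1 * q) s u * gal (M1 * q) s' u)⁻¹ with hw
  have hg' : (g : LaurentSeries Kb) ^ m = (w : LaurentSeries Kb) := by
    have h1 : S35.incl hle w = g ^ m := by
      rw [hw, map_mul, map_mul, map_inv₀, map_mul, ← S35.incl_gal, ← S35.incl_gal,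
        ← S35.incl_gal, hg]
      have a1 : gal (M1' * q) s (S35.incl hle u) ≠ 0 := by
        rw [S35.incl_gal]
        exact (map_ne_zero_iff _ (S35.incl hle).injective).mpr hsu0
      have a2 : gal (M1' * q) s' (S35.incl hle u) ≠ 0 := by
        rw [S35.incl_gal]
        exact (map_ne_zero_iff _ (S35.incl hle).injective).mpr hs'u0
      field_simp
    have h2 := congrArg (fun x : FN (M1' * q) => (x : LaurentSeries Kb)) h1
    simp only [S35.coe_incl] at h2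
    rw [h2]
    push_cast
    rfl
  have hgm : (g : LaurentSeries Kb) ∈ modularFunctionFieldBar (M1 * q) :=
    hdesc _ g.2 (by rw [hg']; exact w.2)
  refine ⟨⟨g, hgm⟩, ?_⟩
  have h3 : (⟨g, hgm⟩ : FN (M1 * q)) ^ m = w := Subtype.ext (by push_cast; exact hg')
  rw [h3, hw]
  field_simp

/-- any level `M1 * q`, exponent `p ^ k` -/
theorem mainI_level (p k : ℕ) (hq : q.Prime) (h : Nat.Coprime q M1) (hp : p.Prime)
    (hpq : p ≠ q) : MainI M1 q (p ^ k) := by
  obtain ⟨r, hr, hrq, hpr⟩ := KLAllAux.exists_aux hpq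
  have hrp : r.Prime := by rcases hr with rfl | rfl <;> norm_num
  have : NeZero (Nat.lcm M1 r) := ⟨Nat.lcm_ne_zero (NeZero.ne M1) hrp.ne_zero⟩
  have h' : Nat.Coprime q (Nat.lcm M1 r) := by
    rw [Nat.Prime.coprime_iff_not_dvd hq]
    intro hd
    rcases (hq.dvd_mul).mp (hd.trans (Nat.lcm_dvd_mul M1 r)) with h1 | h1
    · exact (Nat.Prime.coprime_iff_not_dvd hq).mp h h1
    · exact hrq ((Nat.prime_dvd_prime_iff_eq hq hrp).mp h1).symm
  have hqm : ¬ q ∣ p ^ k := fun hd =>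
    hpq ((Nat.prime_dvd_prime_iff_eq hq hp).mp (hq.dvd_of_dvd_pow hd)).symm
  refine mainI_descent (Descent.bar_le (Nat.mul_dvd_mul_right (Nat.dvd_lcm_left M1 r) q)) ?_
    (mainI_haupt (M1 := Nat.lcm M1 r) r (p ^ k) hr (Nat.dvd_lcm_right M1 r) hq h' hqm
      (pow_ne_zero _ hp.ne_zero))
  intro g hg hgm
  rw [← S35.lcm_mul_of_ne hq hrp hrq] at hg
  exact S35.mem_of_pow_pow_mem_lcm hrp hp (hpr hp) k g hg hgm

/-- the toric theorem on Kummer elements, exponent `p ^ k` -/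
theorem inertiaSq_main (N p k : ℕ) [NeZero N] (hp : p.Prime) (q : ℕ) (hq : q.Prime) (hqN : q ∣ N)
    (hq2 : ¬ q ^ 2 ∣ N) (hqm : ¬ q ∣ p ^ k) (A : ValuationSubring Kb) (hA : A.LiesOverPrime q)
    (s : GQ) (hs : s ∈ A.inertiaSubgroupIn ℚ) (s' : GQ) (hs' : s' ∈ A.inertiaSubgroupIn ℚ)
    (u : FN N) (hu : PDiv Kb (FN N) (p ^ k) u) :
    ∃ h : FN N, gal N s (gal N s' u) * u = gal N s u * gal N s' u * h ^ (p ^ k) := by
  obtain ⟨M1, hN⟩ := hqN
  rw [mul_comm] at hN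
  subst hN
  have : NeZero q := ⟨hq.ne_zero⟩
  have : NeZero M1 := ⟨fun h0 => NeZero.ne (M1 * q) (by rw [h0, zero_mul])⟩
  have hc : Nat.Coprime q M1 := by
    rw [Nat.Prime.coprime_iff_not_dvd hq]
    rintro ⟨t, rfl⟩
    exact hq2 ⟨t, by ring⟩
  rcases Nat.eq_zero_or_pos k with rfl | hk
  · have hu0 : u ≠ 0 := hu.1
    have a1 : gal (M1 * q) s u ≠ 0 := (map_ne_zero_iff _ (gal (M1 * q) s).injective).mpr hu0
    have a2 : gal (M1 * q) s' u ≠ 0 := (map_ne_zero_iff _ (gal (M1 * q) s').injective).mpr hu0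
    refine ⟨gal (M1 * q) s (gal (M1 * q) s' u) * u *
      (gal (M1 * q) s u * gal (M1 * q) s' u)⁻¹, ?_⟩
    rw [pow_zero, pow_one]
    field_simp
  · have hpq : p ≠ q := by
      rintro rfl
      exact hqm (dvd_pow_self p hk.ne')
    exact mainI_level p k hq hc hp hpq A hA s hs s' hs' u hu

end Fermat.Agent.S34.Mod
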